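import Fermat.Agent.S20.GradedFree
import Fermat.Agent.S23.SepSep

/-!
# S20, piece (B): `M_*(Γ)` is a free graded module over `M_*(SL₂(ℤ))`
-/

set_option autoImplicit false

namespace Fermat.Agent.S20

open UpperHalfPlane ModularForm EisensteinSeries Filter Topology Matrix.SpecialLinearGroup
open scoped MatrixGroups Manifold

/-- Modular forms of weight `k` for `Γ`, as a subspace of the algebra of all functions. -/
def mfSub (Γ : Subgroup (GL (Fin 2) ℝ)) [Γ.HasDetOne] (k : ℤ) : Submodule ℂ (ℍ → ℂ) where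
  carrier := {f | ∃ F : ModularForm Γ k, ⇑F = f}
  add_mem' := by
    rintro _ _ ⟨F, rfl⟩ ⟨G, rfl⟩
    exact ⟨F + G, rfl⟩
  zero_mem' := ⟨0, rfl⟩
  smul_mem' := by
    rintro c _ ⟨F, rfl⟩
    exact ⟨c • F, rfl⟩

lemma mem_mfSub {Γ : Subgroup (GL (Fin 2) ℝ)} [Γ.HasDetOne] {k : ℤ} {f : ℍ → ℂ} :
    f ∈ mfSub Γ k ↔ ∃ F : ModularForm Γ k, ⇑F = f := Iff.rfl

lemma coe_mem_mfSub {Γ : Subgroup (GL (Fin 2) ℝ)} [Γ.HasDetOne] {k : ℤ} (F : ModularForm Γ k) :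
    ⇑F ∈ mfSub Γ k := ⟨F, rfl⟩

variable (Γ : Subgroup SL(2, ℤ)) [Γ.FiniteIndex]

/-- Criterion for being a modular form for a finite index subgroup of `SL₂(ℤ)`. -/
lemma mem_mfSub_iff {k : ℤ} {f : ℍ → ℂ} :
    f ∈ mfSub (Γ : Subgroup (GL (Fin 2) ℝ)) k ↔
      (∀ γ ∈ Γ, f ∣[k] γ = f) ∧ MDiff f ∧ ∀ g : SL(2, ℤ), IsBoundedAtImInfty (f ∣[k] g) := by
  constructor
  · rintro ⟨F, rfl⟩
    refine ⟨fun γ hγ => ?_, F.holo', fun g => ModularFormClass.bdd_at_infty_slash F g⟩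
    exact F.slash_action_eq' _ ⟨γ, hγ, rfl⟩
  · rintro ⟨h1, h2, h3⟩
    refine ⟨{ toFun := f, slash_action_eq' := ?_, holo' := h2, bdd_at_cusps' := ?_ }, rfl⟩
    · rintro _ ⟨γ, hγ, rfl⟩
      exact h1 γ hγ
    · intro c hc
      rw [Subgroup.IsArithmetic.isCusp_iff_isCusp_SL2Z] at hc
      rw [OnePoint.isBoundedAt_iff_forall_SL2Z hc]
      exact fun γ _ => h3 γ


omit [Γ.FiniteIndex] in
lemma coe_le_SL : (Γ : Subgroup (GL (Fin 2) ℝ)) ≤ 𝒮ℒ := by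
  rintro _ ⟨γ, _, rfl⟩
  exact ⟨γ, rfl⟩

omit [Γ.FiniteIndex] in
lemma mfSub_mul_mem {a b : ℤ} {r f : ℍ → ℂ} (hr : r ∈ mfSub 𝒮ℒ a)
    (hf : f ∈ mfSub (Γ : Subgroup (GL (Fin 2) ℝ)) b) :
    r * f ∈ mfSub (Γ : Subgroup (GL (Fin 2) ℝ)) (a + b) := by
  obtain ⟨F, rfl⟩ := hr
  obtain ⟨G, rfl⟩ := hf
  exact ⟨(Fermat.Agent.S23.restrictMF (coe_le_SL Γ) F).mul G, rfl⟩

lemma mfSub_SL_mul_mem {a b : ℤ} {r f : ℍ → ℂ} (hr : r ∈ mfSub 𝒮ℒ a)
    (hf : f ∈ mfSub 𝒮ℒ b) : r * f ∈ mfSub 𝒮ℒ (a + b) := by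
  obtain ⟨F, rfl⟩ := hr
  obtain ⟨G, rfl⟩ := hf
  exact ⟨F.mul G, rfl⟩

lemma E₄_or_E₆_ne_zero (z : ℍ) : E₄ z ≠ 0 ∨ E₆ z ≠ 0 := by
  by_contra h
  push Not at h
  have := discriminant_eq_E₄_cube_sub_E₆_sq z
  rw [h.1, h.2] at this
  exact discriminant_ne_zero z (by simpa using this)

/-- Cancellation: `E₄` and `E₆` have no common zero. -/
lemma eq_of_E₄_mul_eq_of_E₆_mul_eq {a b : ℍ → ℂ} (h4 : ⇑E₄ * a = ⇑E₄ * b)
    (h6 : ⇑E₆ * a = ⇑E₆ * b) : a = b := by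
  funext z
  rcases E₄_or_E₆_ne_zero z with h | h
  · exact mul_left_cancel₀ h (congrFun h4 z)
  · exact mul_left_cancel₀ h (congrFun h6 z)

lemma tendsto_levelOne {k : ℤ} (F : ModularForm 𝒮ℒ k) :
    Tendsto (⇑F : ℍ → ℂ) atImInfty (𝓝 ((qExpansion 1 F).coeff 0)) :=
  Fermat.Agent.S23.sep_nice_tendsto (Fermat.Agent.S23.coe_mem_Nice one_mem_strictPeriods_SL F)

lemma tendsto_E {k : ℕ} (hk : 3 ≤ k) (hk2 : Even k) :
    Tendsto (⇑(E hk) : ℍ → ℂ) atImInfty (𝓝 1) := by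
  have := tendsto_levelOne (E hk)
  rwa [E_qExpansion_coeff_zero hk hk2] at this

/-- (B2) division by `E₄`. -/
theorem exists_eq_E₄_mul {w : ℤ} {f g : ℍ → ℂ}
    (hf : f ∈ mfSub (Γ : Subgroup (GL (Fin 2) ℝ)) w)
    (hg : g ∈ mfSub (Γ : Subgroup (GL (Fin 2) ℝ)) (w + 2)) (hfg : ⇑E₆ * f = ⇑E₄ * g) :
    ∃ h ∈ mfSub (Γ : Subgroup (GL (Fin 2) ℝ)) (w - 4), f = ⇑E₄ * h := by
  classical
  obtain ⟨hf1, hf2, hf3⟩ := (mem_mfSub_iff Γ).mp hf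
  obtain ⟨hg1, hg2, hg3⟩ := (mem_mfSub_iff Γ).mp hg
  set h : ℍ → ℂ := fun z => if E₄ z ≠ 0 then f z / E₄ z else g z / E₆ z with hh
  have h4 : f = ⇑E₄ * h := by
    funext z
    by_cases hz : E₄ z ≠ 0
    · simp only [hh, Pi.mul_apply, if_pos hz]
      field_simp
    · have hz' : E₄ z = 0 := not_not.mp hz
      have hz6 : E₆ z ≠ 0 := (E₄_or_E₆_ne_zero z).resolve_left hz
      have := congrFun hfg z
      simp only [Pi.mul_apply, hz', zero_mul] at this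
      simp only [Pi.mul_apply, hz', zero_mul]
      exact (mul_eq_zero.mp this).resolve_left hz6
  have h6 : g = ⇑E₆ * h := by
    funext z
    by_cases hz : E₄ z ≠ 0
    · have := congrFun hfg z
      simp only [Pi.mul_apply] at this
      simp only [hh, Pi.mul_apply, if_pos hz]
      field_simp
      linear_combination -this
    · have hz6 : E₆ z ≠ 0 := (E₄_or_E₆_ne_zero z).resolve_left hz
      simp only [hh, Pi.mul_apply, if_neg hz]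
      field_simp
  have hslash : ∀ γ : SL(2, ℤ), ⇑E₄ * (h ∣[w - 4] γ) = f ∣[w] γ ∧
      ⇑E₆ * (h ∣[w - 4] γ) = g ∣[w + 2] γ := by
    intro γ
    have e4 : (⇑E₄ : ℍ → ℂ) ∣[(4 : ℤ)] γ = ⇑E₄ := E₄.slash_action_eq' _ ⟨γ, rfl⟩
    have e6 : (⇑E₆ : ℍ → ℂ) ∣[(6 : ℤ)] γ = ⇑E₆ := E₆.slash_action_eq' _ ⟨γ, rfl⟩
    constructor
    · have := mul_slash_SL2 4 (w - 4) γ ⇑E₄ h
      rw [e4, ← h4] at this
      rw [← this]; congr 1; ring
    · have := mul_slash_SL2 6 (w - 4) γ ⇑E₆ h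
      rw [e6, ← h6] at this
      rw [← this]; congr 1; ring
  refine ⟨h, (mem_mfSub_iff Γ).mpr ⟨fun γ hγ => ?_, ?_, fun γ => ?_⟩, h4⟩
  · apply eq_of_E₄_mul_eq_of_E₆_mul_eq
    · rw [(hslash γ).1, hf1 γ hγ, ← h4]
    · rw [(hslash γ).2, hg1 γ hγ, ← h6]
  · intro z
    rcases E₄_or_E₆_ne_zero z with hz | hz
    · have hev : ∀ᶠ u in 𝓝 z, E₄ u ≠ 0 :=
        (ModularFormClass.continuous E₄).continuousAt.eventually_ne hz
      have : h =ᶠ[𝓝 z] fun u => f u / E₄ u := by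
        filter_upwards [hev] with u hu
        simp only [hh, if_pos hu]
      exact ((hf2 z).div (E₄.holo' z) hz).congr_of_eventuallyEq this
    · have hev : ∀ᶠ u in 𝓝 z, E₆ u ≠ 0 :=
        (ModularFormClass.continuous E₆).continuousAt.eventually_ne hz
      have : h =ᶠ[𝓝 z] fun u => g u / E₆ u := by
        filter_upwards [hev] with u hu
        rw [h6]
        simp only [Pi.mul_apply]
        field_simp
      exact ((hg2 z).div (E₆.holo' z) hz).congr_of_eventuallyEq this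
  · -- boundedness at `i∞`
    have hb := hf3 γ
    rw [← (hslash γ).1] at hb
    have hE : Tendsto (⇑E₄ : ℍ → ℂ) atImInfty (𝓝 1) := Fermat.Agent.S23.sep_E₄_tendsto
    have hinv : Tendsto (fun z => (E₄ z)⁻¹) atImInfty (𝓝 1) := by
      simpa using hE.inv₀ one_ne_zero
    have hbinv : IsBoundedAtImInfty (fun z => (E₄ z)⁻¹) := hinv.isBigO_one ℝ
    have hne : ∀ᶠ z in atImInfty, E₄ z ≠ 0 := hE.eventually_ne one_ne_zero
    have hprod : IsBoundedAtImInfty ((fun z => (E₄ z)⁻¹) * (⇑E₄ * (h ∣[w - 4] γ))) :=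
      hbinv.mul hb
    refine Asymptotics.IsBigO.congr' hprod ?_ EventuallyEq.rfl
    filter_upwards [hne] with z hz
    simp only [Pi.mul_apply]
    field_simp


lemma one_mem_mfSub_SL : (1 : ℍ → ℂ) ∈ mfSub 𝒮ℒ 0 := ⟨1, one_coe_eq_one⟩

/-- A level one form with limit `1` at `i∞` exists in weight `0` and in even weights `≥ 4`. -/
lemma exists_tendsto_one {w : ℤ} (hw : Even w) (h : w = 0 ∨ 4 ≤ w) :
    ∃ P ∈ mfSub 𝒮ℒ w, Tendsto P atImInfty (𝓝 1) := by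
  rcases h with rfl | h
  · exact ⟨1, one_mem_mfSub_SL, tendsto_const_nhds⟩
  · obtain ⟨n, rfl⟩ : ∃ n : ℕ, w = n := ⟨w.toNat, by omega⟩
    have hn : 3 ≤ n := by omega
    have hn2 : Even n := by exact_mod_cast hw
    exact ⟨E hn, coe_mem_mfSub _, tendsto_E hn hn2⟩

/-- A level one form tending to `0` at `i∞` is divisible by `E₄³ - E₆²`. -/
lemma exists_eq_mul_of_tendsto_zero {w : ℤ} {r : ℍ → ℂ} (hr : r ∈ mfSub 𝒮ℒ w)
    (h0 : Tendsto r atImInfty (𝓝 0)) :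
    ∃ G ∈ mfSub 𝒮ℒ (w - 12), r = (⇑E₄ ^ 3 - ⇑E₆ ^ 2) * G := by
  obtain ⟨F, rfl⟩ := hr
  have hc : (qExpansion 1 F).coeff 0 = 0 := tendsto_nhds_unique (tendsto_levelOne F) h0
  refine ⟨(1 / 1728 : ℂ) • ⇑(CuspForm.discriminantEquiv (toCuspForm F hc)),
    Submodule.smul_mem _ _ (coe_mem_mfSub _), ?_⟩
  funext z
  have h1 := discriminant_mul_discriminantEquiv_apply (toCuspForm F hc) z
  rw [toCuspForm_apply, discriminant_eq_E₄_cube_sub_E₆_sq] at h1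
  simp only [Pi.mul_apply, Pi.sub_apply, Pi.pow_apply, Pi.smul_apply, smul_eq_mul]
  rw [← h1]; ring

lemma levelOne_decomp (w : ℤ) (r : ℍ → ℂ) (hr : r ∈ mfSub 𝒮ℒ w) :
    ∃ (α : ℂ), ∃ r' ∈ mfSub 𝒮ℒ (w - 6), ∃ b ∈ mfSub 𝒮ℒ (w - 4),
      r = α • (1 : ℍ → ℂ) + ⇑E₆ * r' + ⇑E₄ * b ∧ (w ≠ 0 → α = 0) := by
  have hzero : r = 0 → ∃ (α : ℂ), ∃ r' ∈ mfSub 𝒮ℒ (w - 6), ∃ b ∈ mfSub 𝒮ℒ (w - 4),
      r = α • (1 : ℍ → ℂ) + ⇑E₆ * r' + ⇑E₄ * b ∧ (w ≠ 0 → α = 0) := by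
    rintro rfl
    exact ⟨0, 0, zero_mem _, 0, zero_mem _, by simp, fun _ => rfl⟩
  obtain ⟨F, rfl⟩ := hr
  rcases lt_trichotomy w 0 with hw | rfl | hw
  · exact hzero (by rw [isZero_of_neg_weight hw F]; rfl)
  · obtain ⟨c, hc⟩ := ModularFormClass.levelOne_weight_zero_const F
    refine ⟨c, 0, zero_mem _, 0, zero_mem _, ?_, fun h => absurd rfl h⟩
    rw [hc]; funext z; simp
  rcases Int.even_or_odd w with hev | hodd
  swap
  · exact hzero (by rw [levelOne_odd_weight_eq_zero hodd F]; rfl)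
  by_cases hw2 : w = 2
  · subst hw2
    have := rank_zero_iff_forall_zero.mp levelOne_weight_two_rank_zero F
    exact hzero (by rw [this]; rfl)
  have hw4 : 4 ≤ w := by
    obtain ⟨m, rfl⟩ := hev
    omega
  -- a decomposable form with limit `1`
  obtain ⟨P1, hP1, P2, hP2, hlim⟩ : ∃ P1 ∈ mfSub 𝒮ℒ (w - 4), ∃ P2 ∈ mfSub 𝒮ℒ (w - 6),
      Tendsto (⇑E₄ * P1 + ⇑E₆ * P2) atImInfty (𝓝 1) := by
    by_cases hw6 : w = 6
    · subst hw6
      refine ⟨0, zero_mem _, 1, one_mem_mfSub_SL, ?_⟩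
      simpa using tendsto_E (k := 6) (by norm_num) ⟨3, rfl⟩
    · obtain ⟨P, hP, hPl⟩ := exists_tendsto_one (w := w - 4) (by
        obtain ⟨m, rfl⟩ := hev
        exact ⟨m - 2, by ring⟩) (by
        obtain ⟨m, rfl⟩ := hev
        omega)
      refine ⟨P, hP, 0, zero_mem _, ?_⟩
      have := (tendsto_E (k := 4) (by norm_num) ⟨2, rfl⟩).mul hPl
      rw [mul_one] at this
      rw [mul_zero, add_zero]
      exact this
  set c := (qExpansion 1 F).coeff 0 with hc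
  have hPmem : ⇑E₄ * P1 + ⇑E₆ * P2 ∈ mfSub 𝒮ℒ w := by
    have h1 := mfSub_SL_mul_mem (coe_mem_mfSub E₄) hP1
    have h2 := mfSub_SL_mul_mem (coe_mem_mfSub E₆) hP2
    have e1 : (4 : ℤ) + (w - 4) = w := by ring
    have e2 : (6 : ℤ) + (w - 6) = w := by ring
    rw [e1] at h1
    rw [e2] at h2
    exact add_mem h1 h2
  have hdiff : ⇑F - c • (⇑E₄ * P1 + ⇑E₆ * P2) ∈ mfSub 𝒮ℒ w :=
    sub_mem (coe_mem_mfSub F) (Submodule.smul_mem _ _ hPmem)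
  have hdl : Tendsto (⇑F - c • (⇑E₄ * P1 + ⇑E₆ * P2)) atImInfty (𝓝 0) := by
    have := (tendsto_levelOne F).sub (hlim.const_smul c)
    rw [← hc, smul_eq_mul, mul_one, sub_self] at this
    exact this
  obtain ⟨G, hG, hFG⟩ := exists_eq_mul_of_tendsto_zero hdiff hdl
  refine ⟨0, c • P2 - ⇑E₆ * G, ?_, c • P1 + ⇑E₄ ^ 2 * G, ?_, ?_, fun _ => rfl⟩
  · refine sub_mem (Submodule.smul_mem _ _ hP2) ?_
    have := mfSub_SL_mul_mem (coe_mem_mfSub E₆) hG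
    have e : (6 : ℤ) + (w - 12) = w - 6 := by ring
    rwa [e] at this
  · refine add_mem (Submodule.smul_mem _ _ hP1) ?_
    have := mfSub_SL_mul_mem (coe_mem_mfSub E₄) (mfSub_SL_mul_mem (coe_mem_mfSub E₄) hG)
    have e : (4 : ℤ) + (4 + (w - 12)) = w - 4 := by ring
    rw [e] at this
    rwa [pow_two, mul_assoc]
  · have : ⇑F = (⇑F - c • (⇑E₄ * P1 + ⇑E₆ * P2)) + c • (⇑E₄ * P1 + ⇑E₆ * P2) := by ring
    rw [this, hFG]
    funext z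
    simp only [Pi.add_apply, Pi.mul_apply, Pi.sub_apply, Pi.pow_apply, Pi.smul_apply,
      smul_eq_mul, Pi.one_apply]
    ring

/-- The regular sequence data for `M_*(Γ)` over `M_*(SL₂(ℤ))`. -/
theorem regData : RegData (fun w => mfSub (Γ : Subgroup (GL (Fin 2) ℝ)) w)
    (fun w => mfSub 𝒮ℒ w) (⇑E₄) (⇑E₆) where
  M_neg w hw := by
    rw [eq_bot_iff]
    rintro _ ⟨F, rfl⟩
    rw [isZero_of_neg_weight hw F]; rfl
  R_neg w hw := by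
    rw [eq_bot_iff]
    rintro _ ⟨F, rfl⟩
    rw [isZero_of_neg_weight hw F]; rfl
  one_mem := one_mem_mfSub_SL
  x_mem := coe_mem_mfSub E₄
  y_mem := coe_mem_mfSub E₆
  R_mul_R _ _ _ _ hr hs := mfSub_SL_mul_mem hr hs
  R_mul_M _ _ _ _ hr hf := mfSub_mul_mem Γ hr hf
  reg_x w f hf h := by
    obtain ⟨F, rfl⟩ := hf
    rcases (UpperHalfPlane.mul_eq_zero_iff E₄.holo' F.holo').mp h with h0 | h0
    · have h1 : E₄ = 0 := DFunLike.coe_injective h0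
      exact absurd h1 (E_ne_zero _ ⟨2, rfl⟩)
    · exact h0
  reg_y w f g hf hg h := exists_eq_E₄_mul Γ hf hg h
  R_decomp := levelOne_decomp


/-- A *free homogeneous basis* of `M_*(Γ)` over `M_*(SL₂(ℤ))`: every form of weight `w` is a
finite combination `∑ r i * F i` with `r i` of level one and weight `w - k i`, and such
combinations vanish only trivially. -/
structure IsFreeBasis {ι : Type} (k : ι → ℤ) (F : ι → ℍ → ℂ) : Prop where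
  k_nonneg : ∀ i, 0 ≤ k i
  mem : ∀ i, F i ∈ mfSub (Γ : Subgroup (GL (Fin 2) ℝ)) (k i)
  gen : ∀ (w : ℤ) (f : ℍ → ℂ), f ∈ mfSub (Γ : Subgroup (GL (Fin 2) ℝ)) w →
    ∃ (s : Finset ι) (r : ι → ℍ → ℂ), (∀ i, r i ∈ mfSub 𝒮ℒ (w - k i)) ∧ f = ∑ i ∈ s, r i * F i
  indep : ∀ (w : ℤ) (s : Finset ι) (r : ι → ℍ → ℂ), (∀ i ∈ s, r i ∈ mfSub 𝒮ℒ (w - k i)) →
    ∑ i ∈ s, r i * F i = 0 → ∀ i ∈ s, r i = 0

/-- **(B)** `M_*(Γ)` has a free homogeneous basis over `M_*(SL₂(ℤ))`. -/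
theorem exists_isFreeBasis : ∃ (ι : Type) (k : ι → ℤ) (F : ι → ℍ → ℂ), IsFreeBasis Γ k F := by
  obtain ⟨ι, k, F, G⟩ := exists_isMinGen (K := ℂ)
    (fun w => mfSub (Γ : Subgroup (GL (Fin 2) ℝ)) w) (⇑E₄) (⇑E₆)
  exact ⟨ι, k, F, G.k_nonneg (regData Γ), G.mem, G.exists_expansion (regData Γ),
    G.eq_zero_of_sum_eq_zero (regData Γ)⟩

end Fermat.Agent.S20
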