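import Fermat.Agent.S20.Defs
import Fermat.Agent.S20.FreeCore

/-!
# S20, piece (B) in the conventions of `Defs.lean`
-/

set_option autoImplicit false

namespace Fermat.Agent.S20

open UpperHalfPlane ModularForm EisensteinSeries Filter Topology Matrix.SpecialLinearGroup
open scoped MatrixGroups Manifold

lemma MFs_eq_mfSub (H : Subgroup SL(2, ℤ)) [H.FiniteIndex] (k : ℤ) :
    MFs H k = mfSub (H : Subgroup (GL (Fin 2) ℝ)) k := by
  ext f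
  rw [mem_MFs, mem_mfSub_iff]
  tauto

lemma MFs_top_eq_mfSub (k : ℤ) : MFs ⊤ k = mfSub 𝒮ℒ k := by
  rw [MFs_eq_mfSub]
  ext f
  constructor
  · rintro ⟨F, rfl⟩
    exact ⟨F.copy _ rfl (MonoidHom.range_eq_map _), rfl⟩
  · rintro ⟨F, rfl⟩
    exact ⟨F.copy _ rfl (MonoidHom.range_eq_map _).symm, rfl⟩

/-- A modular form in Mathlib's sense gives an element of `MFs`. -/
lemma mf_coe_mem_MFs (H : Subgroup SL(2, ℤ)) [H.FiniteIndex] {k : ℤ}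
    (F : ModularForm (H : Subgroup (GL (Fin 2) ℝ)) k) : ⇑F ∈ MFs H k := by
  rw [MFs_eq_mfSub]; exact coe_mem_mfSub F

lemma mf_coe_mem_MFs_top {k : ℤ} (F : ModularForm 𝒮ℒ k) : ⇑F ∈ MFs ⊤ k := by
  rw [MFs_top_eq_mfSub]; exact coe_mem_mfSub F

/-- Alias (name used by `LevelOne.lean`, `LevelOneMFs.lean`, `Sep.lean`). -/
lemma coe_mem_MFs (H : Subgroup SL(2, ℤ)) [H.FiniteIndex] {k : ℤ}
    (F : ModularForm (H : Subgroup (GL (Fin 2) ℝ)) k) : ⇑F ∈ MFs H k := mf_coe_mem_MFs H F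

/-- Alias (name used by `LevelOne.lean`, `LevelOneMFs.lean`, `Sep.lean`). -/
lemma coe_mem_MFs_top {k : ℤ} (F : ModularForm 𝒮ℒ k) : ⇑F ∈ MFs ⊤ k := mf_coe_mem_MFs_top F

lemma exists_modularForm_of_mem_MFs {H : Subgroup SL(2, ℤ)} [H.FiniteIndex] {k : ℤ} {f : ℍ → ℂ}
    (hf : f ∈ MFs H k) : ∃ F : ModularForm (H : Subgroup (GL (Fin 2) ℝ)) k, ⇑F = f := by
  rwa [MFs_eq_mfSub] at hf

lemma exists_modularForm_of_mem_MFs_top {k : ℤ} {f : ℍ → ℂ}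
    (hf : f ∈ MFs ⊤ k) : ∃ F : ModularForm 𝒮ℒ k, ⇑F = f := by
  rwa [MFs_top_eq_mfSub] at hf

/-- The regular sequence data in the conventions of `Defs.lean`. -/
theorem regData_MFs (H : Subgroup SL(2, ℤ)) [H.FiniteIndex] :
    RegData (MFs H) (MFs ⊤) (⇑E₄) (⇑E₆) := by
  have h1 : MFs H = fun w => mfSub (H : Subgroup (GL (Fin 2) ℝ)) w := funext (MFs_eq_mfSub H)
  have h2 : MFs ⊤ = fun w => mfSub 𝒮ℒ w := funext MFs_top_eq_mfSub
  rw [h1, h2]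
  exact regData H

/-- **(B)** a homogeneous basis of `⨁ₖ MFs H k` over `⨁ₖ MFs ⊤ k` exists; all weights are `≥ 0`,
and the classes of the `B i` of weight `k` form a basis of
`MFs H k / (E₄ MFs H (k-4) + E₆ MFs H (k-6))`. -/
theorem exists_isFam (H : Subgroup SL(2, ℤ)) [H.FiniteIndex] :
    ∃ (ι : Type) (w : ι → ℤ) (B : ι → ℍ → ℂ), IsFam H w B ∧ (∀ i, 0 ≤ w i) ∧
      IsMinGen (MFs H) (⇑E₄) (⇑E₆) w B := by
  obtain ⟨ι, k, F, G⟩ := exists_isMinGen (K := ℂ) (MFs H) (⇑E₄) (⇑E₆)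
  exact ⟨ι, k, F, ⟨G.mem, G.exists_expansion (regData_MFs H),
    G.eq_zero_of_sum_eq_zero (regData_MFs H)⟩, G.k_nonneg (regData_MFs H), G⟩

end Fermat.Agent.S20
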