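import Fermat.Agent.S20.Basic

/-!
# S20, piece L: level one input (in the language of functions)
-/

set_option autoImplicit false

namespace Fermat.Agent.S20

open UpperHalfPlane ModularForm Filter Topology EisensteinSeries
open scoped MatrixGroups Manifold ModularForm

variable {k : ℤ} {F r : ℍ → ℂ}

lemma E4_mem : (⇑E₄ : ℍ → ℂ) ∈ MFs ⊤ 4 := mf_coe_mem_MFs_top E₄

lemma E6_mem : (⇑E₆ : ℍ → ℂ) ∈ MFs ⊤ 6 := mf_coe_mem_MFs_top E₆

lemma Delta_mem : (discriminant : ℍ → ℂ) ∈ CFs ⊤ 12 := by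
  have hinv : ∀ g : SL(2, ℤ), (discriminant : ℍ → ℂ) ∣[(12 : ℤ)] g = discriminant := fun g =>
    SlashInvariantForm.slash_action_eqn (Γ := 𝒮ℒ) CuspForm.discriminant
      (Matrix.SpecialLinearGroup.mapGL ℝ g) (MonoidHom.mem_range.mpr ⟨g, rfl⟩)
  refine ⟨CuspForm.discriminant.holo', fun γ _ => hinv γ, fun g => ?_⟩
  rw [hinv g]
  exact discriminant_isZeroAtImInfty

lemma Delta_mem_MFs : (discriminant : ℍ → ℂ) ∈ MFs ⊤ 12 := CFs_le_MFs Delta_mem

lemma Delta_div_q_tendsto :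
    Tendsto (fun z : ℍ => discriminant z / Complex.exp (2 * Real.pi * Complex.I * z))
      atImInfty (𝓝 1) := by
  refine tendsto_atImInfty_tprod_one_sub_eta_q_pow.congr fun z => ?_
  have hq : Function.Periodic.qParam 1 (z : ℂ) = Complex.exp (2 * Real.pi * Complex.I * z) := by
    simp [Function.Periodic.qParam]
  rw [discriminant_eq_q_prod, hq, mul_div_assoc, mul_comm, div_mul_cancel₀]
  exact Complex.exp_ne_zero _

/-- Level one forms have a value at `i∞`. -/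
lemma MFs_top_tendsto (hr : r ∈ MFs ⊤ k) : ∃ l : ℂ, Tendsto r atImInfty (𝓝 l) := by
  obtain ⟨f, rfl⟩ := exists_modularForm_of_mem_MFs_top hr
  exact ⟨_, tendsto_levelOne f⟩

lemma mem_CFs_top_of_tendsto (hr : r ∈ MFs ⊤ k) (h0 : Tendsto r atImInfty (𝓝 0)) :
    r ∈ CFs ⊤ k := by
  refine ⟨hr.1, hr.2.1, fun g => ?_⟩
  rw [slash_of_mem_top hr]; exact h0

/-- In every even weight `≥ 4` there is a level one form with value `1` at `i∞`. -/
lemma exists_P (hk : 4 ≤ k) (hk2 : Even k) : ∃ P ∈ MFs ⊤ k, Tendsto P atImInfty (𝓝 1) := by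
  obtain ⟨P, hP, hP1⟩ := exists_tendsto_one hk2 (Or.inr hk)
  exact ⟨P, by rwa [MFs_top_eq_mfSub], hP1⟩

/-- Level one forms vanishing at `i∞` are divisible by `Δ`. -/
lemma MFs_top_div (hF : F ∈ MFs ⊤ k) (h0 : Tendsto F atImInfty (𝓝 0)) :
    ∃ G ∈ MFs ⊤ (k - 12), F = discriminant * G := by
  rw [MFs_top_eq_mfSub] at hF
  obtain ⟨G, hG, hFG⟩ := exists_eq_mul_of_tendsto_zero hF h0
  refine ⟨(1728 : ℂ) • G, Submodule.smul_mem _ _ (by rwa [MFs_top_eq_mfSub]), ?_⟩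
  rw [hFG]
  funext z
  simp only [Pi.mul_apply, Pi.sub_apply, Pi.pow_apply, Pi.smul_apply, smul_eq_mul,
    discriminant_eq_E₄_cube_sub_E₆_sq]
  ring

end Fermat.Agent.S20
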