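import Fermat.Agent.S20.CombBase

set_option autoImplicit false

namespace Fermat.Agent.S20

open ModularCurve

/-- indicator of squarefree numbers as an arithmetic function -/
def sqfInd : ArithmeticFunction ℕ := ⟨fun d => if Squarefree d then 1 else 0, by simp⟩

lemma sqfInd_apply (d : ℕ) : sqfInd d = if Squarefree d then 1 else 0 := rfl

lemma isMultiplicative_sqfInd : sqfInd.IsMultiplicative := by
  refine ⟨by simp [sqfInd_apply], ?_⟩
  intro m n hmn
  simp only [sqfInd_apply, Nat.squarefree_mul hmn]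
  by_cases h1 : Squarefree m <;> by_cases h2 : Squarefree n <;> simp [h1, h2]

lemma dedekindPsi_eq (N : ℕ) : dedekindPsi N = (sqfInd * ArithmeticFunction.id) N := by
  rw [ArithmeticFunction.mul_apply, Nat.sum_divisorsAntidiagonal (fun x y => sqfInd x * ArithmeticFunction.id y),
    dedekindPsi, Finset.sum_filter]
  refine Finset.sum_congr rfl fun d _ => ?_
  simp only [sqfInd_apply, ArithmeticFunction.id_apply]
  split_ifs <;> simp

lemma dedekindPsi_mul {m n : ℕ} (h : m.Coprime n) :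
    dedekindPsi (m * n) = dedekindPsi m * dedekindPsi n := by
  simp only [dedekindPsi_eq]
  exact (isMultiplicative_sqfInd.mul ArithmeticFunction.isMultiplicative_id).map_mul_of_coprime h

lemma dedekindPsi_prime_pow {p : ℕ} (hp : p.Prime) (n : ℕ) :
    dedekindPsi (p ^ (n + 1)) = p ^ (n + 1) + p ^ n := by
  rw [dedekindPsi, Finset.sum_filter, Nat.sum_divisors_prime_pow hp, Finset.sum_range_succ',
    Finset.sum_range_succ']
  have : ∀ k ∈ Finset.range n, (if Squarefree (p ^ (k + 1 + 1)) then p ^ (n + 1) / p ^ (k + 1 + 1) else 0) = 0 := by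
    intro k _
    rw [if_neg]
    intro h
    have := (Nat.squarefree_pow_iff hp.ne_one (by omega)).1 h
    omega
  rw [Finset.sum_eq_zero this]
  have h1 : Squarefree (p ^ (0 + 1)) := by simpa using hp.squarefree
  rw [if_pos h1, if_pos (by simp)]
  have h2 : p ^ (n + 1) / p ^ (0 + 1) = p ^ n := by
    rw [zero_add, pow_one, pow_succ, Nat.mul_div_cancel _ hp.pos]
  rw [h2]
  simp [add_comm]

open CongruenceSubgroup Matrix MatrixGroups ModularGroup

/-- number of unimodular pairs mod `N` (Jordan's totient `J₂`). -/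
noncomputable def jord (N : ℕ) : ℕ := Nat.card {p : ZMod N × ZMod N // IsCoprime p.1 p.2}

lemma isCoprime_prod_iff {R S : Type*} [CommRing R] [CommRing S] (x y : R × S) :
    IsCoprime x y ↔ IsCoprime x.1 y.1 ∧ IsCoprime x.2 y.2 := by
  constructor
  · intro h
    exact ⟨h.map (RingHom.fst R S), h.map (RingHom.snd R S)⟩
  · rintro ⟨⟨a, b, h1⟩, ⟨a', b', h2⟩⟩
    exact ⟨(a, a'), (b, b'), Prod.ext h1 h2⟩

lemma isCoprime_ringEquiv_iff {R S : Type*} [CommRing R] [CommRing S] (e : R ≃+* S) (x y : R) :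
    IsCoprime (e x) (e y) ↔ IsCoprime x y := by
  constructor
  · intro h
    simpa using h.map (e.symm : S →+* R)
  · intro h
    exact h.map (e : R →+* S)

lemma jord_mul {m n : ℕ} (h : m.Coprime n) : jord (m * n) = jord m * jord n := by
  unfold jord
  rw [← Nat.card_prod]
  let e := ZMod.chineseRemainder h
  let E : ZMod (m * n) × ZMod (m * n) ≃ (ZMod m × ZMod m) × (ZMod n × ZMod n) :=
    (e.toEquiv.prodCongr e.toEquiv).trans (Equiv.prodProdProdComm _ _ _ _)
  refine Nat.card_congr ((Equiv.subtypeEquiv E ?_).trans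
    (Equiv.subtypeProdEquivProd (p := fun q : ZMod m × ZMod m => IsCoprime q.1 q.2)
      (q := fun q : ZMod n × ZMod n => IsCoprime q.1 q.2)))
  intro p
  rw [← isCoprime_ringEquiv_iff e, isCoprime_prod_iff]
  rfl

lemma isCoprime_iff_of_prime_pow {p : ℕ} (hp : p.Prime) (n : ℕ) (a c : ZMod (p ^ (n + 1))) :
    IsCoprime a c ↔ IsUnit a ∨ IsUnit c := by
  have : Fact p.Prime := ⟨hp⟩
  have : NeZero (p ^ (n + 1)) := ⟨pow_ne_zero _ hp.ne_zero⟩
  have hdvd : p ∣ p ^ (n + 1) := dvd_pow_self _ (by omega)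
  have key : ∀ x : ZMod (p ^ (n + 1)), ¬ IsUnit x → ZMod.castHom hdvd (ZMod p) x = 0 := by
    intro x hx
    rw [castHom_eq_zero_iff hdvd, natCast_dvd_iff hdvd]
    rw [← ZMod.natCast_zmod_val x, ZMod.isUnit_iff_coprime] at hx
    by_contra hpx
    exact hx (Nat.Coprime.pow_right _ ((Nat.Prime.coprime_iff_not_dvd hp).2 hpx).symm)
  constructor
  · intro h
    by_contra hcon
    rw [not_or] at hcon
    have h2 := h.map (ZMod.castHom hdvd (ZMod p))
    rw [key a hcon.1, key c hcon.2] at h2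
    exact not_isUnit_zero (isCoprime_zero_left.1 h2)
  · rintro (⟨u, rfl⟩ | ⟨u, rfl⟩)
    · exact ⟨((u⁻¹ : (ZMod _)ˣ) : ZMod _), 0, by simp⟩
    · exact ⟨0, ((u⁻¹ : (ZMod _)ˣ) : ZMod _), by simp⟩

lemma card_isUnit (N : ℕ) [NeZero N] : Nat.card {x : ZMod N // IsUnit x} = N.totient := by
  rw [← ZMod.card_units_eq_totient, ← Nat.card_eq_fintype_card]
  symm
  refine Nat.card_congr (Equiv.ofBijective
    (fun u : (ZMod N)ˣ => (⟨(u : ZMod N), u.isUnit⟩ : {x : ZMod N // IsUnit x})) ⟨?_, ?_⟩)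
  · intro u v huv
    exact Units.ext (congrArg Subtype.val huv)
  · rintro ⟨_, u, rfl⟩
    exact ⟨u, rfl⟩

lemma jord_prime_pow {p : ℕ} (hp : p.Prime) (n : ℕ) :
    jord (p ^ (n + 1)) = dedekindPsi (p ^ (n + 1)) * (p ^ (n + 1)).totient := by
  classical
  have : NeZero (p ^ (n + 1)) := ⟨pow_ne_zero _ hp.ne_zero⟩
  have h1 : Nat.card {x : ZMod (p ^ (n + 1)) // IsUnit x} +
      Nat.card {x : ZMod (p ^ (n + 1)) // ¬ IsUnit x} = p ^ (n + 1) := by
    rw [← Nat.card_sum, Nat.card_congr (Equiv.sumCompl _), Nat.card_zmod]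
  have h2 : jord (p ^ (n + 1)) +
      Nat.card {q : ZMod (p ^ (n + 1)) × ZMod (p ^ (n + 1)) // ¬ IsCoprime q.1 q.2} =
      p ^ (n + 1) * p ^ (n + 1) := by
    unfold jord
    rw [← Nat.card_sum, Nat.card_congr (Equiv.sumCompl _), Nat.card_prod, Nat.card_zmod]
  have h3 : Nat.card {q : ZMod (p ^ (n + 1)) × ZMod (p ^ (n + 1)) // ¬ IsCoprime q.1 q.2} =
      Nat.card {x : ZMod (p ^ (n + 1)) // ¬ IsUnit x} *
        Nat.card {x : ZMod (p ^ (n + 1)) // ¬ IsUnit x} := by
    rw [← Nat.card_prod]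
    refine Nat.card_congr ((Equiv.subtypeEquivRight ?_).trans
      (Equiv.subtypeProdEquivProd (p := fun x : ZMod (p ^ (n + 1)) => ¬ IsUnit x)
      (q := fun x : ZMod (p ^ (n + 1)) => ¬ IsUnit x)))
    intro q
    rw [isCoprime_iff_of_prime_pow hp, not_or]
  have hφ : (p ^ (n + 1)).totient + p ^ n = p ^ (n + 1) := by
    rw [Nat.totient_prime_pow_succ hp]
    calc p ^ n * (p - 1) + p ^ n = p ^ n * ((p - 1) + 1) := by ring
      _ = p ^ n * p := by rw [Nat.sub_add_cancel hp.pos]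
      _ = p ^ (n + 1) := (pow_succ _ _).symm
  rw [card_isUnit] at h1
  have hr : Nat.card {x : ZMod (p ^ (n + 1)) // ¬ IsUnit x} = p ^ n := by omega
  rw [h3, hr] at h2
  rw [dedekindPsi_prime_pow hp]
  have h4 : (p ^ (n + 1) + p ^ n) * (p ^ (n + 1)).totient + p ^ n * p ^ n =
      p ^ (n + 1) * p ^ (n + 1) := by
    generalize (p ^ (n + 1)).totient = f at hφ
    rw [← hφ]
    ring
  omega

lemma jord_eq (N : ℕ) (hN : N ≠ 0) : jord N = dedekindPsi N * N.totient := by
  induction N using Nat.recOnPosPrimePosCoprime with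
  | prime_pow p n hp hn =>
    obtain ⟨m, rfl⟩ : ∃ m, n = m + 1 := ⟨n - 1, by omega⟩
    exact jord_prime_pow hp m
  | zero => exact absurd rfl hN
  | one =>
    rw [dedekindPsi_one, Nat.totient_one, jord]
    have : Unique {p : ZMod 1 × ZMod 1 // IsCoprime p.1 p.2} :=
      ⟨⟨⟨(0, 0), ⟨0, 0, Subsingleton.elim _ _⟩⟩⟩, fun q => Subtype.ext (Subsingleton.elim _ _)⟩
    simp
  | coprime a b ha hb hab iha ihb =>
    rw [jord_mul hab, dedekindPsi_mul hab, Nat.totient_mul hab, iha (by omega), ihb (by omega)]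
    ring

lemma jord_eq_index_mul (N : ℕ) [NeZero N] : jord N = (Gamma0 N).index * N.totient := by
  rw [← ZMod.card_units_eq_totient, ← Nat.card_eq_fintype_card, Subgroup.index, ← Nat.card_prod,
    jord]
  symm
  refine Nat.card_congr (Equiv.ofBijective
    (fun x : (SL(2,ℤ) ⧸ Gamma0 N) × (ZMod N)ˣ =>
      (⟨((x.2 : ZMod N) * colA N x.1.out, (x.2 : ZMod N) * colC N x.1.out),
        (isCoprime_mul_unit_left x.2.isUnit _ _).2 (isCoprime_col N _)⟩ :
        {p : ZMod N × ZMod N // IsCoprime p.1 p.2})) ⟨?_, ?_⟩)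
  · rintro ⟨x, t⟩ ⟨x', t'⟩ h
    have h1 := congrArg (fun q => q.1.1) h
    have h2 := congrArg (fun q => q.1.2) h
    simp only at h1 h2
    have hx : x = x' := by
      rw [← QuotientGroup.out_eq' x, ← QuotientGroup.out_eq' x', coset_eq_iff]
      have h3 : ((t * t' : (ZMod N)ˣ) : ZMod N) * (colA N x.out * colC N x'.out) =
          ((t * t' : (ZMod N)ˣ) : ZMod N) * (colC N x.out * colA N x'.out) := by
        rw [Units.val_mul]
        linear_combination (t' : ZMod N) * colC N x'.out * h1 - (t' : ZMod N) * colA N x'.out * h2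
      exact (Units.mul_right_inj _).1 h3
    subst hx
    obtain ⟨a, b, hab⟩ := isCoprime_col N x.out
    have ht : t = t' := by
      apply Units.ext
      linear_combination (-(t : ZMod N) + t') * hab + a * h1 + b * h2
    rw [ht]
  · rintro ⟨⟨a, c⟩, hac⟩
    obtain ⟨g, rfl, rfl⟩ := exists_col_eq hac
    have h1 : ((g : SL(2,ℤ) ⧸ Gamma0 N).out : SL(2,ℤ) ⧸ Gamma0 N) = g := QuotientGroup.out_eq' _
    rw [coset_eq_iff] at h1
    obtain ⟨t, ht1, ht2⟩ := exists_unit_of_cross (isCoprime_col N _) (isCoprime_col N _) h1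
    refine ⟨⟨(g : SL(2,ℤ) ⧸ Gamma0 N), t⟩, ?_⟩
    apply Subtype.ext
    exact Prod.ext ht1.symm ht2.symm

/-- (K1) the index of `Γ₀(N)` is Dedekind's `ψ(N)`. -/
theorem index_Gamma0 (N : ℕ) [NeZero N] : (Gamma0 N).index = dedekindPsi N := by
  have h := jord_eq_index_mul N
  rw [jord_eq N (NeZero.ne N)] at h
  exact (Nat.eq_of_mul_eq_mul_right (Nat.totient_pos.2 (Nat.pos_of_ne_zero (NeZero.ne N))) h).symm

end Fermat.Agent.S20
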