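import Fermat.Agent.S20.CombBase

set_option autoImplicit false

namespace Fermat.Agent.S20

open CongruenceSubgroup Matrix MatrixGroups ModularGroup

lemma natCast_dvd_natCast_iff {N d : ℕ} [NeZero N] (hd : d ∣ N) (m : ℕ) :
    (d : ZMod N) ∣ (m : ZMod N) ↔ d ∣ m := by
  rw [natCast_dvd_iff hd, ZMod.val_natCast, Nat.dvd_mod_iff hd]

lemma eq_of_unit_mul {N d d' : ℕ} [NeZero N] (hd : d ∣ N) (hd' : d' ∣ N) (t : (ZMod N)ˣ)
    (h : (d' : ZMod N) = t * d) : d = d' := by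
  apply Nat.dvd_antisymm
  · rw [← natCast_dvd_natCast_iff hd, h]; exact dvd_mul_left _ _
  · rw [← natCast_dvd_natCast_iff hd']
    refine ⟨((t⁻¹ : (ZMod N)ˣ) : ZMod N), ?_⟩
    rw [h, mul_comm, ← mul_assoc, Units.inv_mul, one_mul]

lemma div_dvd_of_mul_eq_zero {N d : ℕ} [NeZero N] (hd : d ∣ N) (s : ZMod N)
    (h : s * d = 0) : ((N / d : ℕ) : ZMod N) ∣ s := by
  have hN : 0 < N := Nat.pos_of_ne_zero (NeZero.ne N)
  have hd0 : 0 < d := Nat.pos_of_dvd_of_pos hd hN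
  rw [natCast_dvd_iff (Nat.div_dvd_of_dvd hd)]
  rw [← ZMod.natCast_zmod_val s, ← Nat.cast_mul, ZMod.natCast_eq_zero_iff] at h
  have h2 : (N / d) * d ∣ s.val * d := by rw [Nat.div_mul_cancel hd]; exact h
  exact Nat.dvd_of_mul_dvd_mul_right hd0 h2

lemma val_mod_eq_iff {N g : ℕ} [NeZero N] (hg : g ∣ N) (x y : ZMod N) :
    x.val % g = y.val % g ↔ (g : ZMod N) ∣ x - y := by
  rw [← castHom_eq_zero_iff hg, map_sub, sub_eq_zero, ZMod.castHom_apply, ZMod.castHom_apply,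
    ← ZMod.natCast_val, ← ZMod.natCast_val, ZMod.natCast_eq_natCast_iff']

/-- `(d, w)` are the cusp invariants of the pair `(a, c)`. -/
def IsCuspInv (N : ℕ) (a c : ZMod N) (d w : ℕ) : Prop :=
  d ∣ N ∧ ∃ u : (ZMod N)ˣ, (u : ZMod N) * c = d ∧ ((u : ZMod N) * a).val % Nat.gcd d (N / d) = w

lemma exists_isCuspInv (N : ℕ) [NeZero N] (a c : ZMod N) : ∃ d w, IsCuspInv N a c d w := by
  obtain ⟨u, hu⟩ := exists_unit_mul_eq_gcd c
  exact ⟨_, _, Nat.gcd_dvd_right _ _, u, hu, rfl⟩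

lemma isCuspInv_iff {N : ℕ} [NeZero N] {a c a' c' : ZMod N} {d w d' w' : ℕ}
    (h : IsCoprime a c) (h' : IsCoprime a' c') (hi : IsCuspInv N a c d w)
    (hi' : IsCuspInv N a' c' d' w') :
    (∃ k : ZMod N, (a + k * c) * c' = c * a') ↔ d = d' ∧ w = w' := by
  obtain ⟨hd, u, hu, hw⟩ := hi
  obtain ⟨hd', u', hu', hw'⟩ := hi'
  have hred : ∀ k : ZMod N, (a + k * c) * c' = c * a' ↔
      ((u : ZMod N) * a + k * d) * d' = d * ((u' : ZMod N) * a') := by
    intro k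
    rw [← hu, ← hu']
    constructor
    · intro hk
      linear_combination (u : ZMod N) * u' * hk
    · intro hk
      have h2 : ((u * u' : (ZMod N)ˣ) : ZMod N) * ((a + k * c) * c') =
          ((u * u' : (ZMod N)ˣ) : ZMod N) * (c * a') := by
        rw [Units.val_mul]; linear_combination hk
      exact (Units.mul_right_inj _).1 h2
  simp only [hred]
  have hcop : IsCoprime ((u : ZMod N) * a) (d : ZMod N) := by
    rw [← hu]
    exact (isCoprime_mul_unit_left u.isUnit a c).2 h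
  have hcop' : IsCoprime ((u' : ZMod N) * a') (d' : ZMod N) := by
    rw [← hu']
    exact (isCoprime_mul_unit_left u'.isUnit a' c').2 h'
  set A := (u : ZMod N) * a with hA
  set A' := (u' : ZMod N) * a' with hA'
  constructor
  · rintro ⟨k, hk⟩
    have hcop2 : IsCoprime (A + k * d) (d : ZMod N) := hcop.add_mul_right_left k
    obtain ⟨t, ht1, ht2⟩ := exists_unit_of_cross hcop2 hcop' hk
    have hdd : d = d' := eq_of_unit_mul hd hd' t ht2
    subst hdd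
    refine ⟨rfl, ?_⟩
    rw [← hw, ← hw']
    have hgN : Nat.gcd d (N / d) ∣ N := (Nat.gcd_dvd_left _ _).trans hd
    rw [val_mod_eq_iff hgN]
    have h1 : ((N / d : ℕ) : ZMod N) ∣ (t : ZMod N) - 1 :=
      div_dvd_of_mul_eq_zero hd _ (by linear_combination -ht2)
    have h2 : ((Nat.gcd d (N / d) : ℕ) : ZMod N) ∣ (t : ZMod N) - 1 :=
      (Nat.cast_dvd_cast (Nat.gcd_dvd_right _ _)).trans h1
    have h3 : ((Nat.gcd d (N / d) : ℕ) : ZMod N) ∣ (d : ZMod N) :=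
      Nat.cast_dvd_cast (Nat.gcd_dvd_left _ _)
    have h4 : A - A' = -(((t : ZMod N) - 1) * A) - (d : ZMod N) * (t * k) := by
      rw [ht1]; ring
    rw [h4]
    exact dvd_sub ((h2.mul_right _).neg_right) (h3.mul_right _)
  · rintro ⟨rfl, rfl⟩
    have hgN : Nat.gcd d (N / d) ∣ N := (Nat.gcd_dvd_left _ _).trans hd
    rw [← hw, eq_comm, val_mod_eq_iff hgN] at hw'
    obtain ⟨m, hm⟩ := hw'
    have hb := congrArg (Int.cast : ℤ → ZMod N) (Nat.gcd_eq_gcd_ab d (N / d))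
    simp only [Int.cast_add, Int.cast_mul, Int.cast_natCast] at hb
    have hde : (d : ZMod N) * ((N / d : ℕ) : ZMod N) = 0 := by
      rw [← Nat.cast_mul, Nat.mul_div_cancel' hd, ZMod.natCast_self]
    refine ⟨-(Nat.gcdA d (N / d) : ZMod N) * m, ?_⟩
    rw [hb] at hm
    linear_combination (d : ZMod N) * hm + (Nat.gcdB d (N / d) : ZMod N) * m * hde


lemma isCuspInv_mem {N : ℕ} [NeZero N] {a c : ZMod N} {d w : ℕ} (h : IsCoprime a c)
    (hi : IsCuspInv N a c d w) :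
    w < Nat.gcd d (N / d) ∧ (Nat.gcd d (N / d)).Coprime w := by
  obtain ⟨hd, u, hu, rfl⟩ := hi
  have hN : 0 < N := Nat.pos_of_ne_zero (NeZero.ne N)
  have hd0 : 0 < d := Nat.pos_of_dvd_of_pos hd hN
  have hg0 : 0 < Nat.gcd d (N / d) := Nat.gcd_pos_of_pos_left _ hd0
  have hgN : Nat.gcd d (N / d) ∣ N := (Nat.gcd_dvd_left _ _).trans hd
  refine ⟨Nat.mod_lt _ hg0, Nat.Coprime.symm ?_⟩
  rw [← ZMod.isUnit_iff_coprime, ZMod.natCast_mod, ZMod.natCast_val]
  show IsUnit (ZMod.castHom hgN (ZMod (Nat.gcd d (N / d))) ((u : ZMod N) * a))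
  have hcop : IsCoprime ((u : ZMod N) * a) (d : ZMod N) := by
    rw [← hu]
    exact (isCoprime_mul_unit_left u.isUnit a c).2 h
  have h2 := hcop.map (ZMod.castHom hgN (ZMod (Nat.gcd d (N / d))))
  rw [map_natCast, (ZMod.natCast_eq_zero_iff _ _).2 (Nat.gcd_dvd_left _ _)] at h2
  exact isCoprime_zero_right.1 h2

lemma exists_isCuspInv_of_mem {N : ℕ} [NeZero N] {d w : ℕ} (hd : d ∣ N)
    (hw : w < Nat.gcd d (N / d)) (hc : (Nat.gcd d (N / d)).Coprime w) :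
    ∃ a c : ZMod N, IsCoprime a c ∧ IsCuspInv N a c d w := by
  have hgN : Nat.gcd d (N / d) ∣ N := (Nat.gcd_dvd_left _ _).trans hd
  obtain ⟨v, hv⟩ := ZMod.unitsMap_surjective hgN (ZMod.unitOfCoprime w hc.symm)
  refine ⟨v, d, ⟨((v⁻¹ : (ZMod N)ˣ) : ZMod N), 0, by simp⟩, hd, 1, by simp, ?_⟩
  have hv' : ZMod.castHom hgN (ZMod (Nat.gcd d (N / d))) (v : ZMod N) = (w : ZMod _) := by
    have := congrArg Units.val hv
    simpa [ZMod.unitsMap] using this
  rw [ZMod.castHom_apply, ← ZMod.natCast_val, ZMod.natCast_eq_natCast_iff',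
    Nat.mod_eq_of_lt hw] at hv'
  simpa using hv'

lemma card_quotient_eq_card {α β : Type*} (s : Setoid α) (f : α → β) (F : Finset β)
    (h1 : ∀ a b, s a b ↔ f a = f b) (h2 : ∀ a, f a ∈ F) (h3 : ∀ b ∈ F, ∃ a, f a = b) :
    Nat.card (Quotient s) = F.card := by
  rw [← Fintype.card_coe, ← Nat.card_eq_fintype_card]
  refine Nat.card_congr (Equiv.ofBijective
    (Quotient.lift (fun a => (⟨f a, h2 a⟩ : F)) (fun a b hab => Subtype.ext ((h1 a b).1 hab)))
    ⟨?_, ?_⟩)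
  · intro x y
    induction x using Quotient.inductionOn
    induction y using Quotient.inductionOn
    intro hxy
    exact Quotient.sound ((h1 _ _).2 (congrArg Subtype.val hxy))
  · rintro ⟨b, hb⟩
    obtain ⟨a, rfl⟩ := h3 b hb
    exact ⟨Quotient.mk _ a, rfl⟩

lemma orbitRel_T_iff (N : ℕ) [NeZero N] (g g' : SL(2,ℤ)) :
    MulAction.orbitRel (Subgroup.zpowers T) (SL(2,ℤ) ⧸ Gamma0 N) g' g ↔
      ∃ k : ZMod N, (colA N g + k * colC N g) * colC N g' = colC N g * colA N g' := by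
  rw [MulAction.orbitRel_apply, MulAction.mem_orbit_iff]
  constructor
  · rintro ⟨⟨t, ht⟩, h⟩
    obtain ⟨k, rfl⟩ := Subgroup.mem_zpowers_iff.1 ht
    refine ⟨(k : ZMod N), ?_⟩
    have h2 : ((T ^ k * g : SL(2,ℤ)) : SL(2,ℤ) ⧸ Gamma0 N) = g' := h
    rw [coset_eq_iff, colA_T_zpow_mul, colC_T_zpow_mul] at h2
    exact h2
  · rintro ⟨k, hk⟩
    refine ⟨⟨T ^ (k.val : ℤ), Subgroup.zpow_mem_zpowers _ _⟩, ?_⟩
    show ((T ^ (k.val : ℤ) * g : SL(2,ℤ)) : SL(2,ℤ) ⧸ Gamma0 N) = g'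
    rw [coset_eq_iff, colA_T_zpow_mul, colC_T_zpow_mul]
    push_cast
    rw [ZMod.natCast_zmod_val]
    exact hk

/-- (K4) the number of orbits of `⟨T⟩` on `SL(2,ℤ) ⧸ Γ₀(N)` is the number of cusps. -/
theorem card_orbits_T (N : ℕ) [NeZero N] :
    Nat.card (MulAction.orbitRel.Quotient (Subgroup.zpowers T) (SL(2,ℤ) ⧸ Gamma0 N)) =
      ModularCurve.cuspCount N := by
  classical
  choose D W hDW using
    (fun x : SL(2,ℤ) ⧸ Gamma0 N => exists_isCuspInv N (colA N x.out) (colC N x.out))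
  have hF : ModularCurve.cuspCount N = (N.divisors.sigma (fun d =>
      {w ∈ Finset.range (Nat.gcd d (N / d)) | (Nat.gcd d (N / d)).Coprime w})).card := by
    rw [Finset.card_sigma]; rfl
  rw [hF]
  refine card_quotient_eq_card _ (fun x => (⟨D x, W x⟩ : Σ _ : ℕ, ℕ)) _ ?_ ?_ ?_
  · intro x y
    have := orbitRel_T_iff N y.out x.out
    rw [QuotientGroup.out_eq', QuotientGroup.out_eq'] at this
    rw [this, isCuspInv_iff (isCoprime_col N _) (isCoprime_col N _) (hDW y) (hDW x)]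
    constructor
    · rintro ⟨h1, h2⟩
      simp [h1, h2]
    · intro h
      simp only [Sigma.mk.injEq, heq_eq_eq] at h
      exact ⟨h.1.symm, h.2.symm⟩
  · intro x
    have := isCuspInv_mem (isCoprime_col N _) (hDW x)
    simp only [Finset.mem_sigma, Nat.mem_divisors, Finset.mem_filter, Finset.mem_range]
    exact ⟨⟨(hDW x).1, NeZero.ne N⟩, this⟩
  · rintro ⟨d, w⟩ hdw
    simp only [Finset.mem_sigma, Nat.mem_divisors, Finset.mem_filter, Finset.mem_range] at hdw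
    obtain ⟨a, c, hac, hi⟩ := exists_isCuspInv_of_mem hdw.1.1 hdw.2.1 hdw.2.2
    obtain ⟨g, rfl, rfl⟩ := exists_col_eq hac
    refine ⟨(g : SL(2,ℤ) ⧸ Gamma0 N), ?_⟩
    have h1 : ((g : SL(2,ℤ) ⧸ Gamma0 N).out : SL(2,ℤ) ⧸ Gamma0 N) = g := QuotientGroup.out_eq' _
    rw [coset_eq_iff] at h1
    have h2 := (isCuspInv_iff (isCoprime_col N _) (isCoprime_col N _)
      (hDW (g : SL(2,ℤ) ⧸ Gamma0 N)) hi).1 ⟨0, by simpa using h1⟩
    simp [h2.1, h2.2]

end Fermat.Agent.S20
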