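import Fermat.Agent.S20.CombFix
import Fermat.Agent.S20.CombCusp
import Fermat.Agent.S20.CombIndex

/-!
# S20, piece K: combinatorics of `SL(2,ℤ) ⧸ Γ₀(N) ≃ ℙ¹(ℤ/N)`

* `card_cos N : Nat.card (SL(2,ℤ) ⧸ Gamma0 N) = dedekindPsi N` (here)
* `index_Gamma0 N : (Gamma0 N).index = ModularCurve.dedekindPsi N` (CombIndex)
* `card_fixedBy_S N : Nat.card (MulAction.fixedBy (SL(2,ℤ) ⧸ Gamma0 N) S) = nuTwo N` (CombFix)
* `card_fixedBy_ST N : Nat.card (MulAction.fixedBy (SL(2,ℤ) ⧸ Gamma0 N) (S * T)) = nuThree N`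
  (CombFix)
* `card_orbits_T N : Nat.card (MulAction.orbitRel.Quotient (Subgroup.zpowers T)
  (SL(2,ℤ) ⧸ Gamma0 N)) = cuspCount N` (CombCusp)
-/

set_option autoImplicit false

namespace Fermat.Agent.S20

open CongruenceSubgroup ModularCurve
open scoped MatrixGroups

variable (N : ℕ) [NeZero N]

theorem card_cos : Nat.card (SL(2, ℤ) ⧸ Gamma0 N) = dedekindPsi N :=
  index_Gamma0 N

end Fermat.Agent.S20
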