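import Fermat.Agent.S20.DualCore

/-!
# S20, piece D: duality.  `G i := Δ * (M⁻¹)ᵀ i a₀` is a nonzero cusp form of weight `12 - w i`,
and the `G i` are a basis of the module of cusp forms.  (Proofs in `DualCore.lean`.)
-/

set_option autoImplicit false

namespace Fermat.Agent.S20

open UpperHalfPlane ModularForm Filter Topology EisensteinSeries
open scoped MatrixGroups Manifold ModularForm

variable {H : Subgroup SL(2, ℤ)} [H.FiniteIndex] [Fintype (Cos H)] [DecidableEq (Cos H)]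
  {w : Cos H → ℤ} {B : Cos H → ℍ → ℂ}

omit [H.FiniteIndex] in
lemma dualF_tendsto_of_hcusp
    (hcusp : Tendsto (fun z => discriminant z • (Mat H w B z)⁻¹) atImInfty (𝓝 0)) (x i : Cos H) :
    Tendsto (Dual.dualF w B x i) atImInfty (𝓝 0) :=
  tendsto_pi_nhds.mp (tendsto_pi_nhds.mp hcusp x) i

theorem weight_lt_twelve (hmem : ∀ i, B i ∈ MFs H (w i)) (hdet : ∀ z, (Mat H w B z).det ≠ 0)
    (hcusp : Tendsto (fun z => discriminant z • (Mat H w B z)⁻¹) atImInfty (𝓝 0)) (i : Cos H) :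
    w i < 12 := by
  have := Dual.weight_le hmem hdet (dualF_tendsto_of_hcusp hcusp) i
  omega

omit [H.FiniteIndex] in
/-- General weight: `dim S_k(H) = ∑ i, dim M_{k + w i - 12}(SL₂(ℤ))`. -/
theorem finrank_CFs_eq_sum (hmem : ∀ i, B i ∈ MFs H (w i))
    (hdet : ∀ z, (Mat H w B z).det ≠ 0)
    (hcusp : Tendsto (fun z => discriminant z • (Mat H w B z)⁻¹) atImInfty (𝓝 0)) (k : ℤ) :
    Module.finrank ℂ (CFs H k) = ∑ i, Module.finrank ℂ (MFs ⊤ (k + w i - 12)) :=
  Dual.finrank_CFs hmem hdet (dualF_tendsto_of_hcusp hcusp) k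

theorem finrank_CFs_two (hmem : ∀ i, B i ∈ MFs H (w i)) (hdet : ∀ z, (Mat H w B z).det ≠ 0)
    (hcusp : Tendsto (fun z => discriminant z • (Mat H w B z)⁻¹) atImInfty (𝓝 0))
    (hw : ∀ i, w i ≤ 10) :
    Module.finrank ℂ (CFs H 2) = Fintype.card {i // w i = 10} := by
  rw [Dual.finrank_CFs_two hmem hdet (dualF_tendsto_of_hcusp hcusp), Fintype.card_subtype]

end Fermat.Agent.S20
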