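import Fermat.Agent.S20.DualCore

/-!
# S20, piece E: trace identities at the elliptic points `i` and `ρ`
-/

set_option autoImplicit false

namespace Fermat.Agent.S20

open UpperHalfPlane ModularForm Filter Topology
open scoped MatrixGroups Manifold ModularForm

variable {H : Subgroup SL(2, ℤ)} [Fintype (Cos H)] [DecidableEq (Cos H)]
  {w : Cos H → ℤ} {B : Cos H → ℍ → ℂ}

omit [DecidableEq (Cos H)] in
lemma natCard_fixedBy_eq (g : SL(2, ℤ)) [DecidablePred fun x : Cos H => g • x = x] :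
    Nat.card (MulAction.fixedBy (Cos H) g) = Fintype.card {x : Cos H // g • x = x} := by
  rw [← Nat.card_eq_fintype_card]
  rfl

/-- General form: at a fixed point `z` of `g`. -/
theorem trace_of_fixed (hmem : ∀ i, B i ∈ MFs H (w i)) (g : SL(2, ℤ)) (z : ℍ)
    (hdet : (Mat H w B z).det ≠ 0) (hz : g • z = z) :
    ∑ i, denom g z ^ (-w i) = (Nat.card (MulAction.fixedBy (Cos H) g) : ℂ) := by
  rw [natCard_fixedBy_eq, Dual.sum_denom_zpow_neg_eq_card_fixed hmem g z hdet hz]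

/-- `S • i = i`, `denom S i = i`: `M(i) = diag(i^{w}) M(i) P_S`, take traces. -/
theorem trace_S (hmem : ∀ i, B i ∈ MFs H (w i)) (hdet : ∀ z, (Mat H w B z).det ≠ 0) :
    ∑ i, Complex.I ^ (-w i) = (Nat.card (MulAction.fixedBy (Cos H) ModularGroup.S) : ℂ) := by
  have hz : ModularGroup.S • (I : ℍ) = I := by
    rw [modular_S_smul]
    ext
    simp
  have := trace_of_fixed hmem ModularGroup.S I (hdet I) hz
  rwa [ModularGroup.denom_S] at this

/-- `e(1/6)` -/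
noncomputable def xi : ℂ := 1 / 2 + (Real.sqrt 3 / 2 : ℝ) * Complex.I

/-- The elliptic point `ρ = -1/2 + √3/2 i`. -/
noncomputable def rhoPt : ℍ := ⟨-1 / 2 + (Real.sqrt 3 / 2 : ℝ) * Complex.I, by simp⟩

lemma coe_rhoPt : (rhoPt : ℂ) = -1 / 2 + (Real.sqrt 3 / 2 : ℝ) * Complex.I := rfl

lemma rhoPt_sq : (rhoPt : ℂ) ^ 2 + rhoPt + 1 = 0 := by
  rw [coe_rhoPt]
  have h3 : ((Real.sqrt 3 : ℝ) : ℂ) ^ 2 = 3 := by
    rw [← Complex.ofReal_pow, Real.sq_sqrt (by norm_num)]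
    norm_num
  push_cast
  ring_nf
  rw [Complex.I_sq, h3]
  ring

lemma coe_ST : ((ModularGroup.S * ModularGroup.T : SL(2, ℤ)) : Matrix (Fin 2) (Fin 2) ℤ) =
    !![0, -1; 1, 1] := by
  rw [Matrix.SpecialLinearGroup.coe_mul, ModularGroup.coe_S, ModularGroup.coe_T]
  ext i j
  fin_cases i <;> fin_cases j <;> simp [Matrix.mul_apply, Fin.sum_univ_two]

lemma smul_rhoPt_of_eq {g : SL(2, ℤ)} (hg : (g : Matrix (Fin 2) (Fin 2) ℤ) = !![0, -1; 1, 1]) :
    g • rhoPt = rhoPt := by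
  ext
  rw [coe_specialLinearGroup_apply]
  have hne : (rhoPt : ℂ) + 1 ≠ 0 := by
    intro h
    have := congrArg Complex.im h
    simp [coe_rhoPt] at this
  simp only [hg]
  simp
  rw [div_eq_iff hne]
  linear_combination -rhoPt_sq

lemma denom_rhoPt_of_eq {g : SL(2, ℤ)} (hg : (g : Matrix (Fin 2) (Fin 2) ℤ) = !![0, -1; 1, 1]) :
    denom g rhoPt = xi := by
  rw [ModularGroup.denom_apply]
  simp only [hg]
  simp [coe_rhoPt, xi]
  ring

/-- `U = S T = [0,-1;1,1]` fixes `ρ = -1/2 + √3/2 i`, `denom U ρ = ρ + 1 = xi`. -/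
theorem trace_ST (hmem : ∀ i, B i ∈ MFs H (w i)) (hdet : ∀ z, (Mat H w B z).det ≠ 0) :
    ∑ i, xi ^ (-w i) =
      (Nat.card (MulAction.fixedBy (Cos H) (ModularGroup.S * ModularGroup.T)) : ℂ) := by
  have := trace_of_fixed hmem (ModularGroup.S * ModularGroup.T) rhoPt (hdet rhoPt)
    (smul_rhoPt_of_eq coe_ST)
  rwa [denom_rhoPt_of_eq coe_ST] at this

end Fermat.Agent.S20
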