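import Fermat.Agent.S20.Defs

/-!
# S20, piece (TD): diagonalisation of the action of `T` on `ℂ^(Cos H)`.
-/

set_option autoImplicit false

open Matrix MulAction Subgroup Function

namespace Fermat.Agent.S20

section DFT

variable (h : ℕ) [NeZero h]

/-- the DFT matrix on `ZMod h` -/
noncomputable def dftMat : Matrix (ZMod h) (ZMod h) ℂ :=
  Matrix.of fun i j => ZMod.stdAddChar (i * j)

noncomputable def dftMatInv : Matrix (ZMod h) (ZMod h) ℂ :=
  Matrix.of fun i j => (h : ℂ)⁻¹ * ZMod.stdAddChar (-(i * j))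

theorem dftMat_mul_inv : dftMat h * dftMatInv h = 1 := by
  ext i k
  simp only [Matrix.mul_apply, dftMat, dftMatInv, Matrix.of_apply]
  have h1 : ∀ j : ZMod h, (ZMod.stdAddChar (i * j) : ℂ) * ((h : ℂ)⁻¹ * ZMod.stdAddChar (-(j * k))) =
      (h : ℂ)⁻¹ * ZMod.stdAddChar (j * (i - k)) := by
    intro j
    rw [mul_left_comm, ← AddChar.map_add_eq_mul]
    congr 2
    ring
  simp only [h1]
  rw [← Finset.mul_sum, AddChar.sum_mulShift _ (ZMod.isPrimitive_stdAddChar h), ZMod.card,
    Matrix.one_apply]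
  have hh : (h : ℂ) ≠ 0 := Nat.cast_ne_zero.mpr (NeZero.ne h)
  by_cases hik : i = k
  · simp [hik, hh]
  · simp [hik, sub_eq_zero]

theorem dftMat_succ (i j : ZMod h) :
    dftMat h (i + 1) j =
      Complex.exp (2 * Real.pi * Complex.I * (j.val : ℂ) / (h : ℂ)) * dftMat h i j := by
  simp only [dftMat, Matrix.of_apply]
  rw [add_mul, one_mul, AddChar.map_add_eq_mul, mul_comm]
  congr 1
  have := ZMod.stdAddChar_coe (N := h) (j.val : ℤ)
  simpa using this

theorem sum_zmod_val : ∑ j : ZMod h, j.val = ∑ i ∈ Finset.range h, i := by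
  refine Finset.sum_nbij' (fun j => j.val) (fun i => (i : ZMod h)) ?_ ?_ ?_ ?_ ?_
  · intro j _; exact Finset.mem_range.mpr (ZMod.val_lt j)
  · intro i _; exact Finset.mem_univ _
  · intro j _; exact ZMod.natCast_zmod_val j
  · intro i hi; exact ZMod.val_cast_of_lt (Finset.mem_range.mp hi)
  · intro j _; rfl

end DFT

section Generic

variable {G : Type} [Group G] (H : Subgroup G) (g : G)

theorem quotientEquivSigmaZMod_smul (a : G ⧸ H) :
    quotientEquivSigmaZMod H g (g • a) =
      ⟨(quotientEquivSigmaZMod H g a).1, (quotientEquivSigmaZMod H g a).2 + 1⟩ := by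
  obtain ⟨⟨q, i⟩, rfl⟩ := (quotientEquivSigmaZMod H g).symm.surjective a
  rw [Equiv.apply_symm_apply, quotientEquivSigmaZMod_symm_apply]
  have : g • g ^ (ZMod.cast i : ℤ) • q.out = g ^ ((ZMod.cast i : ℤ) + 1) • q.out := by
    rw [smul_smul, _root_.zpow_add_one, (Commute.zpow_self g _).eq]
  rw [this, quotientEquivSigmaZMod_apply]
  simp

theorem exists_diag [Fintype (G ⧸ H)] [DecidableEq (G ⧸ H)] :
    ∃ (n : ℕ) (C : Matrix (G ⧸ H) (G ⧸ H) ℂ) (m : G ⧸ H → ℕ), 0 < n ∧ C.det ≠ 0 ∧
      (∀ x, m x < n) ∧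
      (∀ a x, C (g • a) x =
        Complex.exp (2 * Real.pi * Complex.I * (m x : ℂ) / (n : ℂ)) * C a x) ∧
      2 * ∑ x, m x + n * Nat.card (orbitRel.Quotient (zpowers g) (G ⧸ H)) =
        n * Fintype.card (G ⧸ H) ∧
      (Finset.univ.filter (fun x => m x = 0)).card =
        Nat.card (orbitRel.Quotient (zpowers g) (G ⧸ H)) := by
  classical
  let Q := orbitRel.Quotient (zpowers g) (G ⧸ H)
  let _ : Fintype Q := Fintype.ofFinite _
  let hh : Q → ℕ := fun q => minimalPeriod (g • ·) q.out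
  have hne : ∀ q : Q, NeZero (hh q) := fun q => MulAction.minimalPeriod_pos g q.out
  let e : G ⧸ H ≃ Σ q : Q, ZMod (hh q) := quotientEquivSigmaZMod H g
  let n : ℕ := ∏ q, hh q
  have hn : 0 < n := Finset.prod_pos (fun q _ => Nat.pos_of_ne_zero (hne q).out)
  have hdvd : ∀ q, hh q ∣ n := fun q => Finset.dvd_prod_of_mem _ (Finset.mem_univ q)
  let C : Matrix (G ⧸ H) (G ⧸ H) ℂ := (blockDiagonal' (fun q => dftMat (hh q))).submatrix e e
  let C' : Matrix (G ⧸ H) (G ⧸ H) ℂ := (blockDiagonal' (fun q => dftMatInv (hh q))).submatrix e e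
  let m : G ⧸ H → ℕ := fun x => (e x).2.val * (n / hh (e x).1)
  refine ⟨n, C, m, hn, ?_, ?_, ?_, ?_, ?_⟩
  · refine Matrix.det_ne_zero_of_right_inverse (B := C') ?_
    show (blockDiagonal' _).submatrix e e * (blockDiagonal' _).submatrix e e = 1
    rw [Matrix.submatrix_mul_equiv, ← blockDiagonal'_mul]
    have : (fun q => dftMat (hh q) * dftMatInv (hh q)) = fun q => (1 : Matrix (ZMod (hh q)) _ ℂ) :=
      funext fun q => dftMat_mul_inv (hh q)
    rw [this]
    have h1 : (blockDiagonal' fun q => (1 : Matrix (ZMod (hh q)) (ZMod (hh q)) ℂ)) = 1 :=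
      blockDiagonal'_one
    rw [h1, Matrix.submatrix_one_equiv]
  · intro x
    show (e x).2.val * (n / hh (e x).1) < n
    obtain ⟨c, hc⟩ := hdvd (e x).1
    have hpos : 0 < hh (e x).1 := Nat.pos_of_ne_zero (hne _).out
    have hcpos : 0 < c := by
      rcases Nat.eq_zero_or_pos c with rfl | h
      · simp at hc; omega
      · exact h
    rw [hc, Nat.mul_div_cancel_left _ hpos]
    exact Nat.mul_lt_mul_of_pos_right (ZMod.val_lt _) hcpos
  · intro a x
    show blockDiagonal' (fun q => dftMat (hh q)) (e (g • a)) (e x) =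
      _ * blockDiagonal' (fun q => dftMat (hh q)) (e a) (e x)
    have hs : e (g • a) = ⟨(e a).1, (e a).2 + 1⟩ := quotientEquivSigmaZMod_smul H g a
    rw [hs]
    show _ = Complex.exp (2 * Real.pi * Complex.I * (((e x).2.val * (n / hh (e x).1) : ℕ) : ℂ) /
      (n : ℂ)) * _
    generalize e a = A
    generalize e x = X
    obtain ⟨q, i⟩ := A
    obtain ⟨q', j⟩ := X
    by_cases hq : q = q'
    · subst hq
      rw [blockDiagonal'_apply_eq, blockDiagonal'_apply_eq, dftMat_succ]
      congr 2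
      obtain ⟨c, hc⟩ := hdvd q
      have hpos : 0 < hh q := Nat.pos_of_ne_zero (hne _).out
      have hn0 : (n : ℂ) ≠ 0 := Nat.cast_ne_zero.mpr hn.ne'
      have hh0 : (hh q : ℂ) ≠ 0 := Nat.cast_ne_zero.mpr hpos.ne'
      show _ = 2 * Real.pi * Complex.I * ((j.val * (n / hh q) : ℕ) : ℂ) / (n : ℂ)
      rw [Nat.cast_mul, Nat.cast_div (hdvd q) hh0]
      field_simp
    · rw [blockDiagonal'_apply_ne _ _ _ hq, blockDiagonal'_apply_ne _ _ _ hq, mul_zero]
  · have h1 : ∑ x, m x = ∑ q : Q, (∑ j : ZMod (hh q), j.val) * (n / hh q) := by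
      rw [← Equiv.sum_comp e.symm, Fintype.sum_sigma]
      refine Finset.sum_congr rfl (fun q _ => ?_)
      rw [Finset.sum_mul]
      refine Finset.sum_congr rfl (fun j _ => ?_)
      show (e (e.symm ⟨q, j⟩)).2.val * (n / hh (e (e.symm ⟨q, j⟩)).1) = _
      rw [Equiv.apply_symm_apply]
    have h2 : Fintype.card (G ⧸ H) = ∑ q : Q, hh q := by
      rw [Fintype.card_congr e, Fintype.card_sigma]
      exact Finset.sum_congr rfl (fun q _ => ZMod.card _)
    have h3 : n * Nat.card (orbitRel.Quotient (zpowers g) (G ⧸ H)) = ∑ _q : Q, n := by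
      rw [Nat.card_eq_fintype_card, Finset.sum_const, Finset.card_univ, smul_eq_mul, mul_comm]
    rw [h1, h2, h3, Finset.mul_sum, Finset.mul_sum, ← Finset.sum_add_distrib]
    refine Finset.sum_congr rfl (fun q _ => ?_)
    obtain ⟨c, hc⟩ := hdvd q
    have hpos : 0 < hh q := Nat.pos_of_ne_zero (hne _).out
    rw [sum_zmod_val, hc, Nat.mul_div_cancel_left _ hpos]
    have := Finset.sum_range_id_mul_two (hh q)
    obtain ⟨t, ht⟩ : ∃ t, hh q = t + 1 := ⟨hh q - 1, by omega⟩
    rw [ht] at this ⊢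
    simp only [Nat.add_sub_cancel] at this
    calc 2 * ((∑ i ∈ Finset.range (t + 1), i) * c) + (t + 1) * c
        = ((∑ i ∈ Finset.range (t + 1), i) * 2) * c + (t + 1) * c := by ring
      _ = (t + 1) * c * (t + 1) := by rw [this]; ring
  · rw [Nat.card_eq_fintype_card, ← Finset.card_univ]
    have hm : ∀ x, m x = 0 ↔ (e x).2 = 0 := by
      intro x
      show (e x).2.val * (n / hh (e x).1) = 0 ↔ _
      have hpos : 0 < hh (e x).1 := Nat.pos_of_ne_zero (hne _).out
      have h1 : 0 < n / hh (e x).1 := Nat.div_pos (Nat.le_of_dvd hn (hdvd _)) hpos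
      rw [Nat.mul_eq_zero, ZMod.val_eq_zero]
      constructor
      · rintro (h | h)
        · exact h
        · omega
      · exact Or.inl
    refine Finset.card_nbij' (fun x => (e x).1) (fun q => e.symm ⟨q, 0⟩) ?_ ?_ ?_ ?_
    · intro x _; exact Finset.mem_univ _
    · intro q _
      simp only [Finset.coe_filter, Finset.mem_univ, true_and, Set.mem_ofPred_eq]
      rw [hm, Equiv.apply_symm_apply]
    · intro x hx
      simp only [Finset.coe_filter, Finset.mem_univ, true_and, Set.mem_ofPred_eq] at hx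
      rw [hm] at hx
      rw [Equiv.symm_apply_eq]
      exact Sigma.ext rfl (heq_of_eq hx.symm)
    · intro q _
      show (e (e.symm ⟨q, 0⟩)).1 = q
      rw [Equiv.apply_symm_apply]

end Generic

open scoped MatrixGroups in
/-- **(TD)** existence of cusp data, with the sum of the exponents. -/
theorem exists_cuspData (H : Subgroup SL(2, ℤ)) [Fintype (Cos H)] [DecidableEq (Cos H)] :
    ∃ d : CuspData H,
      2 * ∑ x, d.m x + d.n * Nat.card (orbitRel.Quotient (zpowers ModularGroup.T) (Cos H)) =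
        d.n * Fintype.card (Cos H) ∧
      (Finset.univ.filter (fun x => d.m x = 0)).card =
        Nat.card (orbitRel.Quotient (zpowers ModularGroup.T) (Cos H)) := by
  obtain ⟨n, C, m, h1, h2, h3, h4, h5, h6⟩ := exists_diag H ModularGroup.T
  exact ⟨⟨n, C, m, h1, h2, h3, h4⟩, h5, h6⟩

end Fermat.Agent.S20
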