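import Fermat.Agent.S20.Cusp
import Fermat.Agent.S20.CuspDiag

/-!
# S20, piece W: the sum of the weights; decay of `Δ • M⁻¹`
-/

set_option autoImplicit false

namespace Fermat.Agent.S20

open UpperHalfPlane ModularForm Filter Topology EisensteinSeries
open scoped MatrixGroups Manifold ModularForm

variable {H : Subgroup SL(2, ℤ)} [Fintype (Cos H)] [DecidableEq (Cos H)] (d : CuspData H)
  {w : Cos H → ℤ} {B : Cos H → ℍ → ℂ}

/-! ### Auxiliary analytic facts -/

lemma w_tendsto_im : Tendsto (fun z : ℍ => z.im) atImInfty atTop := tendsto_comap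

lemma w_norm_exp (t : ℝ) (z : ℍ) :
    ‖Complex.exp (2 * Real.pi * Complex.I * (t : ℂ) * (z : ℂ))‖ =
      Real.exp (-(2 * Real.pi * t) * z.im) := by
  rw [Complex.norm_exp]
  congr 1
  have : (2 * (Real.pi : ℂ) * Complex.I * (t : ℂ) * (z : ℂ)) =
      ((2 * Real.pi * t : ℝ) : ℂ) * (Complex.I * (z : ℂ)) := by push_cast; ring
  rw [this, Complex.re_ofReal_mul]
  simp

lemma w_exp_int_mul (x : ℝ) (n : ℤ) : Real.exp (n * x) = Real.exp x ^ n := by
  rw [mul_comm, Real.exp_mul, Real.rpow_intCast]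

/-- `exp (-c y) → 0` along `atImInfty` for `c > 0`. -/
lemma w_tendsto_exp_neg {c : ℝ} (hc : 0 < c) :
    Tendsto (fun z : ℍ => Real.exp (-c * z.im)) atImInfty (𝓝 0) := by
  have h1 : Tendsto (fun z : ℍ => c * z.im) atImInfty atTop :=
    w_tendsto_im.const_mul_atTop hc
  have h2 := Real.tendsto_exp_neg_atTop_nhds_zero.comp h1
  refine h2.congr fun z => ?_
  simp [Function.comp]

/-- `exp (c y) → ∞` along `atImInfty` for `c > 0`. -/
lemma w_tendsto_exp_pos {c : ℝ} (hc : 0 < c) :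
    Tendsto (fun z : ℍ => Real.exp (c * z.im)) atImInfty atTop :=
  Real.tendsto_exp_atTop.comp (w_tendsto_im.const_mul_atTop hc)

/-- If `exp (-c y)` has a positive limit as `y → ∞`, then `c = 0`. -/
lemma w_eq_zero_of_tendsto {c L : ℝ} (hL : 0 < L)
    (h : Tendsto (fun z : ℍ => Real.exp (-c * z.im)) atImInfty (𝓝 L)) : c = 0 := by
  rcases lt_trichotomy c 0 with hc | hc | hc
  · exfalso
    have h1 : Tendsto (fun z : ℍ => Real.exp (-c * z.im)) atImInfty atTop :=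
      w_tendsto_exp_pos (by linarith)
    exact not_tendsto_nhds_of_tendsto_atTop h1 L h
  · exact hc
  · exfalso
    have h1 := w_tendsto_exp_neg hc
    exact hL.ne (tendsto_nhds_unique h1 h)

lemma w_norm_Delta_tendsto :
    Tendsto (fun z : ℍ => ‖discriminant z‖ * Real.exp (2 * Real.pi * z.im)) atImInfty (𝓝 1) := by
  have h := Delta_div_q_tendsto.norm
  rw [norm_one] at h
  refine h.congr fun z => ?_
  have h1 := w_norm_exp 1 z
  rw [norm_div]
  have h2 : Complex.exp (2 * Real.pi * Complex.I * (z : ℂ)) =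
      Complex.exp (2 * Real.pi * Complex.I * ((1 : ℝ) : ℂ) * (z : ℂ)) := by
    congr 1; push_cast; ring
  rw [h2, h1, div_eq_mul_inv, ← Real.exp_neg]
  congr 2; ring

/-! ### The twisted matrix -/

/-- The twisted matrix `M̃(z)`. -/
noncomputable def wMt (w : Cos H → ℤ) (B : Cos H → ℍ → ℂ) (z : ℍ) : Matrix (Cos H) (Cos H) ℂ :=
  fun i x => tw d (w i) (B i) z x

/-- The limit matrix. -/
noncomputable def wLam (w : Cos H → ℤ) (B : Cos H → ℍ → ℂ) : Matrix (Cos H) (Cos H) ℂ :=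
  fun i x => Lam d (w i) (B i) x

/-- The exponential factors. -/
noncomputable def wE (z : ℍ) : Cos H → ℂ :=
  fun x => Complex.exp (-(2 * Real.pi * Complex.I * (d.m x : ℂ) * (z : ℂ) / (d.n : ℂ)))

lemma wMt_eq (z : ℍ) : wMt d w B z = Mat H w B z * d.C * Matrix.diagonal (wE d z) := by
  ext i x
  rw [Matrix.mul_diagonal, Matrix.mul_apply]
  simp only [wMt, tw, wE, Mat]
  ring

lemma wMt_tendsto (hmem : ∀ i, B i ∈ MFs H (w i)) :
    Tendsto (wMt d w B) atImInfty (𝓝 (wLam d w B)) := by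
  refine tendsto_pi_nhds.2 fun i => ?_
  exact tw_tendsto d (hmem i)

lemma wLam_det_ne (hneg : -1 ∈ H) (hfam : IsFam H w B) : (wLam d w B).det ≠ 0 := by
  have h : LinearIndependent ℂ (wLam d w B).row := Lam_indep d hneg hfam
  rw [Matrix.linearIndependent_rows_iff_isUnit, Matrix.isUnit_iff_isUnit_det] at h
  exact h.ne_zero

lemma wE_ne_zero (z : ℍ) (x : Cos H) : wE d z x ≠ 0 := Complex.exp_ne_zero _

lemma w_norm_wE (z : ℍ) (x : Cos H) :
    ‖wE d z x‖ = Real.exp (2 * Real.pi * ((d.m x : ℝ) / (d.n : ℝ)) * z.im) := by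
  have h := w_norm_exp (-((d.m x : ℝ) / (d.n : ℝ))) z
  have h2 : wE d z x = Complex.exp (2 * Real.pi * Complex.I *
      ((-((d.m x : ℝ) / (d.n : ℝ)) : ℝ) : ℂ) * (z : ℂ)) := by
    unfold wE
    congr 1; push_cast; ring
  rw [h2, h]
  congr 1; ring

lemma det_wMt (z : ℍ) :
    (wMt d w B z).det = (Mat H w B z).det * d.C.det * ∏ x, wE d z x := by
  rw [wMt_eq, Matrix.det_mul, Matrix.det_mul, Matrix.det_diagonal]

lemma w_norm_prod_wE (z : ℍ) :
    ‖∏ x, wE d z x‖ ^ d.n = Real.exp (2 * Real.pi * ((∑ x, d.m x : ℕ) : ℝ) * z.im) := by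
  have hn : (d.n : ℝ) ≠ 0 := Nat.cast_ne_zero.2 d.n_pos.ne'
  rw [norm_prod, ← Finset.prod_pow]
  simp_rw [w_norm_wE, ← Real.exp_nat_mul]
  rw [← Real.exp_sum]
  congr 1
  push_cast
  rw [Finset.mul_sum, Finset.sum_mul]
  refine Finset.sum_congr rfl fun x _ => ?_
  field_simp

/-- `M̃(z) = M(z) C diag(e(-m_x z/n))` tends to the invertible matrix `(Lam (B i))`; compare
`det M̃ = det M * det C * e(-z ∑ m_x / n)` with `det M ^ 12 = c₀ Δ ^ K`, `Δ ∼ q`. -/
theorem weight_sum (hneg : -1 ∈ H) (hfam : IsFam H w B) {c₀ : ℂ} (hc₀ : c₀ ≠ 0)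
    (hdet : ∀ z, (Mat H w B z).det ^ 12 = c₀ * discriminant z ^ (∑ i, w i)) :
    (d.n : ℤ) * ∑ i, w i = 12 * ∑ x, (d.m x : ℤ) := by
  set K : ℤ := ∑ i, w i with hK
  set M : ℕ := ∑ x, d.m x with hM
  set n : ℕ := d.n with hn
  -- the limit of the determinant
  have h1 : Tendsto (fun z => (wMt d w B z).det) atImInfty (𝓝 (wLam d w B).det) :=
    ((continuous_id.matrix_det).tendsto _).comp (wMt_tendsto d hfam.mem)
  have h2 : Tendsto (fun z => ‖(wMt d w B z).det‖ ^ (12 * n)) atImInfty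
      (𝓝 (‖(wLam d w B).det‖ ^ (12 * n))) := (h1.norm).pow _
  -- the function `u = ‖Δ‖ exp (2 π y) → 1`
  set u : ℍ → ℝ := fun z => ‖discriminant z‖ * Real.exp (2 * Real.pi * z.im) with hu
  have hu1 : Tendsto u atImInfty (𝓝 1) := w_norm_Delta_tendsto
  have hupos : ∀ z, 0 < u z := fun z =>
    mul_pos (norm_pos_iff.2 (discriminant_ne_zero z)) (Real.exp_pos _)
  have hu2 : Tendsto (fun z => (u z ^ (K * n))⁻¹) atImInfty (𝓝 1) := by
    have := (hu1.zpow₀ (K * n) (Or.inl one_ne_zero)).inv₀ (by simp)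
    simpa using this
  set A : ℝ := ‖c₀‖ ^ n * ‖d.C.det‖ ^ (12 * n) with hA
  have hApos : 0 < A :=
    mul_pos (pow_pos (norm_pos_iff.2 hc₀) _) (pow_pos (norm_pos_iff.2 d.det_ne) _)
  -- key identity
  have key : ∀ z : ℍ, ‖(wMt d w B z).det‖ ^ (12 * n) =
      A * u z ^ (K * n) * Real.exp (-(2 * Real.pi * ((n : ℝ) * K - 12 * M)) * z.im) := by
    intro z
    rw [det_wMt, norm_mul, norm_mul, mul_pow, mul_pow]
    have e1 : ‖(Mat H w B z).det‖ ^ (12 * n) = ‖c₀‖ ^ n * ‖discriminant z‖ ^ (K * n) := by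
      rw [pow_mul, ← norm_pow, hdet z, norm_mul, mul_pow, norm_zpow, zpow_mul, zpow_natCast]
    have e2 : ‖∏ x, wE d z x‖ ^ (12 * n) = Real.exp (2 * Real.pi * (M : ℝ) * z.im) ^ 12 := by
      rw [mul_comm 12 n, pow_mul, w_norm_prod_wE]
    have e3 : ‖discriminant z‖ = u z * Real.exp (-(2 * Real.pi * z.im)) := by
      rw [hu]
      simp only
      rw [mul_assoc, ← Real.exp_add]
      simp
    rw [e1, e2, e3, mul_zpow, ← Real.exp_nat_mul, ← w_exp_int_mul, hA]
    have e4 : Real.exp (-(2 * Real.pi * ((n : ℝ) * K - 12 * M)) * z.im) =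
        Real.exp (((K * n : ℤ) : ℝ) * -(2 * Real.pi * z.im)) *
          Real.exp (((12 : ℕ) : ℝ) * (2 * Real.pi * (M : ℝ) * z.im)) := by
      rw [← Real.exp_add]
      congr 1
      push_cast
      ring
    rw [e4]
    ring
  have h3 : Tendsto (fun z : ℍ => Real.exp (-(2 * Real.pi * ((n : ℝ) * K - 12 * M)) * z.im))
      atImInfty (𝓝 (‖(wLam d w B).det‖ ^ (12 * n) * 1 * A⁻¹)) := by
    refine ((h2.mul hu2).mul_const A⁻¹).congr fun z => ?_
    rw [key z]
    have : u z ^ (K * n) ≠ 0 := zpow_ne_zero _ (hupos z).ne'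
    field_simp
  have hL : 0 < ‖(wLam d w B).det‖ ^ (12 * n) * 1 * A⁻¹ := by
    have := norm_pos_iff.2 (wLam_det_ne d hneg hfam)
    positivity
  have h4 := w_eq_zero_of_tendsto hL h3
  have h5 : ((n : ℝ) * K - 12 * M) = 0 := by
    have hpi : (2 * Real.pi) ≠ 0 := by positivity
    exact (mul_eq_zero.1 h4).resolve_left hpi
  have h6 : ((n : ℤ) * K : ℤ) = 12 * (M : ℤ) := by
    have : (((n : ℤ) * K : ℤ) : ℝ) = ((12 * (M : ℤ) : ℤ) : ℝ) := by
      push_cast; linarith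
    exact_mod_cast this
  rw [h6, hM]
  push_cast
  rfl

lemma w_Delta_wE_tendsto (x : Cos H) :
    Tendsto (fun z => discriminant z * wE d z x) atImInfty (𝓝 0) := by
  rw [tendsto_zero_iff_norm_tendsto_zero]
  have hn : (0 : ℝ) < d.n := Nat.cast_pos.2 d.n_pos
  have hc : 0 < 2 * Real.pi * (1 - (d.m x : ℝ) / (d.n : ℝ)) := by
    have : (d.m x : ℝ) / (d.n : ℝ) < 1 := by
      rw [div_lt_one hn]; exact_mod_cast d.m_lt x
    have hpi := Real.pi_pos
    have : 0 < 1 - (d.m x : ℝ) / (d.n : ℝ) := by linarith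
    positivity
  have h := w_norm_Delta_tendsto.mul (w_tendsto_exp_neg hc)
  rw [mul_zero] at h
  refine h.congr fun z => ?_
  rw [norm_mul, w_norm_wE, mul_assoc, ← Real.exp_add]
  congr 2
  ring

/-- `Δ M⁻¹ = Δ C diag(e(-m_x z/n)) M̃⁻¹ → 0` since `m_x / n < 1`. -/
theorem Delta_inv_tendsto (hneg : -1 ∈ H) (hfam : IsFam H w B)
    (hdet : ∀ z, (Mat H w B z).det ≠ 0) :
    Tendsto (fun z => discriminant z • (Mat H w B z)⁻¹) atImInfty (𝓝 0) := by
  obtain ⟨d, -⟩ := exists_cuspData H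
  have hdetMt : ∀ z, (wMt d w B z).det ≠ 0 := fun z => by
    rw [det_wMt]
    exact mul_ne_zero (mul_ne_zero (hdet z) d.det_ne)
      (Finset.prod_ne_zero_iff.2 fun x _ => wE_ne_zero d z x)
  have hinv : ∀ z, (Mat H w B z)⁻¹ = d.C * Matrix.diagonal (wE d z) * (wMt d w B z)⁻¹ := by
    intro z
    apply Matrix.inv_eq_right_inv
    rw [← Matrix.mul_assoc, ← Matrix.mul_assoc, ← wMt_eq]
    exact Matrix.mul_nonsing_inv _ (isUnit_iff_ne_zero.2 (hdetMt z))
  have h1 : Tendsto (wMt d w B) atImInfty (𝓝 (wLam d w B)) := wMt_tendsto d hfam.mem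
  have h2 : Tendsto (fun z => (wMt d w B z)⁻¹) atImInfty (𝓝 (wLam d w B)⁻¹) := by
    simp_rw [Matrix.inv_def, Ring.inverse_eq_inv']
    have hd : Tendsto (fun z => (wMt d w B z).det) atImInfty (𝓝 (wLam d w B).det) :=
      ((continuous_id.matrix_det).tendsto _).comp h1
    have ha : Tendsto (fun z => (wMt d w B z).adjugate) atImInfty (𝓝 (wLam d w B).adjugate) :=
      ((continuous_id.matrix_adjugate).tendsto _).comp h1
    exact (hd.inv₀ (wLam_det_ne d hneg hfam)).smul ha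
  have h3 : Tendsto (fun z => Matrix.diagonal (fun x => discriminant z * wE d z x)) atImInfty
      (𝓝 (0 : Matrix (Cos H) (Cos H) ℂ)) := by
    refine tendsto_pi_nhds.2 fun i => tendsto_pi_nhds.2 fun j => ?_
    by_cases hij : i = j
    · subst hij
      simpa using w_Delta_wE_tendsto d i
    · simp [Matrix.diagonal_apply_ne _ hij]
  have h4 := ((tendsto_const_nhds (x := d.C)).mul h3).mul h2
  rw [mul_zero, zero_mul] at h4
  refine h4.congr fun z => ?_
  rw [hinv z, ← Matrix.smul_mul, ← Matrix.mul_smul]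
  congr 2
  ext i j
  by_cases hij : i = j
  · subst hij; simp
  · simp [Matrix.diagonal_apply_ne _ hij]

end Fermat.Agent.S20
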