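import Fermat.Agent.S20.Rank
import Fermat.Agent.S20.Weight
import Fermat.Agent.S20.Elliptic
import Fermat.Agent.S20.Dual

/-!
# S20, piece N: numerics and assembly for a general subgroup `H`
-/

set_option autoImplicit false

namespace Fermat.Agent.S20

open UpperHalfPlane ModularForm Filter Topology EisensteinSeries
open scoped MatrixGroups Manifold ModularForm

section fam

variable {H : Subgroup SL(2, ℤ)} {ι : Type} {w : ι → ℤ} {B : ι → ℍ → ℂ}

lemma IsFam.ne_zero (hfam : IsFam H w B) (i : ι) : B i ≠ 0 := by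
  intro h0
  have h1 := hfam.indep (w i) {i} (fun _ => 1)
    (fun j hj => by
      rw [Finset.mem_singleton] at hj
      subst hj
      rw [sub_self]; exact one_mem_MFs)
    (by simp [h0]) i (Finset.mem_singleton_self i)
  exact one_ne_zero h1

lemma IsFam.even (hneg : -1 ∈ H) (hfam : IsFam H w B) (i : ι) : Even (w i) := by
  by_contra hodd
  rw [Int.not_even_iff_odd] at hodd
  have := hfam.mem i
  rw [MFs_odd hneg hodd, Submodule.mem_bot] at this
  exact hfam.ne_zero i this

lemma IsFam.nonneg [H.FiniteIndex] (hfam : IsFam H w B) (i : ι) : 0 ≤ w i := by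
  by_contra hlt
  rw [not_le] at hlt
  have := hfam.mem i
  rw [MFs_neg hlt, Submodule.mem_bot] at this
  exact hfam.ne_zero i this

lemma IsFam.exists_weight_zero [H.FiniteIndex] (hfam : IsFam H w B) : ∃ i, w i = 0 := by
  by_contra hne
  push Not at hne
  obtain ⟨s, r, hr, h1⟩ := hfam.gen 0 1 one_mem_MFs
  have : ∀ i, r i = 0 := fun i => by
    have hi := hr i
    have hlt : 0 - w i < 0 := by
      have := hfam.nonneg i
      have := hne i
      omega
    rwa [MFs_neg hlt, Submodule.mem_bot] at hi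
  simp [this] at h1

lemma IsFam.weight_zero_unique [H.FiniteIndex] (hfam : IsFam H w B) {i j : ι} (hi : w i = 0)
    (hj : w j = 0) : i = j := by
  classical
  by_contra hij
  obtain ⟨x, hx⟩ := MFs_zero (hi ▸ hfam.mem i)
  obtain ⟨y, hy⟩ := MFs_zero (hj ▸ hfam.mem j)
  have hy0 : y ≠ 0 := by
    rintro rfl
    exact hfam.ne_zero j hy
  have h1 := hfam.indep 0 {i, j} (fun l => if l = i then (fun _ => y) else (fun _ => -x))
    (fun l hl => by
      rw [Finset.mem_insert, Finset.mem_singleton] at hl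
      rcases hl with rfl | rfl
      · rw [hi, sub_zero, if_pos rfl]; exact const_mem_MFs y
      · rw [hj, sub_zero, if_neg (Ne.symm hij)]; exact const_mem_MFs (-x))
    (by
      rw [Finset.sum_pair hij, if_pos rfl, if_neg (Ne.symm hij), hx, hy]
      funext z
      simp [mul_comm])
    i (by simp)
  rw [if_pos rfl] at h1
  exact hy0 (congrFun h1 UpperHalfPlane.I)

end fam

/-! ### Numerics -/

lemma xi_sq : xi ^ 2 = -1 / 2 + (Real.sqrt 3 / 2 : ℝ) * Complex.I := by
  have h3 : (Real.sqrt 3) ^ 2 = 3 := Real.sq_sqrt (by norm_num)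
  have h3' : ((Real.sqrt 3 : ℝ) : ℂ) ^ 2 = 3 := by exact_mod_cast h3
  unfold xi
  push_cast
  ring_nf
  rw [Complex.I_sq, h3']
  ring

lemma xi_cube : xi ^ 3 = -1 := by
  have h3 : (Real.sqrt 3) ^ 2 = 3 := Real.sq_sqrt (by norm_num)
  have h3' : ((Real.sqrt 3 : ℝ) : ℂ) ^ 2 = 3 := by exact_mod_cast h3
  rw [pow_succ, xi_sq]
  unfold xi
  push_cast
  ring_nf
  rw [Complex.I_sq, h3']
  ring

lemma xi_ne_zero : xi ≠ 0 := by
  intro h
  have := xi_cube
  rw [h] at this
  norm_num at this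

lemma xi_zpow_neg_two : xi ^ (-2 : ℤ) = -xi := by
  rw [zpow_neg, inv_eq_iff_eq_inv, eq_comm, inv_eq_of_mul_eq_one_left]
  have := xi_cube
  calc xi ^ (2 : ℤ) * -xi = -(xi ^ 3) := by rw [zpow_ofNat]; ring
    _ = 1 := by rw [this]; ring

lemma xi_zpow_neg_six : xi ^ (-6 : ℤ) = 1 := by
  rw [zpow_neg, inv_eq_one, zpow_ofNat]
  calc xi ^ 6 = (xi ^ 3) ^ 2 := by ring
    _ = 1 := by rw [xi_cube]; ring

lemma xi_zpow_neg_four : xi ^ (-4 : ℤ) = xi ^ 2 := by
  have : (-4 : ℤ) = -6 + 2 := by norm_num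
  rw [this, zpow_add₀ xi_ne_zero, xi_zpow_neg_six, one_mul, zpow_ofNat]

lemma xi_zpow_neg_eight : xi ^ (-8 : ℤ) = -xi := by
  have : (-8 : ℤ) = -6 + -2 := by norm_num
  rw [this, zpow_add₀ xi_ne_zero, xi_zpow_neg_six, one_mul, xi_zpow_neg_two]

lemma xi_zpow_neg_ten : xi ^ (-10 : ℤ) = xi ^ 2 := by
  have : (-10 : ℤ) = -6 + -4 := by norm_num
  rw [this, zpow_add₀ xi_ne_zero, xi_zpow_neg_six, one_mul, xi_zpow_neg_four]

lemma I_zpow_neg_two : Complex.I ^ (-2 : ℤ) = -1 := by
  rw [zpow_neg, zpow_ofNat, Complex.I_sq]; norm_num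

lemma I_zpow_neg_four : Complex.I ^ (-4 : ℤ) = 1 := by
  have : (-4 : ℤ) = -2 + -2 := by norm_num
  rw [this, zpow_add₀ Complex.I_ne_zero, I_zpow_neg_two]; norm_num

lemma I_zpow_neg_six : Complex.I ^ (-6 : ℤ) = -1 := by
  have : (-6 : ℤ) = -4 + -2 := by norm_num
  rw [this, zpow_add₀ Complex.I_ne_zero, I_zpow_neg_two, I_zpow_neg_four]; norm_num

lemma I_zpow_neg_eight : Complex.I ^ (-8 : ℤ) = 1 := by
  have : (-8 : ℤ) = -4 + -4 := by norm_num
  rw [this, zpow_add₀ Complex.I_ne_zero, I_zpow_neg_four]; norm_num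

lemma I_zpow_neg_ten : Complex.I ^ (-10 : ℤ) = -1 := by
  have : (-10 : ℤ) = -6 + -4 := by norm_num
  rw [this, zpow_add₀ Complex.I_ne_zero, I_zpow_neg_four, I_zpow_neg_six]; norm_num

lemma xi_re : xi.re = 1 / 2 := by simp [xi]

lemma xi_im : xi.im = Real.sqrt 3 / 2 := by simp [xi]

lemma xi_sq_re : (xi ^ 2).re = -1 / 2 := by rw [xi_sq]; simp

lemma xi_sq_im : (xi ^ 2).im = Real.sqrt 3 / 2 := by rw [xi_sq]; simp

/-- The pointwise identity behind the linear algebra of the five equations. -/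
lemma numerics_pointwise (w : ℤ) (h0 : 0 ≤ w) (h10 : w ≤ 10) (hev : Even w) :
    (if w = 10 then 12 else 0 : ℝ) = -5 - 3 * (Complex.I ^ (-w)).re - 4 * (xi ^ (-w)).re + w +
      (if w = 0 then 12 else 0) + (4 / Real.sqrt 3) * (xi ^ (-w)).im := by
  have h3 : Real.sqrt 3 ≠ 0 := by positivity
  have hw : w = 0 ∨ w = 2 ∨ w = 4 ∨ w = 6 ∨ w = 8 ∨ w = 10 := by
    obtain ⟨m, rfl⟩ := hev
    omega
  rcases hw with rfl | rfl | rfl | rfl | rfl | rfl
  · norm_num
  · simp only [xi_zpow_neg_two, I_zpow_neg_two, Complex.neg_re, Complex.neg_im, xi_re, xi_im,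
      Complex.one_re]
    norm_num
    field_simp; ring
  · rw [xi_zpow_neg_four, I_zpow_neg_four, xi_sq_re, xi_sq_im]
    norm_num
    field_simp; ring
  · rw [xi_zpow_neg_six, I_zpow_neg_six]
    norm_num
  · simp only [xi_zpow_neg_eight, I_zpow_neg_eight, Complex.neg_re, Complex.neg_im, xi_re, xi_im,
      Complex.one_re]
    norm_num
    field_simp; ring
  · rw [xi_zpow_neg_ten, I_zpow_neg_ten, xi_sq_re, xi_sq_im]
    norm_num
    field_simp; ring

/-- The dimension formula for a general finite index subgroup `H ∋ -1` with a separating form. -/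
theorem main_formula (H : Subgroup SL(2, ℤ)) [H.FiniteIndex] (hneg : -1 ∈ H) (hsep : HasSep H) :
    (12 : ℝ) * Module.finrank ℂ (CFs H 2) = 12 + Nat.card (Cos H)
      - 3 * Nat.card (MulAction.fixedBy (Cos H) ModularGroup.S)
      - 4 * Nat.card (MulAction.fixedBy (Cos H) (ModularGroup.S * ModularGroup.T))
      - 6 * Nat.card (MulAction.orbitRel.Quotient (Subgroup.zpowers ModularGroup.T) (Cos H)) := by
  classical
  haveI : Fintype (Cos H) := Fintype.ofFinite _
  obtain ⟨w, B, hfam, z0, hz0⟩ := exists_basis H hneg hsep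
  obtain ⟨c₀, hc⟩ := det_Mat_pow_twelve hfam
  have hdet := det_Mat_ne_zero hfam hz0
  have hc0 : c₀ ≠ 0 := by
    rintro rfl
    have := hc z0
    rw [zero_mul] at this
    exact hz0 (pow_eq_zero_iff (by norm_num) |>.mp this)
  obtain ⟨d, hd, -⟩ := exists_cuspData H
  have hW := weight_sum d hneg hfam hc0 hc
  have hcusp := Delta_inv_tendsto hneg hfam hdet
  have hS := trace_S hfam.mem hdet
  have hST := trace_ST hfam.mem hdet
  have h12 := weight_lt_twelve hfam.mem hdet hcusp
  have hev := hfam.even hneg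
  have h0 := hfam.nonneg
  have h10 : ∀ i, w i ≤ 10 := fun i => by
    obtain ⟨m, hm⟩ := hev i
    have := h12 i
    omega
  have hfin := finrank_CFs_two hfam.mem hdet hcusp h10
  -- the sum of the weights
  have hK : ((∑ i, w i : ℤ) : ℝ) = 6 * (Nat.card (Cos H) : ℝ)
      - 6 * Nat.card (MulAction.orbitRel.Quotient (Subgroup.zpowers ModularGroup.T) (Cos H)) := by
    have hn : (d.n : ℝ) ≠ 0 := by exact_mod_cast d.n_pos.ne'
    have hW' : (d.n : ℝ) * ((∑ i, w i : ℤ) : ℝ) = 12 * ((∑ x, d.m x : ℕ) : ℝ) := by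
      exact_mod_cast hW
    have hd' : 2 * ((∑ x, d.m x : ℕ) : ℝ) + d.n *
        Nat.card (MulAction.orbitRel.Quotient (Subgroup.zpowers ModularGroup.T) (Cos H))
        = d.n * Nat.card (Cos H) := by
      rw [Nat.card_eq_fintype_card (α := Cos H)]
      exact_mod_cast hd
    apply mul_left_cancel₀ hn
    linear_combination hW' + 6 * hd'
  -- the number of weights equal to `0`
  have hzero : ∑ i, (if w i = 0 then 12 else 0 : ℝ) = 12 := by
    obtain ⟨i0, hi0⟩ := hfam.exists_weight_zero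
    rw [Finset.sum_eq_single i0]
    · rw [if_pos hi0]
    · intro j _ hj
      rw [if_neg]
      intro hj0
      exact hj (hfam.weight_zero_unique hj0 hi0)
    · intro h; exact absurd (Finset.mem_univ _) h
  have hten : ∑ i, (if w i = 10 then 12 else 0 : ℝ) = 12 * Module.finrank ℂ (CFs H 2) := by
    rw [hfin, Fintype.card_subtype, ← Finset.sum_filter, Finset.sum_const, nsmul_eq_mul, mul_comm]
  have hSre : ∑ i, (Complex.I ^ (-w i)).re =
      Nat.card (MulAction.fixedBy (Cos H) ModularGroup.S) := by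
    rw [← Complex.re_sum, hS, Complex.natCast_re]
  have hSTre : ∑ i, (xi ^ (-w i)).re =
      Nat.card (MulAction.fixedBy (Cos H) (ModularGroup.S * ModularGroup.T)) := by
    rw [← Complex.re_sum, hST, Complex.natCast_re]
  have hSTim : ∑ i, (xi ^ (-w i)).im = 0 := by
    rw [← Complex.im_sum, hST, Complex.natCast_im]
  have hsum := Finset.sum_congr (rfl : (Finset.univ : Finset (Cos H)) = Finset.univ)
    (fun i _ => numerics_pointwise (w i) (h0 i) (h10 i) (hev i))
  simp only [Finset.sum_add_distrib, Finset.sum_sub_distrib, ← Finset.mul_sum, hzero, hten, hSre,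
    hSTre, hSTim, Finset.sum_const, Finset.card_univ, nsmul_eq_mul] at hsum
  rw [← Int.cast_sum, hK, ← Nat.card_eq_fintype_card] at hsum
  linear_combination hsum

end Fermat.Agent.S20
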