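import Fermat.Agent.S20.Basic
import Fermat.Agent.S23.SepFormQ
import Fermat.Agent.S23.SepSep

/-!
# S20: the separating form for `Γ₀(N)` (from S23)
-/

set_option autoImplicit false

namespace Fermat.Agent.S20

open UpperHalfPlane ModularForm CongruenceSubgroup
open scoped MatrixGroups Manifold ModularForm

theorem hasSep_Gamma0 (N : ℕ) [NeZero N] : HasSep (Gamma0 N) := by
  refine ⟨4, ⇑(Fermat.Agent.S23.sepX N), mf_coe_mem_MFs _ _, fun g hg => ?_⟩
  refine Fermat.Agent.S23.sep_separation N (Fermat.Agent.S23.sepAlpha N) ?_ g ?_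
  · rw [Fermat.Agent.S23.sepAlpha, ModularForm.val_heckeDiagMatrix (NeZero.ne N)]
  · rw [← Fermat.Agent.S23.coe_sepX]; exact hg

end Fermat.Agent.S20
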