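import Fermat.Agent.S20.LevelOneDiv

set_option autoImplicit false

/-! Level one input for S20 (piece L): the forms `π_{z0}` and divisibility (L3). -/

namespace Fermat.Agent.S20

open UpperHalfPlane ModularForm ModularFormClass MatrixGroups EisensteinSeries Filter Topology

noncomputable section

/-- A level one modular form tends to its constant coefficient at `i∞`. -/
theorem l1_tendsto {k : ℤ} (F : ModularForm 𝒮ℒ k) :
    Tendsto F atImInfty (𝓝 ((qExpansion 1 F).coeff 0)) := by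
  have han := ModularFormClass.analyticAt_cuspFunction_zero F one_pos one_mem_strictPeriods_SL
  have h0 : (qExpansion 1 F).coeff 0 = cuspFunction 1 F 0 := by
    simp [qExpansion_coeff]
  have hcomp : (cuspFunction 1 F ∘ fun τ : ℍ ↦ Function.Periodic.qParam 1 τ : ℍ → ℂ) = F := by
    funext τ
    exact SlashInvariantFormClass.eq_cuspFunction F τ one_mem_strictPeriods_SL one_ne_zero
  rw [h0]
  have := han.continuousAt.tendsto.comp (qParam_tendsto_atImInfty one_pos)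
  rwa [hcomp] at this

theorem l1_coeff_zero_E₄ : (qExpansion 1 E₄).coeff 0 = 1 := E_qExpansion_coeff_zero _ ⟨2, rfl⟩
theorem l1_coeff_zero_E₆ : (qExpansion 1 E₆).coeff 0 = 1 := E_qExpansion_coeff_zero _ ⟨3, rfl⟩

theorem l1_tendsto_E₄ : Tendsto E₄ atImInfty (𝓝 1) := l1_coeff_zero_E₄ ▸ l1_tendsto E₄
theorem l1_tendsto_E₆ : Tendsto E₆ atImInfty (𝓝 1) := l1_coeff_zero_E₆ ▸ l1_tendsto E₆

theorem l1_E₄_E₆_ne (z : ℍ) : E₄ z ^ 3 - E₆ z ^ 2 ≠ 0 := by
  intro h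
  have := discriminant_eq_E₄_cube_sub_E₆_sq z
  rw [h, zero_div] at this
  exact discriminant_ne_zero z this

theorem l1_E₆_ne_of_E₄_eq {z : ℍ} (h : E₄ z = 0) : E₆ z ≠ 0 := by
  intro h6
  apply l1_E₄_E₆_ne z
  rw [h, h6]; ring

theorem l1_E₄_ne_of_E₆_eq {z : ℍ} (h : E₆ z = 0) : E₄ z ≠ 0 := by
  intro h4
  apply l1_E₄_E₆_ne z
  rw [h, h4]; ring

/-- The monomial `E₄^a E₆^b`, in any weight `k = 4a+6b`. -/
def l1mono (a b : ℕ) (k : ℤ) (h : (a : ℤ) * 4 + (b : ℤ) * 6 = k) : ModularForm 𝒮ℒ k :=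
  ModularForm.mcast h ((E₄.pow a).mul (E₆.pow b))

@[simp] theorem l1mono_apply (a b : ℕ) (k : ℤ) (h : (a : ℤ) * 4 + (b : ℤ) * 6 = k) (z : ℍ) :
    l1mono a b k h z = E₄ z ^ a * E₆ z ^ b := by
  simp [l1mono]

/-- The weight twelve form `α E₄³ - β E₆²`. -/
def l1pencil (α β : ℂ) : ModularForm 𝒮ℒ 12 :=
  α • l1mono 3 0 12 (by norm_num) - β • l1mono 0 2 12 (by norm_num)

@[simp] theorem l1pencil_apply (α β : ℂ) (z : ℍ) :
    l1pencil α β z = α * E₄ z ^ 3 - β * E₆ z ^ 2 := by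
  simp [l1pencil]

theorem l1pencil_tendsto (α β : ℂ) : Tendsto (l1pencil α β) atImInfty (𝓝 (α - β)) := by
  have h : (l1pencil α β : ℍ → ℂ) = fun z => α * E₄ z ^ 3 - β * E₆ z ^ 2 := by
    funext z; simp
  rw [h]
  have := ((l1_tendsto_E₄.pow 3).const_mul α).sub ((l1_tendsto_E₆.pow 2).const_mul β)
  simpa using this

theorem l1_ne_zero_of_tendsto {k : ℤ} {F : ModularForm 𝒮ℒ k} {c : ℂ} (hc : c ≠ 0)
    (h : Tendsto F atImInfty (𝓝 c)) : F ≠ 0 := by
  rintro rfl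
  have h0 : Tendsto ((0 : ModularForm 𝒮ℒ k) : ℍ → ℂ) atImInfty (𝓝 0) := by
    have : ((0 : ModularForm 𝒮ℒ k) : ℍ → ℂ) = fun _ => 0 := rfl
    rw [this]; exact tendsto_const_nhds
  exact hc (tendsto_nhds_unique h h0)

theorem l1_exists_mono (k : ℤ) (hk : 0 ≤ k) (he : Even k) (h2 : k ≠ 2) :
    ∃ a b : ℕ, (a : ℤ) * 4 + (b : ℤ) * 6 = k := by
  obtain ⟨m, hm⟩ := he
  have hm0 : 0 ≤ m := by omega
  lift m to ℕ using hm0
  rcases Nat.even_or_odd' m with ⟨c, hc | hc⟩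
  · exact ⟨c, 0, by subst hc; push_cast; omega⟩
  · have : 1 ≤ c := by
      rcases Nat.eq_zero_or_pos c with h | h
      · subst h; subst hc; simp at hm; omega
      · exact h
    exact ⟨c - 1, 1, by subst hc; push_cast [Nat.cast_sub this]; omega⟩

/-- (L3), case `E₄ z0 = 0`. -/
theorem l1_div_E₄ {z0 : ℍ} (h0 : E₄ z0 = 0) (k : ℤ) (Φ : ModularForm 𝒮ℒ k) (hΦ : Φ z0 = 0) :
    ∃ Φ' : ModularForm 𝒮ℒ (k - 4), ∀ z, Φ z = E₄ z * Φ' z := by
  by_cases h6 : (6 : ℤ) ∣ k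
  · rcases lt_or_ge k 0 with hneg | hpos
    · refine ⟨0, fun z => ?_⟩
      have := congrFun (levelOne_neg_weight_eq_zero hneg Φ) z
      simpa using this
    · obtain ⟨m, hm⟩ := h6
      have hm0 : 0 ≤ m := by omega
      lift m to ℕ using hm0
      refine l1_div E₄_ne_zero' k z0 h0 (Or.inr ⟨⟨l1mono 0 m k (by rw [hm]; ring), ?_⟩, ?_⟩) Φ hΦ
      · rw [l1mono_apply]
        simpa using pow_ne_zero m (l1_E₆_ne_of_E₄_eq h0)
      · unfold l1dim
        have hodd : ¬ Odd k := by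
          rw [hm, Int.not_odd_iff_even]; exact ⟨3 * m, by ring⟩
        have hodd' : ¬ Odd (k - 4) := by
          rw [hm, Int.not_odd_iff_even]; exact ⟨3 * m - 2, by ring⟩
        simp only [hodd, hodd', or_false]
        split_ifs <;> omega
  · exact exists_E₄_mul k h6 Φ

/-- (L3), case `E₆ z0 = 0`. -/
theorem l1_div_E₆ {z0 : ℍ} (h0 : E₆ z0 = 0) (k : ℤ) (Φ : ModularForm 𝒮ℒ k) (hΦ : Φ z0 = 0) :
    ∃ Φ' : ModularForm 𝒮ℒ (k - 6), ∀ z, Φ z = E₆ z * Φ' z := by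
  by_cases h4 : (4 : ℤ) ∣ k
  · rcases lt_or_ge k 0 with hneg | hpos
    · refine ⟨0, fun z => ?_⟩
      have := congrFun (levelOne_neg_weight_eq_zero hneg Φ) z
      simpa using this
    · obtain ⟨m, hm⟩ := h4
      have hm0 : 0 ≤ m := by omega
      lift m to ℕ using hm0
      refine l1_div E₆_ne_zero' k z0 h0 (Or.inr ⟨⟨l1mono m 0 k (by rw [hm]; ring), ?_⟩, ?_⟩) Φ hΦ
      · rw [l1mono_apply]
        simpa using pow_ne_zero m (l1_E₄_ne_of_E₆_eq h0)
      · unfold l1dim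
        have hodd : ¬ Odd k := by
          rw [hm, Int.not_odd_iff_even]; exact ⟨2 * m, by ring⟩
        have hodd' : ¬ Odd (k - 6) := by
          rw [hm, Int.not_odd_iff_even]; exact ⟨2 * m - 3, by ring⟩
        simp only [hodd, hodd', or_false]
        split_ifs <;> omega
  · exact exists_E₆_mul k h4 Φ

/-- (L3), generic case. -/
theorem l1_div_pencil {z0 : ℍ} (h4 : E₄ z0 ≠ 0) (h6 : E₆ z0 ≠ 0) (k : ℤ)
    (Φ : ModularForm 𝒮ℒ k) (hΦ : Φ z0 = 0) :
    ∃ Φ' : ModularForm 𝒮ℒ (k - 12),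
      ∀ z, Φ z = l1pencil (E₆ z0 ^ 2) (E₄ z0 ^ 3) z * Φ' z := by
  have hne : l1pencil (E₆ z0 ^ 2) (E₄ z0 ^ 3) ≠ 0 := by
    refine l1_ne_zero_of_tendsto ?_ (l1pencil_tendsto _ _)
    intro h
    apply l1_E₄_E₆_ne z0
    linear_combination -h
  have hz : l1pencil (E₆ z0 ^ 2) (E₄ z0 ^ 3) z0 = 0 := by
    rw [l1pencil_apply]; ring
  by_cases hgood : 0 ≤ k ∧ Even k ∧ k ≠ 2
  · obtain ⟨hk0, hev, hk2⟩ := hgood
    obtain ⟨a, b, hab⟩ := l1_exists_mono k hk0 hev hk2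
    refine l1_div hne k z0 hz (Or.inr ⟨⟨l1mono a b k hab, ?_⟩, ?_⟩) Φ hΦ
    · rw [l1mono_apply]
      exact mul_ne_zero (pow_ne_zero _ h4) (pow_ne_zero _ h6)
    · unfold l1dim
      have hodd : ¬ Odd k := Int.not_odd_iff_even.mpr hev
      have hodd' : ¬ Odd (k - 12) := by
        rw [Int.not_odd_iff_even]
        obtain ⟨m, hm⟩ := hev
        exact ⟨m - 6, by rw [hm]; ring⟩
      simp only [hodd, hodd', or_false]
      split_ifs <;> omega
  · refine l1_div hne k z0 hz (Or.inl ?_) Φ hΦ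
    have : l1dim k = 0 := by
      unfold l1dim
      by_cases h1 : k < 0 ∨ Odd k
      · rw [if_pos h1]
      · push Not at h1
        have hev : Even k := Int.not_odd_iff_even.mp h1.2
        have hk2 : k = 2 := by
          by_contra hc
          exact hgood ⟨h1.1, hev, hc⟩
        subst hk2
        simp
    rw [this]
    exact Nat.zero_le _

end

end Fermat.Agent.S20
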