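import Mathlib

/-!
# S20, part Q: scalar lemmas on `1`-periodic holomorphic functions on the upper half plane
-/

set_option autoImplicit false

namespace Fermat.Agent.S20.Cusp

open UpperHalfPlane hiding I
open Filter Topology Function Complex Matrix
open scoped Manifold Real

local notation "𝕢" => Periodic.qParam

noncomputable section

/-! ### scalar lemmas -/

lemma periodic_of_vadd {ψ : ℍ → ℂ} (h : ∀ z : ℍ, ψ ((1 : ℝ) +ᵥ z) = ψ z) :
    Periodic (ψ ∘ ofComplex) ((1 : ℝ) : ℂ) := by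
  intro w
  by_cases! hw : 0 < im w
  · have h1 : 0 < im (w + (1 : ℝ)) := by simp [hw]
    simp only [Function.comp_apply, ofComplex_apply_of_im_pos h1, ofComplex_apply_of_im_pos hw]
    rw [← h ⟨w, hw⟩]
    congr 1
    ext
    simp [add_comm]
  · have h1 : im (w + (1 : ℝ)) ≤ 0 := by simpa using hw
    simp only [Function.comp_apply, ofComplex_apply_of_im_nonpos h1,
      ofComplex_apply_of_im_nonpos hw]

lemma mdiff_cexp (c : ℂ) : MDiff (fun z : ℍ => cexp (c * z)) := by
  rw [UpperHalfPlane.mdifferentiable_iff]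
  have : DifferentiableOn ℂ (fun z : ℂ => cexp (c * z)) {z | 0 < z.im} := by fun_prop
  refine this.congr fun z hz => ?_
  simp [ofComplex_apply_of_im_pos hz]

lemma norm_cexp_mul_coe (c : ℝ) (z : ℍ) :
    ‖cexp (2 * π * I * c * z)‖ = Real.exp (-2 * π * c * z.im) := by
  rw [Complex.norm_exp]
  congr 1
  simp

lemma tendsto_cexp_atImInfty {c : ℝ} (hc : 0 < c) :
    Tendsto (fun z : ℍ => cexp (2 * π * I * c * z)) atImInfty (𝓝 0) := by
  rw [tendsto_zero_iff_norm_tendsto_zero]
  simp only [norm_cexp_mul_coe]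
  have h1 : Tendsto (fun z : ℍ => z.im) atImInfty atTop := tendsto_comap
  have h2 : Tendsto (fun z : ℍ => -2 * π * c * z.im) atImInfty atBot := by
    refine Tendsto.const_mul_atTop_of_neg ?_ h1
    have := Real.pi_pos
    nlinarith [mul_pos Real.pi_pos hc]
  exact Real.tendsto_exp_atBot.comp h2

/-- A holomorphic `1`-periodic function `ψ` with `q ψ → 0` is bounded at `i∞`. -/
lemma bdd_of_q_mul_zero {ψ : ℍ → ℂ} (hol : MDiff ψ) (hper : ∀ z : ℍ, ψ ((1 : ℝ) +ᵥ z) = ψ z)
    (hz : IsZeroAtImInfty (fun z : ℍ => cexp (2 * π * I * (1 : ℝ) * z) * ψ z)) :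
    IsBoundedAtImInfty ψ := by
  set g : ℍ → ℂ := fun z : ℍ => cexp (2 * π * I * (1 : ℝ) * z) * ψ z with hg
  have hgper : ∀ z : ℍ, g ((1 : ℝ) +ᵥ z) = g z := by
    intro z
    simp only [hg, hper]
    congr 1
    have : (((1 : ℝ) +ᵥ z : ℍ) : ℂ) = 1 + z := by simp
    rw [this, mul_add, Complex.exp_add]
    have : cexp (2 * π * I * (1 : ℝ) * 1) = 1 := by
      simp
    rw [this, one_mul]
  have hghol : MDiff g := (mdiff_cexp _).mul hol
  have h1 := UpperHalfPlane.IsZeroAtImInfty.exp_decay_atImInfty hz one_pos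
    (periodic_of_vadd hgper) hghol hz.boundedAtFilter
  have h2 : ψ = fun z : ℍ => cexp (-(2 * π * I * (1 : ℝ) * z)) * g z := by
    ext z
    simp only [hg]
    rw [← mul_assoc, ← Complex.exp_add]
    simp
  have h3 : (fun z : ℍ => cexp (-(2 * π * I * (1 : ℝ) * z))) =O[atImInfty]
      fun z : ℍ => Real.exp (2 * π * z.im) := by
    refine Asymptotics.IsBigO.of_norm_le fun z => ?_
    rw [Complex.norm_exp]
    simp
  have h4 := h3.mul h1
  rw [IsBoundedAtImInfty, BoundedAtFilter, h2]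
  refine h4.trans (Asymptotics.IsBigO.of_norm_le fun z => ?_)
  rw [← Real.exp_add]
  simp

lemma exists_tendsto_of_q_mul_zero {ψ : ℍ → ℂ} (hol : MDiff ψ)
    (hper : ∀ z : ℍ, ψ ((1 : ℝ) +ᵥ z) = ψ z)
    (hz : IsZeroAtImInfty (fun z : ℍ => cexp (2 * π * I * (1 : ℝ) * z) * ψ z)) :
    ∃ L : ℂ, Tendsto ψ atImInfty (𝓝 L) := by
  have hb := bdd_of_q_mul_zero hol hper hz
  have h1 := UpperHalfPlane.exp_decay_sub_atImInfty one_pos (periodic_of_vadd hper) hol hb
  refine ⟨valueAtInfty ψ, ?_⟩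
  have h2 : Tendsto (fun τ : ℍ => Real.exp (-2 * π * τ.im / 1)) atImInfty (𝓝 0) := by
    have h1 : Tendsto (fun z : ℍ => z.im) atImInfty atTop := tendsto_comap
    have h2 : Tendsto (fun z : ℍ => -2 * π * z.im / 1) atImInfty atBot := by
      simp only [div_one]
      refine Tendsto.const_mul_atTop_of_neg ?_ h1
      have := Real.pi_pos
      linarith
    exact Real.tendsto_exp_atBot.comp h2
  have h3 := h1.trans_tendsto h2
  simpa using h3.add_const (valueAtInfty ψ)

end

end Fermat.Agent.S20.Cusp
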