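import Fermat.Agent.S20.LevelOne
import Fermat.Agent.S20.CuspScalar

/-!
# S20, piece Q: analysis at the cusp `i∞` of the vector valued form
-/

set_option autoImplicit false

namespace Fermat.Agent.S20

open UpperHalfPlane ModularForm Filter Topology EisensteinSeries
open scoped MatrixGroups Manifold ModularForm

variable {H : Subgroup SL(2, ℤ)} [Fintype (Cos H)] [DecidableEq (Cos H)] (d : CuspData H)
  {k a b c : ℤ} {F G r : ℍ → ℂ}

namespace Cusp

open Complex Real

lemma n_ne_zero : (d.n : ℂ) ≠ 0 := by exact_mod_cast d.n_pos.ne'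

lemma tw_periodic (hF : F ∈ MFs H k) (x : Cos H) (z : ℍ) :
    tw d k F ((1 : ℝ) +ᵥ z) x = tw d k F z x := by
  have hn := n_ne_zero d
  unfold tw
  have h1 : ∑ a, vec H k F a ((1 : ℝ) +ᵥ z) * d.C a x =
      cexp (2 * π * Complex.I * (d.m x : ℂ) / (d.n : ℂ)) * ∑ a, vec H k F a z * d.C a x := by
    rw [← Equiv.sum_comp (MulAction.toPerm ModularGroup.T), Finset.mul_sum]
    refine Finset.sum_congr rfl fun a _ => ?_
    rw [MulAction.toPerm_apply, vec_T hF, inv_smul_smul, d.eig]
    ring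
  rw [h1, ← mul_assoc, ← Complex.exp_add]
  congr 2
  have h2 : (((1 : ℝ) +ᵥ z : ℍ) : ℂ) = 1 + z := by simp
  rw [h2]
  field_simp
  ring

lemma sum_mdiff (hF : F ∈ MFs H k) (x : Cos H) :
    MDiff (fun z => ∑ a, vec H k F a z * d.C a x) := by
  have h2 : (fun z => ∑ a, vec H k F a z * d.C a x) =
      ∑ a, (fun z => vec H k F a z * d.C a x) := by
    ext z; simp
  rw [h2]
  refine MDifferentiable.sum fun b _ => ?_
  have h3 : MDiff (fun _ : ℍ => d.C b x) := mdifferentiable_const
  exact (vec_mdiff H hF.1 b).mul h3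

lemma sum_bdd (hF : F ∈ MFs H k) (x : Cos H) :
    IsBoundedAtImInfty (fun z => ∑ a, vec H k F a z * d.C a x) := by
  have h2 : (fun z => ∑ a, vec H k F a z * d.C a x) =
      ∑ a, (fun z => vec H k F a z * d.C a x) := by
    ext z; simp
  rw [h2]
  refine Asymptotics.IsBigO.sum fun b _ => ?_
  have := (vec_bdd hF b).const_mul_left (d.C b x)
  simpa [mul_comm] using this

lemma tw_mdiff (hF : F ∈ MFs H k) (x : Cos H) : MDiff (fun z => tw d k F z x) := by
  unfold tw
  refine MDifferentiable.mul ?_ (sum_mdiff d hF x)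
  have := mdiff_cexp (-(2 * π * Complex.I * (d.m x : ℂ) / (d.n : ℂ)))
  have h2 : (fun z : ℍ => cexp (-(2 * π * Complex.I * (d.m x : ℂ) * (z : ℂ) / (d.n : ℂ)))) =
      fun z : ℍ => cexp (-(2 * π * Complex.I * (d.m x : ℂ) / (d.n : ℂ)) * z) := by
    ext z
    congr 1
    ring
  rw [h2]
  exact this

lemma tw_q_zero (hF : F ∈ MFs H k) (x : Cos H) :
    IsZeroAtImInfty (fun z : ℍ => cexp (2 * π * Complex.I * (1 : ℝ) * z) * tw d k F z x) := by
  have hn' := n_ne_zero d
  have hn'' : (0 : ℝ) < d.n := by exact_mod_cast d.n_pos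
  unfold tw
  have hc : (0 : ℝ) < ((d.n : ℝ) - d.m x) / d.n := by
    apply div_pos _ hn''
    have : (d.m x : ℝ) < d.n := by exact_mod_cast d.m_lt x
    linarith
  have h1 := tendsto_cexp_atImInfty hc
  have h2 : (fun z : ℍ => cexp (2 * π * Complex.I * (1 : ℝ) * z) *
      (cexp (-(2 * π * Complex.I * (d.m x : ℂ) * (z : ℂ) / (d.n : ℂ))) *
        ∑ a, vec H k F a z * d.C a x)) =
      fun z : ℍ => cexp (2 * π * Complex.I * (((d.n : ℝ) - d.m x) / d.n : ℝ) * z) *
        ∑ a, vec H k F a z * d.C a x := by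
    ext z
    rw [← mul_assoc, ← Complex.exp_add]
    congr 2
    push_cast
    field_simp
    ring
  rw [h2]
  have h3 := (Asymptotics.isBigO_refl
    (fun z : ℍ => cexp (2 * π * Complex.I * (((d.n : ℝ) - d.m x) / d.n : ℝ) * z))
    atImInfty).norm_right.mul
      (show _ =O[atImInfty] (1 : ℍ → ℝ) from sum_bdd d hF x)
  refine h3.trans_tendsto ?_
  simpa using h1.norm

lemma tw_bdd (hF : F ∈ MFs H k) (x : Cos H) : IsBoundedAtImInfty (fun z => tw d k F z x) :=
  bdd_of_q_mul_zero (tw_mdiff d hF x) (tw_periodic d hF x) (tw_q_zero d hF x)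

end Cusp

open Cusp

/-- (Q1a) each component of `tw d k F` is `1`-periodic, holomorphic and `o(1/q)`, hence has a
limit at `i∞`. -/
theorem tw_tendsto (hF : F ∈ MFs H k) : Tendsto (tw d k F) atImInfty (𝓝 (Lam d k F)) := by
  have : ∀ x, ∃ L : ℂ, Tendsto (fun z => tw d k F z x) atImInfty (𝓝 L) := fun x =>
    exists_tendsto_of_q_mul_zero (tw_mdiff d hF x) (tw_periodic d hF x) (tw_q_zero d hF x)
  choose L hL using this
  have h1 : Tendsto (tw d k F) atImInfty (𝓝 L) := tendsto_pi_nhds.mpr hL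
  rw [Lam, h1.limUnder_eq]
  exact h1

lemma Lam_eq_of_tendsto {L : Cos H → ℂ} (h : Tendsto (tw d k F) atImInfty (𝓝 L)) :
    Lam d k F = L := h.limUnder_eq

/-! ### linearity -/

lemma tw_add (F G : ℍ → ℂ) (z : ℍ) : tw d k (F + G) z = tw d k F z + tw d k G z := by
  ext x
  simp only [tw, vec_add, Pi.add_apply, add_mul, Finset.sum_add_distrib, mul_add]

lemma tw_zero (z : ℍ) : tw d k 0 z = 0 := by
  ext x
  simp [tw, vec_zero]

lemma tw_smul (t : ℂ) (F : ℍ → ℂ) (z : ℍ) : tw d k (t • F) z = t • tw d k F z := by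
  ext x
  simp only [tw, vec_smul, Pi.smul_apply, smul_eq_mul, Finset.mul_sum]
  refine Finset.sum_congr rfl fun a _ => ?_
  ring

lemma tw_sum {ι : Type*} (s : Finset ι) (f : ι → ℍ → ℂ) (z : ℍ) :
    tw d k (∑ i ∈ s, f i) z = ∑ i ∈ s, tw d k (f i) z := by
  classical
  induction s using Finset.induction_on with
  | empty => simp [tw_zero]
  | insert i s hi ih => rw [Finset.sum_insert hi, Finset.sum_insert hi, tw_add, ih]

lemma tw_top_mul (hr : r ∈ MFs ⊤ a) (F : ℍ → ℂ) (hc : a + b = c) (z : ℍ) :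
    tw d c (r * F) z = r z • tw d b F z := by
  ext x
  simp only [tw, vec_top_mul hr F hc, Pi.mul_apply, Pi.smul_apply, smul_eq_mul, Finset.mul_sum]
  refine Finset.sum_congr rfl fun a _ => ?_
  ring

theorem Lam_add (hF : F ∈ MFs H k) (hG : G ∈ MFs H k) :
    Lam d k (F + G) = Lam d k F + Lam d k G := by
  refine Lam_eq_of_tendsto d ?_
  refine ((tw_tendsto d hF).add (tw_tendsto d hG)).congr fun z => ?_
  rw [tw_add]

theorem Lam_smul (t : ℂ) (hF : F ∈ MFs H k) : Lam d k (t • F) = t • Lam d k F := by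
  refine Lam_eq_of_tendsto d ?_
  refine ((tw_tendsto d hF).const_smul t).congr fun z => ?_
  rw [tw_smul]

theorem Lam_sum {ι : Type*} (s : Finset ι) (f : ι → ℍ → ℂ) (hf : ∀ i ∈ s, f i ∈ MFs H k) :
    Lam d k (∑ i ∈ s, f i) = ∑ i ∈ s, Lam d k (f i) := by
  refine Lam_eq_of_tendsto d ?_
  refine (tendsto_finsetSum s fun i hi => tw_tendsto d (hf i hi)).congr fun z => ?_
  rw [tw_sum]

theorem Lam_top_mul {l : ℂ} (hr : r ∈ MFs ⊤ a) (hl : Tendsto r atImInfty (𝓝 l))
    (hF : F ∈ MFs H b) (hc : a + b = c) : Lam d c (r * F) = l • Lam d b F := by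
  refine Lam_eq_of_tendsto d ?_
  refine (hl.smul (tw_tendsto d hF)).congr fun z => ?_
  rw [tw_top_mul d hr F hc]

/-! ### divisibility by `Δ` -/

section
open Complex Real Matrix

/-- Inversion formula: the components of the vector valued form in terms of the twisted vector. -/
lemma vec_eq_sum_tw (x₀ : Cos H) (z : ℍ) :
    vec H k F x₀ z = ∑ x, cexp (2 * π * Complex.I * (d.m x : ℂ) * (z : ℂ) / (d.n : ℂ)) *
      tw d k F z x * d.C⁻¹ x x₀ := by
  have h1 : ((fun b => vec H k F b z) ᵥ* d.C) ᵥ* d.C⁻¹ = fun b => vec H k F b z := by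
    rw [Matrix.vecMul_vecMul, Matrix.mul_nonsing_inv _ (isUnit_iff_ne_zero.mpr d.det_ne),
      Matrix.vecMul_one]
  have h2 := congrFun h1 x₀
  rw [← h2]
  simp only [Matrix.vecMul, dotProduct]
  refine Finset.sum_congr rfl fun x _ => ?_
  congr 1
  unfold tw
  rw [← mul_assoc, ← Complex.exp_add]
  simp

lemma Cusp.norm_cexp_le_one (r n : ℕ) (z : ℍ) :
    ‖cexp (2 * π * Complex.I * r * z / n)‖ ≤ 1 := by
  have : 2 * π * Complex.I * r * z / n = 2 * π * Complex.I * ((r : ℝ) / n : ℝ) * z := by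
    push_cast; ring
  rw [this, norm_cexp_mul_coe, Real.exp_le_one_iff]
  have h1 : 0 ≤ (r : ℝ) / n := by positivity
  have h2 := z.im_pos
  have h3 := Real.pi_pos
  have : 0 ≤ 2 * π * ((r : ℝ) / n) * z.im := by positivity
  linarith

/-- If the vector of leading coefficients vanishes, all components are `O(q)`. -/
theorem vec_isBigO_of_Lam_eq_zero (hF : F ∈ MFs H k) (h : Lam d k F = 0) (x₀ : Cos H) :
    vec H k F x₀ =O[atImInfty] fun z : ℍ => Real.exp (-2 * π * z.im) := by
  have h1 : vec H k F x₀ = ∑ x, fun z : ℍ =>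
      cexp (2 * π * Complex.I * (d.m x : ℂ) * (z : ℂ) / (d.n : ℂ)) * tw d k F z x *
        d.C⁻¹ x x₀ := by
    ext z
    rw [Finset.sum_apply]
    exact vec_eq_sum_tw d x₀ z
  rw [h1]
  refine Asymptotics.IsBigO.sum fun x _ => ?_
  have h2 : IsZeroAtImInfty (fun z => tw d k F z x) := by
    have := tendsto_pi_nhds.mp (tw_tendsto d hF) x
    rw [h] at this
    exact this
  have h3 := UpperHalfPlane.IsZeroAtImInfty.exp_decay_atImInfty h2 one_pos
    (periodic_of_vadd (tw_periodic d hF x)) (tw_mdiff d hF x) (tw_bdd d hF x)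
  have h4 : (fun z : ℍ => cexp (2 * π * Complex.I * (d.m x : ℂ) * (z : ℂ) / (d.n : ℂ)))
      =O[atImInfty] (1 : ℍ → ℝ) :=
    Asymptotics.IsBigO.of_norm_le fun z => by simpa using Cusp.norm_cexp_le_one (d.m x) d.n z
  have h5 := (h4.mul h3).const_mul_left (d.C⁻¹ x x₀)
  simpa [mul_comm, mul_assoc, mul_left_comm] using h5

end

/-- (Q1b) if the value at `i∞` of the twisted vector vanishes then all components of `F` are
`O(q)`, so `F` is divisible by `Δ`. -/
theorem exists_div_Delta (hF : F ∈ MFs H k) (h0 : Lam d k F = 0) :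
    ∃ h ∈ MFs H (k - 12), F = discriminant * h := by
  have hΔ : ∀ g : SL(2, ℤ), (discriminant ∣[(12 : ℤ)] g) = discriminant :=
    fun g => slash_of_mem_top Delta_mem_MFs g
  refine ⟨F / discriminant, ⟨?_, ?_, ?_⟩, ?_⟩
  · exact hF.1.div CuspForm.discriminant.holo' discriminant_ne_zero
  · intro γ hγ
    rw [div_slash_SL2, hF.2.1 γ hγ, hΔ]
  · intro g
    have h1 : F ∣[k] g = vec H k F ((g⁻¹ : SL(2, ℤ)) : Cos H) := by
      rw [vec_eq_slash hF, inv_inv]
    rw [div_slash_SL2, hΔ, h1, IsBoundedAtImInfty, BoundedAtFilter]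
    exact (Asymptotics.div_isBoundedUnder_of_isBigO
      ((vec_isBigO_of_Lam_eq_zero d hF h0 _).trans exp_isBigO_discriminant)).isBigO_one ℝ
  · ext z
    simp only [Pi.mul_apply, Pi.div_apply]
    rw [mul_div_cancel₀ _ (discriminant_ne_zero z)]

/-- (Q2) the cusp vectors of a homogeneous basis are linearly independent. -/
theorem Lam_indep (hneg : -1 ∈ H) {ι : Type} {w : ι → ℤ} {B : ι → ℍ → ℂ} (hfam : IsFam H w B) :
    LinearIndependent ℂ (fun i => Lam d (w i) (B i)) := by
  classical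
  rw [linearIndependent_iff']
  intro s g hg i hi
  -- the basis elements are nonzero, hence of even weight
  have hB0 : ∀ j, B j ≠ 0 := by
    intro j h0
    have h1 := hfam.indep (w j) {j} (fun _ => 1)
      (by
        intro i hi
        rw [Finset.mem_singleton] at hi
        subst hi
        simpa using (one_mem_MFs : (1 : ℍ → ℂ) ∈ MFs ⊤ 0))
      (by simp [h0]) j (by simp)
    exact one_ne_zero h1
  have hev : ∀ j, Even (w j) := by
    intro j
    by_contra hodd
    rw [Int.not_even_iff_odd] at hodd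
    have h1 := hfam.mem j
    rw [MFs_odd hneg hodd] at h1
    exact hB0 j (by simpa using h1)
  -- a large even weight
  set K : ℤ := 4 + 2 * ∑ j ∈ s, |w j| with hKdef
  have hK : ∀ j ∈ s, 4 ≤ K - w j := by
    intro j hj
    have h1 : |w j| ≤ ∑ j ∈ s, |w j| :=
      Finset.single_le_sum (f := fun j => |w j|) (fun j _ => abs_nonneg _) hj
    have h2 := le_abs_self (w j)
    have h3 := abs_nonneg (w j)
    omega
  have hKe : ∀ j, Even (K - w j) := by
    intro j
    refine Even.sub ?_ (hev j)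
    exact Even.add (by decide) (even_two_mul _)
  have hex : ∀ j, ∃ P : ℍ → ℂ, j ∈ s → P ∈ MFs ⊤ (K - w j) ∧ Tendsto P atImInfty (𝓝 1) := by
    intro j
    by_cases hj : j ∈ s
    · obtain ⟨P, hP1, hP2⟩ := exists_P (hK j hj) (hKe j)
      exact ⟨P, fun _ => ⟨hP1, hP2⟩⟩
    · exact ⟨0, fun h => absurd h hj⟩
  choose P hP using hex
  have hPB : ∀ j ∈ s, P j * B j ∈ MFs H K := fun j hj =>
    mul_mem_MFs' (hP j hj).1 (hfam.mem j) (sub_add_cancel _ _)
  have hmem : ∀ j ∈ s, g j • (P j * B j) ∈ MFs H K := fun j hj =>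
    Submodule.smul_mem _ _ (hPB j hj)
  have hf : ∑ j ∈ s, g j • (P j * B j) ∈ MFs H K := Submodule.sum_mem _ hmem
  have hLam : Lam d K (∑ j ∈ s, g j • (P j * B j)) = 0 := by
    rw [Lam_sum d s _ hmem, ← hg]
    refine Finset.sum_congr rfl fun j hj => ?_
    rw [Lam_smul d _ (hPB j hj),
      Lam_top_mul d (hP j hj).1 (hP j hj).2 (hfam.mem j) (sub_add_cancel _ _), one_smul]
  obtain ⟨h, hh, hfh⟩ := exists_div_Delta d hf hLam
  obtain ⟨s', r, hr, hhr⟩ := hfam.gen (K - 12) h hh
  set A : ι → ℍ → ℂ := fun j => (if j ∈ s then g j • P j else 0) -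
    (if j ∈ s' then discriminant * r j else 0) with hA
  have hAmem : ∀ j ∈ s ∪ s', A j ∈ MFs ⊤ (K - w j) := by
    intro j _
    refine Submodule.sub_mem _ ?_ ?_
    · split_ifs with hj
      · exact Submodule.smul_mem _ _ (hP j hj).1
      · exact Submodule.zero_mem _
    · split_ifs with hj
      · exact mul_mem_MFs' Delta_mem_MFs (hr j) (by ring)
      · exact Submodule.zero_mem _
  have hrel : ∑ j ∈ s ∪ s', A j * B j = 0 := by
    simp only [hA, sub_mul, Finset.sum_sub_distrib]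
    have h1 : ∑ j ∈ s ∪ s', (if j ∈ s then g j • P j else 0) * B j =
        ∑ j ∈ s, g j • (P j * B j) := by
      symm
      refine Finset.sum_subset_zero_on_sdiff Finset.subset_union_left ?_ ?_
      · intro j hj
        rw [Finset.mem_sdiff] at hj
        simp [hj.2]
      · intro j hj
        simp [hj]
    have h2 : ∑ j ∈ s ∪ s', (if j ∈ s' then discriminant * r j else 0) * B j =
        discriminant * ∑ j ∈ s', r j * B j := by
      rw [Finset.mul_sum]
      symm
      refine Finset.sum_subset_zero_on_sdiff Finset.subset_union_right ?_ ?_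
      · intro j hj
        rw [Finset.mem_sdiff] at hj
        simp [hj.2]
      · intro j hj
        simp [hj, mul_assoc]
    rw [h1, h2, hfh, hhr, sub_self]
  have hAi := hfam.indep K (s ∪ s') A hAmem hrel i (Finset.mem_union_left _ hi)
  -- compare the values at `i∞`
  have hl1 : Tendsto (A i) atImInfty (𝓝 (g i • 1 - 0)) := by
    simp only [hA, if_pos hi]
    refine Tendsto.sub ((hP i hi).2.const_smul (g i)) ?_
    split_ifs with hj
    · obtain ⟨l, hl⟩ := MFs_top_tendsto (hr i)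
      have h3 := (discriminant_isZeroAtImInfty : Tendsto _ _ _).mul hl
      rw [zero_mul] at h3
      exact h3
    · exact tendsto_const_nhds
  rw [hAi] at hl1
  have := tendsto_nhds_unique hl1 (tendsto_const_nhds (x := (0 : ℂ)))
  simpa using this

end Fermat.Agent.S20
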