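import Fermat.Agent.S20.FreeFam

/-!
# S20, piece (B), variant: the homogeneous basis can be chosen inside given spanning sets
(requested for S24: a basis consisting of forms with rational `q`-expansions).
-/

set_option autoImplicit false

namespace Fermat.Agent.S20

open Submodule

universe u v

section abstract

variable {K : Type u} {A : Type v} [Field K] [CommRing A] [Algebra K A]
variable (M : ℤ → Submodule K A) (x y : A)

/-- Minimal homogeneous generators can be chosen inside given spanning sets. -/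
theorem exists_isMinGen_of_span (Sp : ℤ → Set A) (h1 : ∀ w, Sp w ⊆ M w)
    (h2 : ∀ w, M w ≤ Submodule.span K (Sp w)) :
    ∃ (ι : Type v) (k : ι → ℤ) (F : ι → A), IsMinGen M x y k F ∧ ∀ i, F i ∈ Sp (k i) := by
  classical
  have hex : ∀ w : ℤ, ∃ b ⊆ (decomp M x y w).mkQ '' (Sp w),
      Submodule.span K b = Submodule.span K ((decomp M x y w).mkQ '' (Sp w)) ∧
      LinearIndependent K ((↑) : b → A ⧸ decomp M x y w) := fun w =>
    exists_linearIndependent K _
  choose b hb hspan hli using hex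
  have hlift : ∀ w (c : b w), ∃ f ∈ Sp w, (decomp M x y w).mkQ f = (c : A ⧸ decomp M x y w) := by
    intro w c
    obtain ⟨f, hf, hfc⟩ := hb w c.2
    exact ⟨f, hf, hfc⟩
  choose L hL hLB using hlift
  refine ⟨Σ w, b w, fun i => i.1, fun i => L i.1 i.2,
    ⟨fun i => h1 _ (hL i.1 i.2), ?_, ?_⟩, fun i => hL i.1 i.2⟩
  · intro w f hf
    have h3 : (decomp M x y w).mkQ f ∈ Submodule.span K (b w) := by
      rw [hspan w, ← Submodule.map_span]
      exact Submodule.mem_map_of_mem (h2 w hf)
    have h4 : (decomp M x y w).mkQ f ∈ Submodule.span K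
        ((decomp M x y w).mkQ '' ((fun i : Σ w, b w => L i.1 i.2) '' {i | i.1 = w})) := by
      refine Submodule.span_mono ?_ h3
      intro c hc
      exact ⟨L w ⟨c, hc⟩, ⟨⟨w, ⟨c, hc⟩⟩, rfl, rfl⟩, hLB w ⟨c, hc⟩⟩
    rw [← Submodule.map_span] at h4
    obtain ⟨g, hg, hgf⟩ := h4
    have h5 : f - g ∈ decomp M x y w := by
      rw [← Submodule.Quotient.mk_eq_zero, Submodule.Quotient.mk_sub, sub_eq_zero]
      exact hgf.symm
    have : f = g + (f - g) := by ring
    rw [this]
    exact Submodule.add_mem_sup hg h5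
  · intro w
    let e : b w ≃ {i : Σ w, b w // i.1 = w} :=
      { toFun := fun c => ⟨⟨w, c⟩, rfl⟩
        invFun := fun i => i.2 ▸ i.1.2
        left_inv := fun c => rfl
        right_inv := by
          rintro ⟨⟨w', c⟩, h⟩
          dsimp at h
          subst h
          rfl }
    rw [← linearIndependent_equiv e]
    convert hli w using 1
    funext c
    exact hLB w c

end abstract

open UpperHalfPlane ModularForm EisensteinSeries
open scoped MatrixGroups

/-- **(B), variant**: a homogeneous basis of `⨁ₖ MFs H k` over `⨁ₖ MFs ⊤ k` whose members lie in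
prescribed spanning sets `Sp k` of `MFs H k`. -/
theorem exists_isFam_of_span (H : Subgroup SL(2, ℤ)) [H.FiniteIndex] (Sp : ℤ → Set (ℍ → ℂ))
    (h1 : ∀ k, Sp k ⊆ MFs H k) (h2 : ∀ k, MFs H k ≤ Submodule.span ℂ (Sp k)) :
    ∃ (ι : Type) (w : ι → ℤ) (B : ι → ℍ → ℂ), IsFam H w B ∧ (∀ i, 0 ≤ w i) ∧
      (∀ i, B i ∈ Sp (w i)) ∧ IsMinGen (MFs H) (⇑E₄) (⇑E₆) w B := by
  obtain ⟨ι, k, F, G, hS⟩ := exists_isMinGen_of_span (K := ℂ) (MFs H) (⇑E₄) (⇑E₆) Sp h1 h2
  exact ⟨ι, k, F, ⟨G.mem, G.exists_expansion (regData_MFs H),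
    G.eq_zero_of_sum_eq_zero (regData_MFs H)⟩, G.k_nonneg (regData_MFs H), hS, G⟩

end Fermat.Agent.S20
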