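import Fermat.Agent.S20.DetODE

/-!
# S20: basic API for `MFs`, `CFs`, `vec`
-/

set_option autoImplicit false

namespace Fermat.Agent.S20

open UpperHalfPlane ModularForm Filter Topology
open scoped MatrixGroups Manifold ModularForm

variable {H : Subgroup SL(2, ℤ)} {k a b c : ℤ} {F G r h : ℍ → ℂ}

/-! ### Monotonicity, products -/

lemma CFs_le_MFs : CFs H k ≤ MFs H k := fun _ hF =>
  ⟨hF.1, hF.2.1, fun g => (hF.2.2 g).boundedAtFilter⟩

lemma MFs_mono {H' : Subgroup SL(2, ℤ)} (hH : H ≤ H') : MFs H' k ≤ MFs H k := fun _ hF =>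
  ⟨hF.1, fun γ hγ => hF.2.1 γ (hH hγ), hF.2.2⟩

lemma CFs_mono {H' : Subgroup SL(2, ℤ)} (hH : H ≤ H') : CFs H' k ≤ CFs H k := fun _ hF =>
  ⟨hF.1, fun γ hγ => hF.2.1 γ (hH hγ), hF.2.2⟩

lemma MFs_top_le : MFs ⊤ k ≤ MFs H k := MFs_mono le_top

lemma CFs_top_le : CFs ⊤ k ≤ CFs H k := CFs_mono le_top

lemma mul_mem_MFs (hF : F ∈ MFs H a) (hG : G ∈ MFs H b) : F * G ∈ MFs H (a + b) := by
  refine ⟨hF.1.mul hG.1, fun γ hγ => ?_, fun g => ?_⟩
  · rw [ModularForm.mul_slash_SL2, hF.2.1 γ hγ, hG.2.1 γ hγ]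
  · rw [ModularForm.mul_slash_SL2]; exact (hF.2.2 g).mul (hG.2.2 g)

lemma mul_mem_MFs' (hF : F ∈ MFs ⊤ a) (hG : G ∈ MFs H b) (hc : a + b = c) : F * G ∈ MFs H c :=
  hc ▸ mul_mem_MFs (MFs_top_le hF) hG

lemma mul_mem_CFs (hF : F ∈ MFs H a) (hG : G ∈ CFs H b) : F * G ∈ CFs H (a + b) := by
  refine ⟨hF.1.mul hG.1, fun γ hγ => ?_, fun g => ?_⟩
  · rw [ModularForm.mul_slash_SL2, hF.2.1 γ hγ, hG.2.1 γ hγ]
  · rw [ModularForm.mul_slash_SL2, mul_comm]
    exact (hG.2.2 g).mul_boundedAtFilter (hF.2.2 g)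

lemma mul_mem_CFs' (hF : F ∈ MFs ⊤ a) (hG : G ∈ CFs H b) (hc : a + b = c) : F * G ∈ CFs H c :=
  hc ▸ mul_mem_CFs (MFs_top_le hF) hG

lemma const_mem_MFs (x : ℂ) : (fun _ => x : ℍ → ℂ) ∈ MFs H 0 := by
  refine ⟨mdifferentiable_const, fun γ _ => ModularForm.is_invariant_const γ x, fun g => ?_⟩
  have h : (fun _ => x : ℍ → ℂ) ∣[(0 : ℤ)] g = Function.const ℍ x :=
    ModularForm.is_invariant_const g x
  rw [h]
  exact Filter.const_boundedAtFilter _ x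

lemma one_mem_MFs : (1 : ℍ → ℂ) ∈ MFs H 0 := const_mem_MFs 1

lemma pow_mem_MFs (hF : F ∈ MFs H a) (n : ℕ) : F ^ n ∈ MFs H (n * a) := by
  induction n with
  | zero => simpa using one_mem_MFs
  | succ n ih =>
    have := mul_mem_MFs ih hF
    rw [pow_succ]
    convert this using 2
    push_cast; ring

lemma sum_mem_MFs {ι : Type*} (s : Finset ι) (f : ι → ℍ → ℂ) (hf : ∀ i ∈ s, f i ∈ MFs H k) :
    ∑ i ∈ s, f i ∈ MFs H k := Submodule.sum_mem _ hf

/-! ### `vec` -/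

lemma slash_of_mem_top (hF : F ∈ MFs ⊤ k) (g : SL(2, ℤ)) : F ∣[k] g = F :=
  hF.2.1 g (Subgroup.mem_top g)

lemma vec_eq_slash_of_inv (hinv : ∀ γ ∈ H, F ∣[k] γ = F) (g : SL(2, ℤ)) :
    vec H k F (g : Cos H) = F ∣[k] g⁻¹ := by
  obtain ⟨h, hh⟩ := QuotientGroup.mk_out_eq_mul H g
  unfold vec
  rw [hh, mul_inv_rev, SlashAction.slash_mul, hinv _ (H.inv_mem h.2)]

lemma vec_eq_slash (hF : F ∈ MFs H k) (g : SL(2, ℤ)) :
    vec H k F (g : Cos H) = F ∣[k] g⁻¹ := vec_eq_slash_of_inv hF.2.1 g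

lemma vec_slash (hF : F ∈ MFs H k) (x : Cos H) (g : SL(2, ℤ)) :
    vec H k F x ∣[k] g = vec H k F (g⁻¹ • x) := by
  have hx : g⁻¹ • x = ((g⁻¹ * x.out : SL(2, ℤ)) : Cos H) := by
    conv_lhs => rw [← QuotientGroup.out_eq' x]
    rfl
  rw [hx, vec_eq_slash hF, mul_inv_rev, inv_inv, SlashAction.slash_mul]
  rfl

lemma vec_smul_apply (hF : F ∈ MFs H k) (x : Cos H) (g : SL(2, ℤ)) (z : ℍ) :
    vec H k F x (g • z) = denom g z ^ k * vec H k F (g⁻¹ • x) z := by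
  rw [← vec_slash hF, ModularForm.SL_slash_apply, mul_comm, mul_assoc, ← zpow_add₀ (denom_ne_zero _ _)]
  simp

lemma vec_one (hF : F ∈ MFs H k) : vec H k F ((1 : SL(2, ℤ)) : Cos H) = F := by
  rw [vec_eq_slash hF, inv_one, SlashAction.slash_one]

lemma vec_T (hF : F ∈ MFs H k) (x : Cos H) (z : ℍ) :
    vec H k F x ((1 : ℝ) +ᵥ z) = vec H k F (ModularGroup.T⁻¹ • x) z := by
  rw [← modular_T_smul, vec_smul_apply hF]
  have : denom ModularGroup.T z = 1 := by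
    rw [ModularGroup.denom_apply]
    simp [ModularGroup.T]
  rw [this, one_zpow, one_mul]

@[simp] lemma vec_zero (x : Cos H) : vec H k 0 x = 0 := SlashAction.zero_slash _ _

lemma vec_add (F G : ℍ → ℂ) (x : Cos H) : vec H k (F + G) x = vec H k F x + vec H k G x :=
  SlashAction.add_slash _ _ _ _

lemma vec_smul (t : ℂ) (F : ℍ → ℂ) (x : Cos H) : vec H k (t • F) x = t • vec H k F x :=
  ModularForm.SL_smul_slash _ _ _ _

lemma vec_mul (F G : ℍ → ℂ) (x : Cos H) :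
    vec H (a + b) (F * G) x = vec H a F x * vec H b G x :=
  ModularForm.mul_slash_SL2 _ _ _ _ _

lemma vec_top (hF : F ∈ MFs ⊤ k) (x : Cos H) : vec H k F x = F := slash_of_mem_top hF _

lemma vec_top_mul (hr : r ∈ MFs ⊤ a) (F : ℍ → ℂ) (hc : a + b = c) (x : Cos H) :
    vec H c (r * F) x = r * vec H b F x := by
  subst hc; rw [vec_mul, vec_top hr]

lemma vec_pow (F : ℍ → ℂ) (n : ℕ) (x : Cos H) : vec H (n * a) (F ^ n) x = (vec H a F x) ^ n := by
  ext z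
  simp only [vec, SL_slash_apply, Pi.pow_apply, mul_pow]
  congr 1
  rw [← zpow_natCast, ← _root_.zpow_mul]
  congr 1
  ring

lemma vec_bdd (hF : F ∈ MFs H k) (x : Cos H) : IsBoundedAtImInfty (vec H k F x) := hF.2.2 _

lemma vec_zeroAt (hF : F ∈ CFs H k) (x : Cos H) : IsZeroAtImInfty (vec H k F x) := hF.2.2 _

/-- If all components vanish identically... in fact one suffices: `F` is a slash of it. -/
lemma eq_zero_of_vec_eq_zero (x : Cos H) (h0 : vec H k F x = 0) : F = 0 := by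
  have h1 : (F ∣[k] (x.out)⁻¹) ∣[k] x.out = F := by
    rw [← SlashAction.slash_mul, inv_mul_cancel, SlashAction.slash_one]
  rw [← h1]
  unfold vec at h0
  rw [h0, SlashAction.zero_slash]

/-- Membership from invariance + behaviour of the components. -/
lemma mem_MFs_of_vec (hF : MDiff F) (hinv : ∀ γ ∈ H, F ∣[k] γ = F)
    (hb : ∀ x : Cos H, IsBoundedAtImInfty (vec H k F x)) : F ∈ MFs H k := by
  refine ⟨hF, hinv, fun g => ?_⟩
  have := hb ((g⁻¹ : SL(2, ℤ)) : Cos H)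
  rwa [vec_eq_slash_of_inv hinv, inv_inv] at this

lemma mem_CFs_of_vec (hF : MDiff F) (hinv : ∀ γ ∈ H, F ∣[k] γ = F)
    (hb : ∀ x : Cos H, IsZeroAtImInfty (vec H k F x)) : F ∈ CFs H k := by
  refine ⟨hF, hinv, fun g => ?_⟩
  have := hb ((g⁻¹ : SL(2, ℤ)) : Cos H)
  rwa [vec_eq_slash_of_inv hinv, inv_inv] at this

/-! ### Identity theorem, division -/

lemma eq_zero_or_eq_zero_of_mul_eq_zero (hF : MDiff F) (hG : MDiff G) (h0 : F * G = 0) :
    F = 0 ∨ G = 0 := (UpperHalfPlane.mul_eq_zero_iff hF hG).mp h0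

/-- Division by a level one form: only holomorphy and boundedness have to be checked. -/
lemma div_mem_MFs (hr : r ∈ MFs ⊤ a) (hr0 : r ≠ 0) (hF : F ∈ MFs H k) (hh : MDiff h)
    (hFr : F = r * h) (hb : ∀ g : SL(2, ℤ), IsBoundedAtImInfty (h ∣[k - a] g)) :
    h ∈ MFs H (k - a) := by
  refine ⟨hh, fun γ hγ => ?_, hb⟩
  have h1 : r * (h ∣[k - a] γ) = r * h := by
    calc r * (h ∣[k - a] γ) = (r ∣[a] γ) * (h ∣[k - a] γ) := by rw [slash_of_mem_top hr]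
      _ = (r * h) ∣[a + (k - a)] γ := (ModularForm.mul_slash_SL2 a (k - a) γ _ _).symm
      _ = F ∣[k] γ := by rw [← hFr]; congr 1; ring
      _ = r * h := by rw [hF.2.1 γ hγ, hFr]
  have h2 : r * (h ∣[k - a] γ - h) = 0 := by rw [mul_sub, h1, sub_self]
  rcases eq_zero_or_eq_zero_of_mul_eq_zero hr.1 ((hh.slash _ _).sub hh) h2 with h3 | h3
  · exact absurd h3 hr0
  · exact sub_eq_zero.mp h3

/-! ### Bridge to Mathlib's bundled forms -/

lemma coe_mem_CFs_top (f : CuspForm 𝒮ℒ k) : ⇑f ∈ CFs ⊤ k :=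
  ⟨f.holo', fun γ _ => f.slash_action_eq' _ ⟨γ, rfl⟩,
    fun g => CuspFormClass.zero_at_infty_slash f g⟩

lemma exists_of_mem_CFs_top (hF : F ∈ CFs ⊤ k) : ∃ f : CuspForm 𝒮ℒ k, ⇑f = F := by
  refine ⟨{ toFun := F, slash_action_eq' := ?_, holo' := hF.1, zero_at_cusps' := ?_ }, rfl⟩
  · rintro _ ⟨γ, rfl⟩
    exact hF.2.1 γ (Subgroup.mem_top γ)
  · intro c hc
    rw [OnePoint.isZeroAt_iff_forall_SL2Z hc]
    exact fun γ _ => hF.2.2 γ

lemma coe_mem_CFs [H.FiniteIndex]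
    (f : CuspForm (H.map (Matrix.SpecialLinearGroup.mapGL ℝ)) k) : ⇑f ∈ CFs H k :=
  ⟨f.holo', fun γ hγ => f.slash_action_eq' _ ⟨γ, hγ, rfl⟩,
    fun g => CuspFormClass.zero_at_infty_slash f g⟩

lemma exists_of_mem_CFs [H.FiniteIndex] (hF : F ∈ CFs H k) :
    ∃ f : CuspForm (H.map (Matrix.SpecialLinearGroup.mapGL ℝ)) k, ⇑f = F := by
  refine ⟨{ toFun := F, slash_action_eq' := ?_, holo' := hF.1, zero_at_cusps' := ?_ }, rfl⟩
  · rintro _ ⟨γ, hγ, rfl⟩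
    exact hF.2.1 γ hγ
  · intro c hc
    rw [Subgroup.IsArithmetic.isCusp_iff_isCusp_SL2Z] at hc
    rw [OnePoint.isZeroAt_iff_forall_SL2Z hc]
    exact fun γ _ => hF.2.2 γ

lemma finrank_CFs [H.FiniteIndex] :
    Module.finrank ℂ (CuspForm (H.map (Matrix.SpecialLinearGroup.mapGL ℝ)) k) =
      Module.finrank ℂ (CFs H k) := by
  let φ : CuspForm (H.map (Matrix.SpecialLinearGroup.mapGL ℝ)) k →ₗ[ℂ] CFs H k :=
    { toFun := fun f => ⟨⇑f, coe_mem_CFs f⟩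
      map_add' := fun f g => rfl
      map_smul' := fun c f => rfl }
  refine LinearEquiv.finrank_eq (LinearEquiv.ofBijective φ ⟨fun f g hfg => ?_, fun F => ?_⟩)
  · exact DFunLike.coe_injective (congrArg Subtype.val hfg)
  · obtain ⟨f, hf⟩ := exists_of_mem_CFs F.2
    exact ⟨f, Subtype.ext hf⟩

/-! ### Vanishing -/

lemma MFs_neg [H.FiniteIndex] (hk : k < 0) : MFs H k = ⊥ := by
  rw [eq_bot_iff]
  intro F hF
  obtain ⟨f, rfl⟩ := exists_modularForm_of_mem_MFs hF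
  rw [ModularForm.isZero_of_neg_weight hk f]
  exact Submodule.zero_mem _

lemma MFs_zero [H.FiniteIndex] (hF : F ∈ MFs H 0) : ∃ x : ℂ, F = fun _ => x := by
  obtain ⟨f, rfl⟩ := exists_modularForm_of_mem_MFs hF
  exact ModularForm.eq_const_of_weight_zero f

lemma MFs_odd (hH : -1 ∈ H) (hk : Odd k) : MFs H k = ⊥ := by
  rw [eq_bot_iff]
  intro F hF
  have h1 := hF.2.1 _ hH
  rw [Submodule.mem_bot]
  funext z
  have h2 := congrFun h1 z
  rw [ModularForm.SL_slash_apply] at h2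
  have h3 : (-1 : SL(2, ℤ)) • z = z := by
    rw [ModularGroup.SL_neg_smul, one_smul]
  have h4 : denom (-1 : SL(2, ℤ)) z = -1 := by
    simp [denom]
  rw [h3, h4, Odd.neg_one_zpow (by simpa using hk)] at h2
  have : 2 * F z = 0 := by linear_combination -h2
  simpa using this

lemma CFs_nonpos [H.FiniteIndex] (hk : k ≤ 0) : CFs H k = ⊥ := by
  rw [eq_bot_iff]
  intro F hF
  rcases hk.lt_or_eq with hk | rfl
  · have := CFs_le_MFs hF
    rwa [MFs_neg hk] at this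
  · obtain ⟨x, rfl⟩ := MFs_zero (CFs_le_MFs hF)
    have h1 := hF.2.2 1
    rw [SlashAction.slash_one] at h1
    have h2 : Tendsto (fun _ : ℍ => x) atImInfty (𝓝 0) := h1
    have h3 : x = 0 := tendsto_nhds_unique tendsto_const_nhds h2
    rw [h3]
    exact Submodule.zero_mem _

end Fermat.Agent.S20
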