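import Mathlib

/-!
# S20, piece (P'): Serre derivative on `M_k(Γ)`, derivative of a determinant, the ODE
`D g = (K/12) E₂ g`.
-/

set_option autoImplicit false

open UpperHalfPlane hiding I
open Real Complex Filter
open scoped Manifold MatrixGroups ModularForm Topology
open Derivative

namespace Fermat.Agent.S20

/-! ### Cauchy estimate: `D` preserves boundedness at `i∞` -/

theorem isBoundedAtImInfty_D {g : ℍ → ℂ} (hg : MDiff g) (hb : IsBoundedAtImInfty g) :
    IsBoundedAtImInfty (D g) := by
  rw [UpperHalfPlane.isBoundedAtImInfty_iff] at hb ⊢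
  obtain ⟨C, A, hCA⟩ := hb
  refine ⟨‖(2 * π * I : ℂ)⁻¹‖ * (C / 1), max A 0 + 2, fun z hz => ?_⟩
  rw [normalizedDerivOfComplex, norm_mul]
  refine mul_le_mul_of_nonneg_left ?_ (norm_nonneg _)
  have hsub : Metric.closedBall (z : ℂ) 1 ⊆ upperHalfPlaneSet := by
    intro w hw
    have h1 : |(w - z).im| ≤ 1 := (Complex.abs_im_le_norm _).trans (by simpa [dist_eq_norm] using hw)
    have h2 := abs_le.mp h1
    simp only [Complex.sub_im, UpperHalfPlane.coe_im] at h2
    have : 0 < w.im := by
      have := le_max_right A 0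
      linarith [h2.1]
    exact this
  have hd : DifferentiableOn ℂ (g ∘ ofComplex) upperHalfPlaneSet :=
    (UpperHalfPlane.mdifferentiable_iff).mp hg
  refine Complex.norm_deriv_le_of_forall_mem_sphere_norm_le one_pos ?_ ?_
  · refine DifferentiableOn.diffContOnCl ?_
    rw [closure_ball _ one_ne_zero]
    exact hd.mono hsub
  · intro w hw
    have hw' : w ∈ Metric.closedBall (z : ℂ) 1 := Metric.sphere_subset_closedBall hw
    have hwpos : 0 < w.im := hsub hw'
    have h1 : |(w - z).im| ≤ 1 := (Complex.abs_im_le_norm _).trans (by simpa [dist_eq_norm] using hw')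
    have h2 := abs_le.mp h1
    simp only [Complex.sub_im, UpperHalfPlane.coe_im] at h2
    rw [Function.comp_apply, ofComplex_apply_of_im_pos hwpos]
    apply hCA
    have := le_max_left A 0
    show A ≤ w.im
    linarith [h2.1]

theorem isBoundedAtImInfty_serreDerivative {g : ℍ → ℂ} (k : ℂ) (hg : MDiff g)
    (hb : IsBoundedAtImInfty g) : IsBoundedAtImInfty (serreDerivative k g) := by
  have h1 := isBoundedAtImInfty_D hg hb
  have h2 : IsBoundedAtImInfty (fun z => k * 12⁻¹ * EisensteinSeries.E2 z * g z) := by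
    have h3 := (EisensteinSeries.isBoundedAtImInfty_E2.mul hb).const_smul_left (k * 12⁻¹)
    refine h3.congr_left (fun z => ?_)
    simp [mul_assoc]
  exact h1.sub h2

/-- The Serre derivative as a map `M_k(Γ) → M_{k+2}(Γ)`. -/
noncomputable def thetaMF {Γ : Subgroup (GL (Fin 2) ℝ)} [Γ.IsArithmetic] (hΓ : Γ ≤ 𝒮ℒ) {k : ℤ}
    (f : ModularForm Γ k) : ModularForm Γ (k + 2) where
  toFun := serreDerivative k f
  slash_action_eq' γ hγ := by
    obtain ⟨γ', rfl⟩ := hΓ hγ
    have h := f.slash_action_eq' _ hγ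
    exact serreDerivative_slash_invariant (γ := γ') f.holo' h
  holo' := serreDerivative_mdifferentiable k f.holo'
  bdd_at_cusps' {c} hc := by
    have hc' : IsCusp c 𝒮ℒ := hc.mono hΓ
    rw [OnePoint.isBoundedAt_iff_forall_SL2Z hc']
    intro γ _
    show IsBoundedAtImInfty (serreDerivative k f ∣[k + 2] γ)
    rw [serreDerivative_slash_equivariant (ModularFormClass.holo f)]
    refine isBoundedAtImInfty_serreDerivative _ ?_ (ModularFormClass.bdd_at_infty_slash f γ)
    exact (ModularFormClass.holo f).slash k _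

theorem coe_thetaMF {Γ : Subgroup (GL (Fin 2) ℝ)} [Γ.IsArithmetic] (hΓ : Γ ≤ 𝒮ℒ) {k : ℤ}
    (f : ModularForm Γ k) : ⇑(thetaMF hΓ f) = serreDerivative k f := rfl


/-! ### Derivative of a determinant -/

section Det
open Matrix


theorem hasDerivAt_det_col {n : Type*} [Fintype n] [DecidableEq n] {M : ℂ → Matrix n n ℂ}
    {M' : Matrix n n ℂ} {z : ℂ} (h : ∀ i j, HasDerivAt (fun w => M w i j) (M' i j) z) :
    HasDerivAt (fun w => (M w).det) (∑ i, ((M z).updateCol i (fun r => M' r i)).det) z := by
  simp only [Matrix.det_apply]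
  rw [Finset.sum_comm]
  refine HasDerivAt.fun_sum (fun σ _ => ?_)
  rw [← Finset.smul_sum]
  refine HasDerivAt.const_smul _ ?_
  have := HasDerivAt.fun_finsetProd (u := Finset.univ) (f := fun i w => M w (σ i) i)
    (f' := fun i => M' (σ i) i) (x := z) (fun i _ => h (σ i) i)
  have e : ∑ x, ∏ i, (M z).updateCol x (fun r => M' r x) (σ i) i =
      ∑ i, (∏ j ∈ Finset.univ.erase i, M z (σ j) j) • M' (σ i) i := by
    refine Finset.sum_congr rfl (fun i _ => ?_)
    rw [← Finset.mul_prod_erase _ _ (Finset.mem_univ i), smul_eq_mul, mul_comm]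
    simp only [updateCol_self]
    congr 1
    refine Finset.prod_congr rfl (fun j hj => ?_)
    rw [updateCol_ne (Finset.ne_of_mem_erase hj)]
  rw [e]
  exact this

theorem hasDerivAt_det_row {n : Type*} [Fintype n] [DecidableEq n] {M : ℂ → Matrix n n ℂ}
    {M' : Matrix n n ℂ} {z : ℂ} (h : ∀ i j, HasDerivAt (fun w => M w i j) (M' i j) z) :
    HasDerivAt (fun w => (M w).det) (∑ i, ((M z).updateRow i (M' i)).det) z := by
  have := hasDerivAt_det_col (M := fun w => (M w)ᵀ) (M' := M'ᵀ) (z := z) (fun i j => h j i)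
  simp only [det_transpose] at this
  have e : ∑ i, ((M z).updateRow i (M' i)).det =
      ∑ i, ((M z)ᵀ.updateCol i fun r => M'ᵀ r i).det := by
    refine Finset.sum_congr rfl (fun i _ => ?_)
    rw [updateCol_transpose, det_transpose]
    rfl
  rw [e]
  exact this

theorem hasDerivAt_det_of_mul {n : Type*} [Fintype n] [DecidableEq n] {M : ℂ → Matrix n n ℂ}
    {B : Matrix n n ℂ} {z : ℂ} (h : ∀ i j, HasDerivAt (fun w => M w i j) ((B * M z) i j) z) :
    HasDerivAt (fun w => (M w).det) (B.trace * (M z).det) z := by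
  have := hasDerivAt_det_row h
  have e : B.trace * (M z).det = ∑ i, ((M z).updateRow i ((B * M z) i)).det := by
    rw [Matrix.trace, Finset.sum_mul]
    refine Finset.sum_congr rfl (fun i _ => ?_)
    have h2 : (B * M z) i = ∑ k, B i k • M z k := by
      ext j
      simp [Matrix.mul_apply]
    rw [h2, det_updateRow_sum]
    simp
  rw [e]
  exact this

end Det

/-! ### The ODE `D g = (K/12) E₂ g` -/


theorem hasDerivAt_comp_ofComplex {g : ℍ → ℂ} (hg : MDiff g) (z : ℍ) :
    HasDerivAt (g ∘ ofComplex) (2 * π * I * D g z) (z : ℂ) := by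
  have h := (UpperHalfPlane.mdifferentiableAt_iff.mp (hg z)).hasDerivAt
  have e : 2 * π * I * D g z = deriv (g ∘ ofComplex) z := by
    rw [normalizedDerivOfComplex, ← mul_assoc, mul_inv_cancel₀ two_pi_I_ne_zero, one_mul]
  rw [e]; exact h

theorem D_discriminant (z : ℍ) :
    D ModularForm.discriminant z = EisensteinSeries.E2 z * ModularForm.discriminant z := by
  have hz : (z : ℂ) ∈ upperHalfPlaneSet := z.im_pos
  have h1 : HasDerivAt ModularForm.eta (deriv ModularForm.eta z) z :=
    (ModularForm.differentiableAt_eta_of_mem_upperHalfPlaneSet hz).hasDerivAt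
  have h2 := ModularForm.logDeriv_eta_eq_E2 z
  rw [logDeriv_apply, div_eq_iff (ModularForm.eta_ne_zero hz)] at h2
  have h3 : (ModularForm.discriminant ∘ ofComplex) =ᶠ[𝓝 (z : ℂ)] fun w => ModularForm.eta w ^ 24 := by
    filter_upwards [isOpen_upperHalfPlaneSet.mem_nhds hz] with w hw
    simp [ModularForm.discriminant, ofComplex_apply_of_im_pos hw]
  rw [normalizedDerivOfComplex, h3.deriv_eq, (h1.fun_pow 24).deriv, h2, ModularForm.discriminant]
  have : (2 * π * I : ℂ) ≠ 0 := two_pi_I_ne_zero
  field_simp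
  ring

theorem ode_const {g : ℍ → ℂ} (hg : MDiff g) (K : ℤ)
    (h : ∀ z, D g z = (K : ℂ) * 12⁻¹ * EisensteinSeries.E2 z * g z) :
    ∃ c : ℂ, ∀ z, g z ^ 12 = c * ModularForm.discriminant z ^ K := by
  have hΔ : MDiff ModularForm.discriminant := CuspForm.discriminant.holo'
  set H : ℂ → ℂ := fun w => (g ∘ ofComplex) w ^ 12 * ((ModularForm.discriminant ∘ ofComplex) w) ^ (-K)
    with hH
  have hder : ∀ w ∈ upperHalfPlaneSet, HasDerivAt H 0 w := by
    intro w hw
    obtain ⟨z, rfl⟩ : ∃ z : ℍ, (z : ℂ) = w := ⟨⟨w, hw⟩, rfl⟩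
    have h1 := (hasDerivAt_comp_ofComplex hg z).pow 12
    have hne : (ModularForm.discriminant ∘ ofComplex) (z : ℂ) ≠ 0 := by
      simpa using ModularForm.discriminant_ne_zero z
    have h2 := (hasDerivAt_zpow (-K) _ (Or.inl hne)).comp (z : ℂ) (hasDerivAt_comp_ofComplex hΔ z)
    have h3 := h1.mul h2
    have e : (0 : ℂ) = ((12 : ℕ) : ℂ) * (g ∘ ofComplex) ↑z ^ (12 - 1) * (2 * ↑π * I * D g z) *
        ((fun x => x ^ (-K)) ∘ ModularForm.discriminant ∘ ofComplex) ↑z +
      (g ∘ ofComplex ^ 12) ↑z *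
        (↑(-K) * (ModularForm.discriminant ∘ ofComplex) ↑z ^ (-K - 1) *
          (2 * ↑π * I * D ModularForm.discriminant z)) := by
      rw [h z, D_discriminant z]
      simp only [Function.comp_apply, ofComplex_apply, Pi.pow_apply]
      have hne' := ModularForm.discriminant_ne_zero z
      rw [zpow_sub_one₀ hne']
      push_cast
      field_simp
      ring
    rw [e]
    exact h3
  have hconst : ∀ x ∈ upperHalfPlaneSet, ∀ y ∈ upperHalfPlaneSet, H x = H y := by
    intro x hx y hy
    refine IsOpen.is_const_of_deriv_eq_zero isOpen_upperHalfPlaneSet ?_ ?_ ?_ hx hy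
    · exact (convex_halfSpace_im_gt 0).isPreconnected
    · exact fun w hw => (hder w hw).differentiableAt.differentiableWithinAt
    · exact fun w hw => (hder w hw).deriv
  refine ⟨H (UpperHalfPlane.I : ℍ), fun z => ?_⟩
  rw [hconst _ (UpperHalfPlane.I).im_pos _ z.im_pos]
  simp only [hH, Function.comp_apply, ofComplex_apply]
  rw [mul_assoc, ← zpow_add₀ (ModularForm.discriminant_ne_zero z)]
  simp

/-- Generic form of (P'): a square matrix of holomorphic functions whose rows satisfy
`ϑ_{w i} M_i = ∑_j A_ij M_j` with `A_ii = 0` has `det ^ 12 = c Δ ^ (∑ w)`. -/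
theorem det_pow_twelve {X : Type} [Fintype X] [DecidableEq X] (w : X → ℤ)
    (M : X → X → ℍ → ℂ) (hM : ∀ i x, MDiff (M i x)) (A : X → X → ℍ → ℂ)
    (hA : ∀ i, A i i = 0)
    (h : ∀ i x, serreDerivative (w i) (M i x) = ∑ j, A i j * M j x) :
    ∃ c : ℂ, ∀ z, (Matrix.det (Matrix.of fun i x => M i x z)) ^ 12 =
      c * ModularForm.discriminant z ^ (∑ i, w i) := by
  have hdet : MDiff (fun z => Matrix.det (Matrix.of fun i x => M i x z)) := by
    have e : (fun z => Matrix.det (Matrix.of fun i x => M i x z)) =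
        ∑ σ : Equiv.Perm X, (((Equiv.Perm.sign σ : ℤ) : ℂ)) • ∏ i, M (σ i) i := by
      ext z
      simp [Matrix.det_apply', Finset.sum_apply, Finset.prod_apply]
    rw [e]
    exact MDifferentiable.sum (fun σ _ => (MDifferentiable.prod (fun i _ => hM _ _)).const_smul _)
  refine ode_const hdet _ (fun z => ?_)
  set B : Matrix X X ℂ := Matrix.of fun i j =>
    2 * π * I * (A i j z + if i = j then (w i : ℂ) * 12⁻¹ * EisensteinSeries.E2 z else 0) with hB
  have key : HasDerivAt (fun u : ℂ => Matrix.det (Matrix.of fun i x => M i x (ofComplex u)))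
      (B.trace * Matrix.det (Matrix.of fun i x => M i x z)) (z : ℂ) := by
    have := hasDerivAt_det_of_mul (M := fun u : ℂ => (Matrix.of fun i x => M i x (ofComplex u)))
      (B := B) (z := (z : ℂ)) ?_
    · simpa using this
    · intro i x
      have h1 := hasDerivAt_comp_ofComplex (hM i x) z
      have h2 := congrFun (h i x) z
      rw [serreDerivative_apply, sub_eq_iff_eq_add] at h2
      rw [h2] at h1
      have e : (B * Matrix.of fun i x => M i x (ofComplex (z : ℂ))) i x =
          2 * π * I * ((∑ j, A i j * M j x) z + (w i : ℂ) * 12⁻¹ * EisensteinSeries.E2 z * M i x z) := by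
        simp only [Matrix.mul_apply, hB, ofComplex_apply, Finset.sum_apply, Pi.mul_apply,
          Matrix.of_apply]
        simp only [mul_add, add_mul, Finset.sum_add_distrib, mul_ite, ite_mul, mul_zero, zero_mul,
          Finset.sum_ite_eq, Finset.mem_univ, if_true, Finset.mul_sum]
        congr 1
        · refine Finset.sum_congr rfl (fun j _ => by ring)
        · ring
      rw [e]
      exact h1
  rw [normalizedDerivOfComplex]
  have e : ((fun z => Matrix.det (Matrix.of fun i x => M i x z)) ∘ ofComplex) =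
      (fun u : ℂ => Matrix.det (Matrix.of fun i x => M i x (ofComplex u))) := rfl
  rw [e, key.deriv]
  have htr : B.trace = 2 * π * I * (((∑ i, w i : ℤ) : ℂ) * 12⁻¹ * EisensteinSeries.E2 z) := by
    simp only [Matrix.trace, Matrix.diag, hB, hA, Pi.zero_apply, zero_add, if_true, Matrix.of_apply]
    rw [← Finset.mul_sum]
    push_cast
    rw [Finset.sum_mul, Finset.sum_mul]
  rw [htr]
  have : (2 * π * I : ℂ) ≠ 0 := two_pi_I_ne_zero
  field_simp

end Fermat.Agent.S20
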