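import Fermat.Agent.S20.Cusp
import Fermat.Agent.S20.FreeFam
import Fermat.Agent.S20.CuspDiag

/-!
# S20, piece C: the rank is `μ = [SL(2,ℤ) : H]`
-/

set_option autoImplicit false

namespace Fermat.Agent.S20

open UpperHalfPlane ModularForm Filter Topology EisensteinSeries
open scoped MatrixGroups Manifold ModularForm

section general

variable {H : Subgroup SL(2, ℤ)}

lemma vec_injective_of_sep {a : ℤ} {x : ℍ → ℂ} (hsep : ∀ g : SL(2, ℤ), x ∣[a] g = x → g ∈ H)
    {q q' : Cos H} (h : vec H a x q = vec H a x q') : q = q' := by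
  unfold vec at h
  have h1 : x ∣[a] ((q.out)⁻¹ * q'.out) = x := by
    rw [SlashAction.slash_mul, h, ← SlashAction.slash_mul, inv_mul_cancel, SlashAction.slash_one]
  have h2 := hsep _ h1
  rw [← Quotient.out_eq q, ← Quotient.out_eq q']
  exact QuotientGroup.eq.mpr h2

/-- Expansions over a finite index type, as a sum over the whole type. -/
lemma IsFam.gen_univ {ι : Type} [Fintype ι] {w : ι → ℤ} {B : ι → ℍ → ℂ} (hfam : IsFam H w B)
    (k : ℤ) {F : ℍ → ℂ} (hF : F ∈ MFs H k) :
    ∃ r : ι → ℍ → ℂ, (∀ i, r i ∈ MFs ⊤ (k - w i)) ∧ F = ∑ i, r i * B i := by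
  classical
  obtain ⟨s, r, hr, hF'⟩ := hfam.gen k F hF
  refine ⟨fun i => if i ∈ s then r i else 0, fun i => ?_, ?_⟩
  · dsimp only
    split_ifs
    · exact hr i
    · exact Submodule.zero_mem _
  · rw [hF', ← Finset.sum_subset (Finset.subset_univ s)]
    · exact Finset.sum_congr rfl fun i hi => by dsimp only; rw [if_pos hi]
    · intro i _ hi
      dsimp only
      rw [if_neg hi, zero_mul]

/-- Reindexing a homogeneous basis. -/
lemma IsFam.comp_equiv {ι κ : Type} {w : ι → ℤ} {B : ι → ℍ → ℂ} (hfam : IsFam H w B)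
    (e : κ ≃ ι) : IsFam H (w ∘ e) (B ∘ e) := by
  classical
  refine ⟨fun i => hfam.mem (e i), fun k F hF => ?_, fun k s r hr h0 i hi => ?_⟩
  · obtain ⟨s, r, hr, hF'⟩ := hfam.gen k F hF
    refine ⟨s.map e.symm.toEmbedding, r ∘ e, fun i => hr (e i), ?_⟩
    rw [hF', Finset.sum_map]
    simp
  · have h1 := hfam.indep k (s.map e.toEmbedding) (r ∘ e.symm) (by
      intro j hj
      obtain ⟨i, hi, rfl⟩ := Finset.mem_map.mp hj
      simpa using hr i hi) (by
      rw [Finset.sum_map]
      simpa using h0) (e i) (Finset.mem_map_of_mem _ hi)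
    simpa using h1

/-- The Vandermonde matrix of the conjugates of a separating form factors through the matrix of
conjugates of any homogeneous generating family, and it is invertible at some point. -/
theorem exists_factorisation [Finite (Cos H)] (hsep : HasSep H)
    {ι : Type} [Fintype ι] {w : ι → ℤ} {B : ι → ℍ → ℂ} (hfam : IsFam H w B) :
    ∃ (z : ℍ) (n : ℕ) (e : Cos H ≃ Fin n) (R : Matrix (Fin n) ι ℂ)
      (V : Matrix (Fin n) (Fin n) ℂ), V.det ≠ 0 ∧
      V = R * (Mat H w B z).submatrix id e.symm := by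
  classical
  obtain ⟨a, x, hx, hsep⟩ := hsep
  let _ : Fintype (Cos H) := Fintype.ofFinite _
  set n := Fintype.card (Cos H) with hn
  let e : Cos H ≃ Fin n := Fintype.equivFin _
  let y : Fin n → ℍ → ℂ := fun i => vec H a x (e.symm i)
  choose r hr hr' using fun j : Fin n => hfam.gen_univ _ (pow_mem_MFs hx (j : ℕ))
  have hyd : ∀ i, MDiff (y i) := fun i => vec_mdiff H hx.1 _
  set P : ℍ → ℂ := ∏ i : Fin n, ∏ j ∈ Finset.Ioi i, (y j - y i) with hP
  have hP0 : P ≠ 0 := by
    intro hP0
    obtain ⟨i, -, hi⟩ := (UpperHalfPlane.prod_eq_zero_iff (fun i _ =>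
      MDifferentiable.prod fun j _ => (hyd j).sub (hyd i))).mp hP0
    obtain ⟨j, hj, hij⟩ :=
      (UpperHalfPlane.prod_eq_zero_iff (fun j _ => (hyd j).sub (hyd i))).mp hi
    have h3 := vec_injective_of_sep hsep (sub_eq_zero.mp hij)
    have h4 : j = i := e.symm.injective h3
    rw [h4] at hj
    simp at hj
  obtain ⟨z, hz⟩ : ∃ z, P z ≠ 0 := by
    by_contra hcon
    push Not at hcon
    exact hP0 (funext hcon)
  refine ⟨z, n, e, Matrix.of fun j i => r j i z, (Matrix.vandermonde fun a => y a z).transpose,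
    ?_, ?_⟩
  · rw [Matrix.det_transpose, Matrix.det_vandermonde]
    simpa [hP, Finset.prod_apply] using hz
  · ext j b
    simp only [Matrix.transpose_apply, Matrix.vandermonde_apply, Matrix.mul_apply, Matrix.of_apply,
      Matrix.submatrix_apply, id, Mat]
    have h1 : (y b) ^ (j : ℕ) = ∑ i, r j i * vec H (w i) (B i) (e.symm b) := by
      simp only [y]
      rw [← vec_pow, hr' j, vec_sum]
      refine Finset.sum_congr rfl fun i _ => ?_
      exact vec_top_mul (hr j i) _ (by ring) _
    have h2 := congrFun h1 z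
    simpa [Finset.sum_apply] using h2

/-- A homogeneous generating family has at least `μ` elements. -/
theorem card_le_of_isFam [Finite (Cos H)] (hsep : HasSep H)
    {ι : Type} [Fintype ι] {w : ι → ℤ} {B : ι → ℍ → ℂ} (hfam : IsFam H w B) :
    Nat.card (Cos H) ≤ Fintype.card ι := by
  classical
  obtain ⟨z, n, e, R, V, hV, hVR⟩ := exists_factorisation hsep hfam
  have h1 : V.rank = n := by
    rw [Matrix.rank_of_isUnit V ((Matrix.isUnit_iff_isUnit_det V).mpr (isUnit_iff_ne_zero.mpr hV))]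
    simp
  have h2 : V.rank ≤ Fintype.card ι := by
    rw [hVR]
    exact (Matrix.rank_mul_le_left _ _).trans (Matrix.rank_le_card_width _)
  rw [Nat.card_congr e, Nat.card_eq_fintype_card, Fintype.card_fin]
  omega

/-- The determinant of the matrix of conjugates of a homogeneous basis indexed by the cosets
does not vanish identically. -/
theorem exists_det_ne_zero [Fintype (Cos H)] [DecidableEq (Cos H)] (hsep : HasSep H)
    {w : Cos H → ℤ} {B : Cos H → ℍ → ℂ} (hfam : IsFam H w B) :
    ∃ z, (Mat H w B z).det ≠ 0 := by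
  obtain ⟨z, n, e, R, V, hV, hVR⟩ := exists_factorisation hsep hfam
  refine ⟨z, fun h0 => hV ?_⟩
  have h1 : V = (R.submatrix id e.symm) * ((Mat H w B z).submatrix e.symm e.symm) := by
    rw [hVR]
    ext j b
    simp only [Matrix.mul_apply, Matrix.submatrix_apply, id]
    exact (Equiv.sum_comp e.symm _).symm
  rw [h1, Matrix.det_mul, Matrix.det_submatrix_equiv_self, h0, mul_zero]

/-- A homogeneous basis is finite. -/
theorem finite_of_isFam [Fintype (Cos H)] [DecidableEq (Cos H)] (hneg : -1 ∈ H)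
    {ι : Type} {w : ι → ℤ} {B : ι → ℍ → ℂ} (hfam : IsFam H w B) : Finite ι := by
  obtain ⟨d, -⟩ := exists_cuspData H
  exact (Lam_indep d hneg hfam).finite

/-- A homogeneous basis has at most `μ` elements. -/
theorem card_le_of_isFam' [Fintype (Cos H)] [DecidableEq (Cos H)] (hneg : -1 ∈ H)
    {ι : Type} [Fintype ι] {w : ι → ℤ} {B : ι → ℍ → ℂ} (hfam : IsFam H w B) :
    Fintype.card ι ≤ Fintype.card (Cos H) := by
  obtain ⟨d, -⟩ := exists_cuspData H
  simpa using (Lam_indep d hneg hfam).fintype_card_le_finrank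

/-- Every homogeneous basis can be indexed by the cosets. -/
theorem nonempty_equiv_of_isFam [Fintype (Cos H)] [DecidableEq (Cos H)] (hneg : -1 ∈ H)
    (hsep : HasSep H) {ι : Type} {w : ι → ℤ} {B : ι → ℍ → ℂ} (hfam : IsFam H w B) :
    Nonempty (Cos H ≃ ι) := by
  have := finite_of_isFam hneg hfam
  let _ : Fintype ι := Fintype.ofFinite ι
  have h1 := card_le_of_isFam hsep hfam
  have h2 := card_le_of_isFam' hneg hfam
  rw [Nat.card_eq_fintype_card] at h1
  exact ⟨Fintype.equivOfCardEq (le_antisymm h1 h2)⟩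

end general

/-- `#ι ≤ μ` by `Lam_indep`; `#ι ≥ μ` and `det ≠ 0` somewhere by the Vandermonde matrix of a
separating form `x`: `x ^ j = ∑ i, r j i * B i`, so `V(z) = r(z) * M(z)`. -/
theorem exists_basis (H : Subgroup SL(2, ℤ)) [H.FiniteIndex] [Fintype (Cos H)]
    [DecidableEq (Cos H)] (hneg : -1 ∈ H) (hsep : HasSep H) :
    ∃ (w : Cos H → ℤ) (B : Cos H → ℍ → ℂ), IsFam H w B ∧ ∃ z, (Mat H w B z).det ≠ 0 := by
  obtain ⟨ι, w, B, hfam, -, -⟩ := exists_isFam H
  obtain ⟨e⟩ := nonempty_equiv_of_isFam hneg hsep hfam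
  exact ⟨w ∘ e, B ∘ e, hfam.comp_equiv e, exists_det_ne_zero hsep (hfam.comp_equiv e)⟩

end Fermat.Agent.S20
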