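import Mathlib

set_option autoImplicit false

/-! Level one input for S20 (piece L): divisibility in `M_*(SL2 Z)` by dimension count. -/

namespace Fermat.Agent.S20

open UpperHalfPlane ModularForm ModularFormClass MatrixGroups EisensteinSeries

noncomputable section

/-- dimension of `M_k(SL2 Z)`. -/
def l1dim (k : ℤ) : ℕ :=
  if k < 0 ∨ Odd k then 0 else if k % 12 = 2 then (k / 12).toNat else (k / 12).toNat + 1

theorem l1_finrank (k : ℤ) : Module.finrank ℂ (ModularForm 𝒮ℒ k) = l1dim k := by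
  unfold l1dim
  split_ifs with h1 h2
  · rcases h1 with h | h
    · exact Module.finrank_eq_of_rank_eq (by simpa using levelOne_neg_weight_rank_zero h)
    · exact Module.finrank_eq_of_rank_eq (by simpa using levelOne_odd_weight_rank_zero h)
  · push Not at h1
    obtain ⟨h0, hodd⟩ := h1
    lift k to ℕ using h0
    have hev : Even k := by
      rcases Nat.even_or_odd k with h | h
      · exact h
      · exact absurd (by exact_mod_cast h) hodd
    have := dimension_level_one k hev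
    have hk : k ≡ 2 [MOD 12] := by
      unfold Nat.ModEq; omega
    rw [if_pos hk] at this
    apply Module.finrank_eq_of_rank_eq
    rw [this]
    congr 1
  · push Not at h1
    obtain ⟨h0, hodd⟩ := h1
    lift k to ℕ using h0
    have hev : Even k := by
      rcases Nat.even_or_odd k with h | h
      · exact h
      · exact absurd (by exact_mod_cast h) hodd
    have := dimension_level_one k hev
    have hk : ¬ k ≡ 2 [MOD 12] := by
      unfold Nat.ModEq; omega
    rw [if_neg hk] at this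
    apply Module.finrank_eq_of_rank_eq
    rw [this]
    have : ((k : ℤ) / 12).toNat = k / 12 := by omega
    rw [this]

/-- multiplication by a fixed level one form, as a linear map. -/
def l1mul {w : ℤ} (π : ModularForm 𝒮ℒ w) (k : ℤ) :
    ModularForm 𝒮ℒ (k - w) →ₗ[ℂ] ModularForm 𝒮ℒ k where
  toFun G := ModularForm.mcast (by ring) (π.mul G)
  map_add' G H := by
    ext z
    simp [mul_add]
  map_smul' c G := by
    ext z
    simp [mul_left_comm]

@[simp] theorem l1mul_apply {w : ℤ} (π : ModularForm 𝒮ℒ w) (k : ℤ) (G : ModularForm 𝒮ℒ (k - w))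
    (z : ℍ) : l1mul π k G z = π z * G z := rfl

theorem l1mul_injective {w : ℤ} {π : ModularForm 𝒮ℒ w} (hπ : π ≠ 0) (k : ℤ) :
    Function.Injective (l1mul π k) := by
  refine (injective_iff_map_eq_zero _).mpr fun G hG => ?_
  by_contra hne
  have h := ModularForm.mul_ne_zero (Γ := 𝒮ℒ) ⟨1, one_mem_strictPeriods_SL, one_pos⟩ hπ hne
  apply h
  ext z
  have := congrArg (fun F : ModularForm 𝒮ℒ k => F z) hG
  simpa using this

theorem l1_le_range {w : ℤ} {π : ModularForm 𝒮ℒ w} (hπ : π ≠ 0) (k : ℤ)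
    (U : Submodule ℂ (ModularForm 𝒮ℒ k)) (hU : LinearMap.range (l1mul π k) ≤ U)
    (hd : Module.finrank ℂ U ≤ l1dim (k - w)) : U ≤ LinearMap.range (l1mul π k) := by
  have h1 : Module.finrank ℂ (LinearMap.range (l1mul π k)) = l1dim (k - w) := by
    rw [LinearMap.finrank_range_of_inj (l1mul_injective hπ k), l1_finrank]
  exact (Submodule.eq_of_le_of_finrank_le hU (by rw [h1]; exact hd)).ge

/-- evaluation at a point. -/
def l1eval (k : ℤ) (z0 : ℍ) : ModularForm 𝒮ℒ k →ₗ[ℂ] ℂ where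
  toFun F := F z0
  map_add' _ _ := rfl
  map_smul' _ _ := rfl

theorem l1_finrank_ker_eval (k : ℤ) (z0 : ℍ) (h : ∃ Φ : ModularForm 𝒮ℒ k, Φ z0 ≠ 0) :
    Module.finrank ℂ (LinearMap.ker (l1eval k z0)) + 1 = l1dim k := by
  have h1 := LinearMap.finrank_range_add_finrank_ker (l1eval k z0)
  have h2 : LinearMap.range (l1eval k z0) = ⊤ := by
    obtain ⟨Φ, hΦ⟩ := h
    rw [LinearMap.range_eq_top]
    intro c
    refine ⟨(c / Φ z0) • Φ, ?_⟩
    change (c / Φ z0) * Φ z0 = c
    field_simp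
  rw [h2, finrank_top, Module.finrank_self, l1_finrank] at h1
  omega

/-- General division statement. -/
theorem l1_div {w : ℤ} {π : ModularForm 𝒮ℒ w} (hπ : π ≠ 0) (k : ℤ) (z0 : ℍ) (hπ0 : π z0 = 0)
    (hdim : l1dim k ≤ l1dim (k - w) ∨
      ((∃ Φ : ModularForm 𝒮ℒ k, Φ z0 ≠ 0) ∧ l1dim k ≤ l1dim (k - w) + 1))
    (Φ : ModularForm 𝒮ℒ k) (hΦ : Φ z0 = 0) :
    ∃ Φ' : ModularForm 𝒮ℒ (k - w), ∀ z, Φ z = π z * Φ' z := by
  have hU : LinearMap.range (l1mul π k) ≤ LinearMap.ker (l1eval k z0) := by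
    rintro _ ⟨G, rfl⟩
    change π z0 * G z0 = 0
    rw [hπ0, zero_mul]
  have hd : Module.finrank ℂ (LinearMap.ker (l1eval k z0)) ≤ l1dim (k - w) := by
    rcases hdim with h | ⟨h1, h2⟩
    · refine le_trans (Submodule.finrank_le _) ?_
      rw [l1_finrank]; exact h
    · have := l1_finrank_ker_eval k z0 h1
      omega
  obtain ⟨G, hG⟩ := l1_le_range hπ k _ hU hd (show Φ ∈ LinearMap.ker (l1eval k z0) from hΦ)
  exact ⟨G, fun z => by rw [← hG]; rfl⟩

theorem l1_surj {w : ℤ} {π : ModularForm 𝒮ℒ w} (hπ : π ≠ 0) (k : ℤ)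
    (hdim : l1dim k ≤ l1dim (k - w)) (Φ : ModularForm 𝒮ℒ k) :
    ∃ Φ' : ModularForm 𝒮ℒ (k - w), ∀ z, Φ z = π z * Φ' z := by
  have hd : Module.finrank ℂ (⊤ : Submodule ℂ (ModularForm 𝒮ℒ k)) ≤ l1dim (k - w) := by
    rw [finrank_top, l1_finrank]; exact hdim
  obtain ⟨G, hG⟩ := l1_le_range hπ k ⊤ le_top hd (Submodule.mem_top (x := Φ))
  exact ⟨G, fun z => by rw [← hG]; rfl⟩

theorem E₄_ne_zero' : (E₄ : ModularForm 𝒮ℒ 4) ≠ 0 := E_ne_zero _ ⟨2, rfl⟩
theorem E₆_ne_zero' : (E₆ : ModularForm 𝒮ℒ 6) ≠ 0 := E_ne_zero _ ⟨3, rfl⟩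

/-- (La) a level one form of weight not divisible by `6` is divisible by `E₄`. -/
theorem exists_E₄_mul (k : ℤ) (hk : ¬ (6 : ℤ) ∣ k) (F : ModularForm 𝒮ℒ k) :
    ∃ G : ModularForm 𝒮ℒ (k - 4), ∀ z, F z = E₄ z * G z := by
  apply l1_surj E₄_ne_zero'
  unfold l1dim
  have hodd : Odd (k - 4) ↔ Odd k := by
    rw [Int.odd_sub]
    constructor
    · intro h; by_contra hc; exact absurd (h.mpr (by decide)) hc
    · intro h; exact ⟨fun _ => by decide, fun _ => h⟩
  simp only [hodd]
  by_cases ho : Odd k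
  · simp [ho]
  · have he : k % 2 = 0 := by
      rcases Int.even_or_odd k with h | h
      · exact Int.even_iff.mp h
      · exact absurd h ho
    simp only [ho, or_false]
    split_ifs <;> omega

/-- (Lb) a level one form of weight not divisible by `4` is divisible by `E₆`. -/
theorem exists_E₆_mul (k : ℤ) (hk : ¬ (4 : ℤ) ∣ k) (F : ModularForm 𝒮ℒ k) :
    ∃ G : ModularForm 𝒮ℒ (k - 6), ∀ z, F z = E₆ z * G z := by
  apply l1_surj E₆_ne_zero'
  unfold l1dim
  have hodd : Odd (k - 6) ↔ Odd k := by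
    rw [Int.odd_sub]
    constructor
    · intro h; by_contra hc; exact absurd (h.mpr (by decide)) hc
    · intro h; exact ⟨fun _ => by decide, fun _ => h⟩
  simp only [hodd]
  by_cases ho : Odd k
  · simp [ho]
  · have he : k % 2 = 0 := by
      rcases Int.even_or_odd k with h | h
      · exact Int.even_iff.mp h
      · exact absurd h ho
    simp only [ho, or_false]
    split_ifs <;> omega

end

end Fermat.Agent.S20
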