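import Mathlib
import Fermat.Prelude.Def_ModularCurve_GenusNumerics

set_option autoImplicit false

namespace Fermat.Agent.S20

open CongruenceSubgroup Matrix MatrixGroups ModularGroup

/-- upper-left entry mod `N` -/
def colA (N : ℕ) (g : SL(2,ℤ)) : ZMod N := ((g 0 0 : ℤ) : ZMod N)
/-- lower-left entry mod `N` -/
def colC (N : ℕ) (g : SL(2,ℤ)) : ZMod N := ((g 1 0 : ℤ) : ZMod N)

lemma coset_eq_iff (N : ℕ) (g g' : SL(2,ℤ)) :
    (g : SL(2,ℤ) ⧸ Gamma0 N) = g' ↔ colA N g * colC N g' = colC N g * colA N g' := by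
  rw [QuotientGroup.eq, Gamma0_mem]
  have h : (g⁻¹ * g') 1 0 = g 0 0 * g' 1 0 - g 1 0 * g' 0 0 := by
    simp [Matrix.adjugate_fin_two, Matrix.mul_apply, Fin.sum_univ_two]
    ring
  rw [h]
  unfold colA colC
  push_cast
  rw [sub_eq_zero]

lemma isCoprime_col (N : ℕ) (g : SL(2,ℤ)) : IsCoprime (colA N g) (colC N g) := by
  have h := g.det_coe
  rw [Matrix.det_fin_two] at h
  refine ⟨((g 1 1 : ℤ) : ZMod N), -((g 0 1 : ℤ) : ZMod N), ?_⟩
  unfold colA colC
  have := congrArg (Int.cast : ℤ → ZMod N) h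
  push_cast at this
  linear_combination this

lemma colA_S_mul (N : ℕ) (g : SL(2,ℤ)) : colA N (S * g) = - colC N g := by
  simp [colA, colC, coe_S, Matrix.mul_apply, Fin.sum_univ_two]

lemma colC_S_mul (N : ℕ) (g : SL(2,ℤ)) : colC N (S * g) = colA N g := by
  simp [colA, colC, coe_S, Matrix.mul_apply, Fin.sum_univ_two]

lemma colA_T_zpow_mul (N : ℕ) (k : ℤ) (g : SL(2,ℤ)) :
    colA N (T ^ k * g) = colA N g + k * colC N g := by
  simp [colA, colC, coe_T_zpow, Matrix.mul_apply, Fin.sum_univ_two]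

lemma colC_T_zpow_mul (N : ℕ) (k : ℤ) (g : SL(2,ℤ)) :
    colC N (T ^ k * g) = colC N g := by
  simp [colC]

lemma colA_T_mul (N : ℕ) (g : SL(2,ℤ)) : colA N (T * g) = colA N g + colC N g := by
  simpa using colA_T_zpow_mul N 1 g

lemma colC_T_mul (N : ℕ) (g : SL(2,ℤ)) : colC N (T * g) = colC N g := by
  simpa using colC_T_zpow_mul N 1 g

/-- two unimodular pairs with vanishing cross product differ by a unit. -/
lemma exists_unit_of_cross {R : Type*} [CommRing R] {a c a' c' : R} (h : IsCoprime a c)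
    (h' : IsCoprime a' c') (hx : a * c' = c * a') : ∃ t : Rˣ, a' = t * a ∧ c' = t * c := by
  obtain ⟨x, y, hxy⟩ := h
  obtain ⟨x', y', hxy'⟩ := h'
  have key : (x * a' + y * c') * (x' * a + y' * c) = 1 := by
    linear_combination x * (a * hxy' - y' * hx) + y * (c * hxy' + x' * hx) + hxy
  refine ⟨⟨x * a' + y * c', x' * a + y' * c, key, by rw [mul_comm]; exact key⟩, ?_, ?_⟩
  · show a' = (x * a' + y * c') * a
    linear_combination (-a') * hxy - y * hx
  · show c' = (x * a' + y * c') * c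
    linear_combination (-c') * hxy + x * hx


lemma natCast_dvd_iff {N g : ℕ} [NeZero N] (hg : g ∣ N) (x : ZMod N) :
    (g : ZMod N) ∣ x ↔ g ∣ x.val := by
  constructor
  · rintro ⟨y, rfl⟩
    have : ((g : ZMod N) * y).val = (g * y.val) % N := by
      rw [ZMod.val_mul, ZMod.val_natCast]; simp [Nat.mul_mod]
    rw [this]
    exact (Nat.dvd_mod_iff hg).2 (dvd_mul_right _ _)
  · rintro ⟨m, hm⟩
    refine ⟨m, ?_⟩
    rw [← ZMod.natCast_zmod_val x, hm]; push_cast; rfl

lemma castHom_eq_zero_iff {N g : ℕ} [NeZero N] (hg : g ∣ N) (x : ZMod N) :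
    ZMod.castHom hg (ZMod g) x = 0 ↔ (g : ZMod N) ∣ x := by
  rw [natCast_dvd_iff hg, ZMod.castHom_apply, ← ZMod.natCast_val, ZMod.natCast_eq_zero_iff]

lemma dvd_natCast_gcd {N : ℕ} [NeZero N] (c : ZMod N) : c ∣ (Nat.gcd c.val N : ZMod N) := by
  have h := Nat.gcd_eq_gcd_ab c.val N
  have h2 := congrArg (Int.cast : ℤ → ZMod N) h
  push_cast at h2
  rw [ZMod.natCast_zmod_val, ZMod.natCast_self, zero_mul, add_zero] at h2
  exact ⟨_, h2⟩

lemma natCast_gcd_dvd {N : ℕ} [NeZero N] (c : ZMod N) : (Nat.gcd c.val N : ZMod N) ∣ c :=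
  (natCast_dvd_iff (Nat.gcd_dvd_right _ _) c).2 (Nat.gcd_dvd_left _ _)

/-- `ZMod N` has stable range one. -/
lemma exists_isUnit_add_mul {N : ℕ} [NeZero N] {a c : ZMod N} (h : IsCoprime a c) :
    ∃ k : ZMod N, IsUnit (a + k * c) := by
  set n := Nat.gcd c.val N with hn
  have hnN : n ∣ N := Nat.gcd_dvd_right _ _
  have hc0 : ZMod.castHom hnN (ZMod n) c = 0 :=
    (castHom_eq_zero_iff hnN c).2 (natCast_gcd_dvd c)
  have hu : IsUnit (ZMod.castHom hnN (ZMod n) a) := by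
    have := h.map (ZMod.castHom hnN (ZMod n))
    rw [hc0] at this
    exact isCoprime_zero_right.1 this
  obtain ⟨v, hv⟩ := ZMod.unitsMap_surjective hnN hu.unit
  have hv' : ZMod.castHom hnN (ZMod n) (v : ZMod N) = ZMod.castHom hnN (ZMod n) a := by
    have := congrArg Units.val hv
    simpa [ZMod.unitsMap] using this
  have h1 : (n : ZMod N) ∣ (v : ZMod N) - a := by
    rw [← castHom_eq_zero_iff hnN, map_sub, hv', sub_self]
  obtain ⟨k, hk⟩ := (dvd_natCast_gcd c).trans h1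
  refine ⟨k, ?_⟩
  have : a + k * c = v := by linear_combination -hk
  rw [this]
  exact v.isUnit

/-- every `c : ZMod N` is associated to `gcd c N`. -/
lemma exists_unit_mul_eq_gcd {N : ℕ} [NeZero N] (c : ZMod N) :
    ∃ u : (ZMod N)ˣ, (u : ZMod N) * c = (Nat.gcd c.val N : ZMod N) := by
  obtain ⟨s, hs⟩ := dvd_natCast_gcd c
  obtain ⟨r, hr⟩ := natCast_gcd_dvd c
  have hcop : IsCoprime s (1 - s * r) := ⟨r, 1, by ring⟩
  obtain ⟨k, hk⟩ := exists_isUnit_add_mul hcop
  refine ⟨hk.unit, ?_⟩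
  rw [IsUnit.unit_spec, hs]
  have h0 : c * (1 - s * r) = 0 := by
    rw [hs] at hr
    linear_combination hr
  linear_combination k * h0

/-- Every unimodular pair mod `N` is the first column of some element of `SL(2,ℤ)`. -/
lemma exists_col_eq {N : ℕ} [NeZero N] {a c : ZMod N} (h : IsCoprime a c) :
    ∃ g : SL(2,ℤ), colA N g = a ∧ colC N g = c := by
  obtain ⟨k, hk⟩ := exists_isUnit_add_mul h
  set v := a + k * c with hv
  have hcop : Nat.Coprime v.val N := by
    rw [← ZMod.isUnit_iff_coprime, ZMod.natCast_zmod_val]; exact hk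
  have hb := Nat.gcd_eq_gcd_ab v.val N
  rw [hcop] at hb
  set x := Nat.gcdA v.val N
  set y := Nat.gcdB v.val N
  let g₁ : SL(2,ℤ) := ⟨!![(v.val : ℤ), -1; (c.val : ℤ) + (1 - c.val) * y * N, (1 - c.val) * x], by
    rw [Matrix.det_fin_two_of]
    push_cast at hb
    linear_combination (-(1 - (c.val : ℤ))) * hb⟩
  have hA : colA N g₁ = v := by
    simp [colA, g₁]
  have hC : colC N g₁ = c := by
    simp [colC, g₁]
  refine ⟨T ^ (-(k.val : ℤ)) * g₁, ?_, ?_⟩
  · rw [colA_T_zpow_mul, hA, hC, hv]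
    push_cast
    rw [ZMod.natCast_zmod_val]
    ring
  · rw [colC_T_zpow_mul, hC]

end Fermat.Agent.S20
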