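import Fermat.Agent.S20.CombBase

set_option autoImplicit false

namespace Fermat.Agent.S20

open CongruenceSubgroup Matrix MatrixGroups ModularGroup

lemma card_fixed_aux (N : ℕ) [NeZero N] (h : SL(2,ℤ)) (Q : ZMod N → ZMod N → Prop)
    (p : ZMod N → Prop)
    (hfix : ∀ g : SL(2,ℤ), h • (g : SL(2,ℤ) ⧸ Gamma0 N) = g ↔ Q (colA N g) (colC N g))
    (hunit : ∀ a c, IsCoprime a c → Q a c → IsUnit c)
    (hp : ∀ x, Q x 1 ↔ p x) :
    Nat.card (MulAction.fixedBy (SL(2,ℤ) ⧸ Gamma0 N) h) = Nat.card {x // p x} := by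
  have hex : ∀ x : ZMod N, ∃ g : SL(2,ℤ), colA N g = x ∧ colC N g = 1 :=
    fun x => exists_col_eq isCoprime_one_right
  choose G hGA hGC using hex
  symm
  refine Nat.card_congr (Equiv.ofBijective
    (fun x : {x // p x} => (⟨(G x.1 : SL(2,ℤ) ⧸ Gamma0 N), ?_⟩ :
      MulAction.fixedBy (SL(2,ℤ) ⧸ Gamma0 N) h)) ⟨?_, ?_⟩)
  · rw [MulAction.mem_fixedBy, hfix, hGA, hGC, hp]
    exact x.2
  · intro x x' hxx
    have := congrArg Subtype.val hxx
    simp only [coset_eq_iff, hGA, hGC, mul_one, one_mul] at this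
    exact Subtype.ext this
  · rintro ⟨y, hy⟩
    obtain ⟨g, rfl⟩ := QuotientGroup.mk_surjective y
    rw [MulAction.mem_fixedBy] at hy
    have hQ := (hfix g).1 hy
    obtain ⟨u, hu⟩ := hunit _ _ (isCoprime_col N g) hQ
    have heq : (G (colA N g * (u⁻¹ : (ZMod N)ˣ)) : SL(2,ℤ) ⧸ Gamma0 N) = g := by
      rw [coset_eq_iff, hGA, hGC, ← hu, mul_assoc, Units.inv_mul, mul_one, one_mul]
    refine ⟨⟨colA N g * (u⁻¹ : (ZMod N)ˣ), ?_⟩, Subtype.ext heq⟩
    have h2 := (hfix (G (colA N g * (u⁻¹ : (ZMod N)ˣ)))).1 (by rw [heq]; exact hy)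
    rw [hGA, hGC, hp] at h2
    exact h2

/-- (K2) the number of fixed points of `S` on `SL(2,ℤ) ⧸ Γ₀(N)` is `ν₂(N)`. -/
theorem card_fixedBy_S (N : ℕ) [NeZero N] :
    Nat.card (MulAction.fixedBy (SL(2,ℤ) ⧸ Gamma0 N) S) = ModularCurve.nuTwo N := by
  unfold ModularCurve.nuTwo
  refine card_fixed_aux N S (fun a c => -c * c = a * a) (fun x => x ^ 2 + 1 = 0) ?_ ?_ ?_
  · intro g
    show ((S * g : SL(2,ℤ)) : SL(2,ℤ) ⧸ Gamma0 N) = g ↔ _
    rw [coset_eq_iff, colA_S_mul, colC_S_mul]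
  · rintro a c ⟨x, y, hxy⟩ hQ
    refine IsUnit.of_mul_eq_one (-x ^ 2 * c + 2 * x * y * a + y ^ 2 * c) ?_
    linear_combination (x * a + y * c + 1) * hxy + x ^ 2 * hQ
  · intro x
    constructor
    · intro h; linear_combination -h
    · intro h; linear_combination -h

/-- (K3) the number of fixed points of `U = S * T = [0,-1;1,1]` on `SL(2,ℤ) ⧸ Γ₀(N)` is `ν₃(N)`. -/
theorem card_fixedBy_ST (N : ℕ) [NeZero N] :
    Nat.card (MulAction.fixedBy (SL(2,ℤ) ⧸ Gamma0 N) (S * T)) = ModularCurve.nuThree N := by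
  unfold ModularCurve.nuThree
  refine card_fixed_aux N (S * T) (fun a c => -c * c = (a + c) * a) (fun x => x ^ 2 + x + 1 = 0)
    ?_ ?_ ?_
  · intro g
    show ((S * T * g : SL(2,ℤ)) : SL(2,ℤ) ⧸ Gamma0 N) = g ↔ _
    rw [coset_eq_iff, mul_assoc, colA_S_mul, colC_S_mul, colA_T_mul, colC_T_mul]
  · rintro a c ⟨x, y, hxy⟩ hQ
    refine IsUnit.of_mul_eq_one (-x ^ 2 * c - x ^ 2 * a + 2 * x * y * a + y ^ 2 * c) ?_
    linear_combination (x * a + y * c + 1) * hxy + x ^ 2 * hQ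
  · intro x
    constructor
    · intro h; linear_combination -h
    · intro h; linear_combination -h

end Fermat.Agent.S20
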