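import Mathlib
import Fermat.Prelude.Def_ModularCurve_GenusNumerics

/-!
# S20: shared definitions

Everything is phrased for *functions* `ℍ → ℂ` and submodules of `ℍ → ℂ`, to avoid casts between
spaces of modular forms of (propositionally) equal weights.
-/

set_option autoImplicit false

namespace Fermat.Agent.S20

open UpperHalfPlane ModularForm Filter Topology
open scoped MatrixGroups Manifold ModularForm

/-- Modular forms of weight `k` for the subgroup `H ≤ SL(2,ℤ)`, as a space of functions. -/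
def MFs (H : Subgroup SL(2, ℤ)) (k : ℤ) : Submodule ℂ (ℍ → ℂ) where
  carrier := {F | MDiff F ∧ (∀ γ ∈ H, F ∣[k] γ = F) ∧
    ∀ g : SL(2, ℤ), IsBoundedAtImInfty (F ∣[k] g)}
  add_mem' := by
    rintro F G ⟨hF1, hF2, hF3⟩ ⟨hG1, hG2, hG3⟩
    refine ⟨hF1.add hG1, fun γ hγ => ?_, fun g => ?_⟩
    · rw [SlashAction.add_slash, hF2 γ hγ, hG2 γ hγ]
    · rw [SlashAction.add_slash]; exact (hF3 g).add (hG3 g)
  zero_mem' := by
    refine ⟨mdifferentiable_const, fun γ _ => SlashAction.zero_slash _ _, fun g => ?_⟩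
    rw [SlashAction.zero_slash]; exact zero_form_isBoundedAtImInfty
  smul_mem' := by
    rintro c F ⟨hF1, hF2, hF3⟩
    refine ⟨hF1.const_smul c, fun γ hγ => ?_, fun g => ?_⟩
    · rw [ModularForm.SL_smul_slash, hF2 γ hγ]
    · rw [ModularForm.SL_smul_slash]; exact (hF3 g).const_smul_left c

/-- Cusp forms of weight `k` for the subgroup `H ≤ SL(2,ℤ)`, as a space of functions. -/
def CFs (H : Subgroup SL(2, ℤ)) (k : ℤ) : Submodule ℂ (ℍ → ℂ) where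
  carrier := {F | MDiff F ∧ (∀ γ ∈ H, F ∣[k] γ = F) ∧
    ∀ g : SL(2, ℤ), IsZeroAtImInfty (F ∣[k] g)}
  add_mem' := by
    rintro F G ⟨hF1, hF2, hF3⟩ ⟨hG1, hG2, hG3⟩
    refine ⟨hF1.add hG1, fun γ hγ => ?_, fun g => ?_⟩
    · rw [SlashAction.add_slash, hF2 γ hγ, hG2 γ hγ]
    · rw [SlashAction.add_slash]; exact (hF3 g).add (hG3 g)
  zero_mem' := by
    refine ⟨mdifferentiable_const, fun γ _ => SlashAction.zero_slash _ _, fun g => ?_⟩
    rw [SlashAction.zero_slash]; exact Filter.zero_zeroAtFilter _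
  smul_mem' := by
    rintro c F ⟨hF1, hF2, hF3⟩
    refine ⟨hF1.const_smul c, fun γ hγ => ?_, fun g => ?_⟩
    · rw [ModularForm.SL_smul_slash, hF2 γ hγ]
    · rw [ModularForm.SL_smul_slash]; exact (hF3 g).smul c

lemma mem_MFs {H : Subgroup SL(2, ℤ)} {k : ℤ} {F : ℍ → ℂ} :
    F ∈ MFs H k ↔ MDiff F ∧ (∀ γ ∈ H, F ∣[k] γ = F) ∧
      ∀ g : SL(2, ℤ), IsBoundedAtImInfty (F ∣[k] g) := Iff.rfl

lemma mem_CFs {H : Subgroup SL(2, ℤ)} {k : ℤ} {F : ℍ → ℂ} :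
    F ∈ CFs H k ↔ MDiff F ∧ (∀ γ ∈ H, F ∣[k] γ = F) ∧
      ∀ g : SL(2, ℤ), IsZeroAtImInfty (F ∣[k] g) := Iff.rfl

/-- The coset space `SL(2,ℤ) ⧸ H` (left cosets `g H`, Mathlib's left action of `SL(2,ℤ)`). -/
abbrev Cos (H : Subgroup SL(2, ℤ)) : Type := SL(2, ℤ) ⧸ H

/-- The component of the vector valued form attached to `F` at the coset `x = g H`:
`F ∣[k] g⁻¹` (for the chosen representative `g = x.out`). -/
noncomputable def vec (H : Subgroup SL(2, ℤ)) (k : ℤ) (F : ℍ → ℂ) (x : Cos H) : ℍ → ℂ :=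
  F ∣[k] (x.out)⁻¹

/-- The matrix `(B i ∣ x)(z)`; rows = forms, columns = cosets. -/
noncomputable def Mat (H : Subgroup SL(2, ℤ)) {ι : Type} (w : ι → ℤ) (B : ι → ℍ → ℂ) (z : ℍ) :
    Matrix ι (Cos H) ℂ :=
  fun i x => vec H (w i) (B i) x z

/-- `(B i)` (of weights `w i`) is a homogeneous basis of `⨁ₖ MFs H k` over `⨁ₖ MFs ⊤ k`. -/
structure IsFam (H : Subgroup SL(2, ℤ)) {ι : Type} (w : ι → ℤ) (B : ι → ℍ → ℂ) : Prop where
  mem : ∀ i, B i ∈ MFs H (w i)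
  gen : ∀ (k : ℤ), ∀ F ∈ MFs H k, ∃ (s : Finset ι) (r : ι → ℍ → ℂ),
    (∀ i, r i ∈ MFs ⊤ (k - w i)) ∧ F = ∑ i ∈ s, r i * B i
  indep : ∀ (k : ℤ) (s : Finset ι) (r : ι → ℍ → ℂ), (∀ i ∈ s, r i ∈ MFs ⊤ (k - w i)) →
    ∑ i ∈ s, r i * B i = 0 → ∀ i ∈ s, r i = 0

/-- A separating form: a modular form for `H` whose stabiliser in `SL(2,ℤ)` is exactly `H`. -/
def HasSep (H : Subgroup SL(2, ℤ)) : Prop :=
  ∃ (a : ℤ) (x : ℍ → ℂ), x ∈ MFs H a ∧ ∀ g : SL(2, ℤ), x ∣[a] g = x → g ∈ H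

/-- Diagonalisation data for the action of `T` on `ℂ^(Cos H)`: the columns of `C` are eigenvectors,
column `x` has eigenvalue `exp (2 π i m x / n)`, `0 ≤ m x < n`. -/
structure CuspData (H : Subgroup SL(2, ℤ)) [Fintype (Cos H)] [DecidableEq (Cos H)] where
  n : ℕ
  C : Matrix (Cos H) (Cos H) ℂ
  m : Cos H → ℕ
  n_pos : 0 < n
  det_ne : C.det ≠ 0
  m_lt : ∀ x, m x < n
  eig : ∀ a x, C (ModularGroup.T • a) x =
    Complex.exp (2 * Real.pi * Complex.I * (m x : ℂ) / (n : ℂ)) * C a x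

/-- The twisted vector `F̃_x(z) = e(-m_x z / n) ∑ₐ F_a(z) C_{a x}`; it is `1`-periodic in `z`. -/
noncomputable def tw {H : Subgroup SL(2, ℤ)} [Fintype (Cos H)] [DecidableEq (Cos H)]
    (d : CuspData H) (k : ℤ) (F : ℍ → ℂ) (z : ℍ) : Cos H → ℂ :=
  fun x => Complex.exp (-(2 * Real.pi * Complex.I * (d.m x : ℂ) * (z : ℂ) / (d.n : ℂ))) *
    ∑ a, vec H k F a z * d.C a x

/-- The value at `i∞` of the twisted vector. -/
noncomputable def Lam {H : Subgroup SL(2, ℤ)} [Fintype (Cos H)] [DecidableEq (Cos H)]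
    (d : CuspData H) (k : ℤ) (F : ℍ → ℂ) : Cos H → ℂ :=
  limUnder atImInfty (tw d k F)

end Fermat.Agent.S20
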