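import Fermat.Agent.S20.Defs
import Fermat.Agent.S20.FreeFam
import Fermat.Agent.S20.Serre

/-!
# S20, piece (P): `det (Mat H w B z) ^ 12 = c * Δ z ^ (∑ w)`; pointwise nonvanishing.
-/

set_option autoImplicit false

open UpperHalfPlane hiding I
open Real Complex Filter
open scoped Manifold MatrixGroups ModularForm Topology
open Derivative

namespace Fermat.Agent.S20

/-- The Serre derivative maps `MFs H k` to `MFs H (k+2)`. -/
theorem serre_mem_MFs {H : Subgroup SL(2, ℤ)} {k : ℤ} {F : ℍ → ℂ} (hF : F ∈ MFs H k) :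
    serreDerivative k F ∈ MFs H (k + 2) := by
  obtain ⟨h1, h2, h3⟩ := hF
  refine ⟨serreDerivative_mdifferentiable k h1, fun γ hγ => ?_, fun g => ?_⟩
  · exact serreDerivative_slash_invariant h1 (h2 γ hγ)
  · rw [serreDerivative_slash_equivariant h1]
    exact isBoundedAtImInfty_serreDerivative _ (h1.slash k _) (h3 g)

theorem vec_serre (H : Subgroup SL(2, ℤ)) {k : ℤ} {F : ℍ → ℂ} (hF : MDiff F) (x : Cos H) :
    vec H (k + 2) (serreDerivative k F) x = serreDerivative k (vec H k F x) :=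
  serreDerivative_slash_equivariant hF

theorem vec_mdiff (H : Subgroup SL(2, ℤ)) {k : ℤ} {F : ℍ → ℂ} (hF : MDiff F) (x : Cos H) :
    MDiff (vec H k F x) := hF.slash k _

theorem vec_mul_of_top (H : Subgroup SL(2, ℤ)) {a b c : ℤ} (hc : c = a + b) {r F : ℍ → ℂ}
    (hr : r ∈ MFs ⊤ a) (x : Cos H) : vec H c (r * F) x = r * vec H b F x := by
  subst hc
  rw [vec, ModularForm.mul_slash_SL2, hr.2.1 _ (Subgroup.mem_top _)]
  rfl

theorem vec_sum (H : Subgroup SL(2, ℤ)) {ι : Type} (k : ℤ) (s : Finset ι) (F : ι → ℍ → ℂ)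
    (x : Cos H) : vec H k (∑ i ∈ s, F i) x = ∑ i ∈ s, vec H k (F i) x := by
  simp only [vec, SlashAction.sum_slash]

theorem MFs_top_two_eq_zero {r : ℍ → ℂ} (hr : r ∈ MFs ⊤ 2) : r = 0 := by
  obtain ⟨F, rfl⟩ := exists_modularForm_of_mem_MFs_top hr
  have h := ModularForm.levelOne_weight_two_rank_zero
  rw [rank_zero_iff_forall_zero] at h
  rw [h F]
  rfl

/-- **(P)** for a generating family indexed by the cosets. Only `mem` and `gen` are used. -/
theorem det_Mat_pow_twelve {H : Subgroup SL(2, ℤ)} [Fintype (Cos H)] [DecidableEq (Cos H)]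
    {w : Cos H → ℤ} {B : Cos H → ℍ → ℂ} (hB : IsFam H w B) :
    ∃ c : ℂ, ∀ z, (Mat H w B z).det ^ 12 = c * ModularForm.discriminant z ^ (∑ i, w i) := by
  classical
  have hgen := fun i => hB.gen (w i + 2) _ (serre_mem_MFs (hB.mem i))
  choose s r hr hs using hgen
  refine det_pow_twelve w (fun i x => vec H (w i) (B i) x) (fun i x => vec_mdiff H (hB.mem i).1 x)
    (fun i j => if j ∈ s i then r i j else 0) (fun i => ?_) (fun i x => ?_)
  · split_ifs
    · exact MFs_top_two_eq_zero (by simpa using hr i i)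
    · rfl
  · rw [← vec_serre H (hB.mem i).1, hs i, vec_sum]
    simp only [ite_mul, zero_mul]
    rw [Finset.sum_ite_mem, Finset.univ_inter]
    exact Finset.sum_congr rfl (fun j _ => vec_mul_of_top H (by ring) (hr i j) x)

/-- Pointwise nonvanishing of the determinant. -/
theorem det_Mat_ne_zero {H : Subgroup SL(2, ℤ)} [Fintype (Cos H)] [DecidableEq (Cos H)]
    {w : Cos H → ℤ} {B : Cos H → ℍ → ℂ} (hB : IsFam H w B) {z₀ : ℍ}
    (h₀ : (Mat H w B z₀).det ≠ 0) (z : ℍ) : (Mat H w B z).det ≠ 0 := by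
  obtain ⟨c, hc⟩ := det_Mat_pow_twelve hB
  have hc0 : c ≠ 0 := by
    rintro rfl
    have := hc z₀
    rw [zero_mul] at this
    exact h₀ (pow_eq_zero_iff (by norm_num) |>.mp this)
  intro hz
  have := hc z
  rw [hz, zero_pow (by norm_num)] at this
  exact mul_ne_zero hc0 (zpow_ne_zero _ (ModularForm.discriminant_ne_zero z)) this.symm

end Fermat.Agent.S20
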