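import Fermat.Agent.S20.Defs
import Fermat.Agent.S20.FreeFam

/-!
# S20, pieces (D) duality and (E) elliptic points

Input: a family `B i ∈ MFs H (w i)` indexed by the cosets `Cos H` whose matrix `Mat H w B z` is
invertible at every point `z`, and such that `Δ · (Mat H w B)⁻¹ → 0` at `i∞`.
-/

set_option autoImplicit false

namespace Fermat.Agent.S20.Dual

open UpperHalfPlane ModularForm EisensteinSeries Filter Topology Matrix.SpecialLinearGroup
open scoped MatrixGroups Manifold

variable {H : Subgroup SL(2, ℤ)}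

section vec

variable {k : ℤ} {F : ℍ → ℂ}

lemma vec_mk (hF : ∀ γ ∈ H, F ∣[k] γ = F) (g : SL(2, ℤ)) :
    vec H k F (QuotientGroup.mk g) = F ∣[k] g⁻¹ := by
  obtain ⟨h, hh⟩ := QuotientGroup.mk_out_eq_mul H g
  unfold vec
  rw [hh, mul_inv_rev, SlashAction.slash_mul, hF _ (H.inv_mem h.2)]

lemma vec_slash (hF : ∀ γ ∈ H, F ∣[k] γ = F) (x : Cos H) (g : SL(2, ℤ)) :
    vec H k F x ∣[k] g = vec H k F (g⁻¹ • x) := by
  induction x using QuotientGroup.induction_on with
  | H a =>
    rw [vec_mk hF, ← SlashAction.slash_mul]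
    have : g⁻¹ • (QuotientGroup.mk a : Cos H) = QuotientGroup.mk (g⁻¹ * a) := rfl
    rw [this, vec_mk hF]
    congr 1
    group

lemma vec_one (hF : ∀ γ ∈ H, F ∣[k] γ = F) :
    vec H k F (QuotientGroup.mk 1) = F := by
  rw [vec_mk hF, inv_one, SlashAction.slash_one]

lemma vec_smul_apply (hF : ∀ γ ∈ H, F ∣[k] γ = F) (x : Cos H) (g : SL(2, ℤ)) (z : ℍ) :
    vec H k F x (g • z) = vec H k F (g⁻¹ • x) z * denom g z ^ k := by
  rw [← vec_slash hF, SL_slash_apply, mul_assoc, ← zpow_add₀ (denom_ne_zero g z)]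
  simp

lemma vec_mdiff (hF : MDiff F) (x : Cos H) : MDiff (vec H k F x) :=
  hF.slash k _

end vec

section det

variable {n : Type} [Fintype n] [DecidableEq n]

lemma mdiff_det (A : ℍ → Matrix n n ℂ) (hA : ∀ i j, MDiff (fun z => A z i j)) :
    MDiff (fun z => (A z).det) := by
  have h : (fun z => (A z).det) =
      ∑ σ : Equiv.Perm n, ((Equiv.Perm.sign σ : ℤ) : ℂ) • ∏ i, fun z => A z (σ i) i := by
    funext z
    rw [Matrix.det_apply]
    simp only [Finset.sum_apply, Pi.smul_apply, Finset.prod_apply]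
    refine Finset.sum_congr rfl fun σ _ => ?_
    rw [Units.smul_def, zsmul_eq_mul, smul_eq_mul]
  rw [h]
  apply MDifferentiable.sum
  intro e _
  apply MDifferentiable.const_smul
  apply MDifferentiable.prod
  intro i _
  exact hA (e i) i

lemma mdiff_inv (A : ℍ → Matrix n n ℂ) (hA : ∀ i j, MDiff (fun z => A z i j))
    (hdet : ∀ z, (A z).det ≠ 0) (i j : n) : MDiff (fun z => (A z)⁻¹ i j) := by
  have h : (fun z => (A z)⁻¹ i j) =
      (fun z => (A z).det)⁻¹ * fun z => ((A z).updateRow j (Pi.single i 1)).det := by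
    funext z
    rw [Matrix.inv_def, Matrix.smul_apply, Matrix.adjugate_apply, Ring.inverse_eq_inv']
    simp
  rw [h]
  refine ((mdiff_det A hA).inv hdet).mul (mdiff_det _ fun a b => ?_)
  by_cases hab : a = j
  · subst hab
    simp only [Matrix.updateRow_self]
    exact mdifferentiable_const
  · simp only [Matrix.updateRow_ne hab]
    exact hA a b

end det

section mat

variable [Fintype (Cos H)] [DecidableEq (Cos H)] {w : Cos H → ℤ} {B : Cos H → ℍ → ℂ}

omit [Fintype (Cos H)] [DecidableEq (Cos H)] in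
lemma Mat_smul (hB : ∀ i, B i ∈ MFs H (w i)) (g : SL(2, ℤ)) (z : ℍ) (i x : Cos H) :
    Mat H w B (g • z) i x = denom g z ^ (w i) * Mat H w B z i (g⁻¹ • x) := by
  unfold Mat
  rw [vec_smul_apply (hB i).2.1, mul_comm]

lemma Mat_inv_smul (hB : ∀ i, B i ∈ MFs H (w i)) (hdet : ∀ z, (Mat H w B z).det ≠ 0)
    (g : SL(2, ℤ)) (z : ℍ) (x i : Cos H) :
    (Mat H w B (g • z))⁻¹ x i = (Mat H w B z)⁻¹ (g⁻¹ • x) i * denom g z ^ (-w i) := by
  have key : (Mat H w B (g • z))⁻¹ =
      Matrix.of fun x i => (Mat H w B z)⁻¹ (g⁻¹ • x) i * denom g z ^ (-w i) := by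
    apply Matrix.inv_eq_left_inv
    ext x y
    rw [Matrix.mul_apply]
    have h1 : ∀ i, (Matrix.of fun x i => (Mat H w B z)⁻¹ (g⁻¹ • x) i *
        denom g z ^ (-w i)) x i * Mat H w B (g • z) i y =
        (Mat H w B z)⁻¹ (g⁻¹ • x) i * Mat H w B z i (g⁻¹ • y) := by
      intro i
      rw [Matrix.of_apply, Mat_smul hB]
      have hd := denom_ne_zero g z
      rw [zpow_neg]
      field_simp
    rw [Finset.sum_congr rfl fun i _ => h1 i, ← Matrix.mul_apply,
      Matrix.nonsing_inv_mul _ (isUnit_iff_ne_zero.mpr (hdet z))]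
    simp [Matrix.one_apply]
  rw [key, Matrix.of_apply]

omit [Fintype (Cos H)] [DecidableEq (Cos H)] in
lemma Mat_mdiff (hB : ∀ i, B i ∈ MFs H (w i)) (i x : Cos H) :
    MDiff (fun z => Mat H w B z i x) :=
  vec_mdiff (hB i).1 x

/-- **(E)** the trace identity at a fixed point. -/
theorem sum_denom_zpow_eq_card_fixed (hB : ∀ i, B i ∈ MFs H (w i)) (g : SL(2, ℤ)) (z : ℍ)
    (hdet : (Mat H w B z).det ≠ 0) (hz : g • z = z) :
    ∑ i, denom g z ^ (w i) = (Fintype.card {x : Cos H // g • x = x} : ℂ) := by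
  set A := Mat H w B z with hA
  set D : Matrix (Cos H) (Cos H) ℂ := Matrix.diagonal fun i => denom g z ^ (w i) with hD
  set P : Matrix (Cos H) (Cos H) ℂ := Matrix.of fun y x => if y = g • x then 1 else 0 with hP
  have h1 : A * P = D * A := by
    ext i x
    rw [Matrix.mul_apply, hD, Matrix.diagonal_mul]
    simp only [hP, Matrix.of_apply, mul_ite, mul_one, mul_zero, Finset.sum_ite_eq',
      Finset.mem_univ, if_true]
    have := Mat_smul hB g z i (g • x)
    rw [hz, inv_smul_smul] at this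
    exact this
  have hu : IsUnit A.det := isUnit_iff_ne_zero.mpr hdet
  have h2 : D = A * P * A⁻¹ := by
    rw [h1, Matrix.mul_assoc, Matrix.mul_nonsing_inv _ hu, Matrix.mul_one]
  have h3 : D.trace = P.trace := by
    rw [h2, Matrix.trace_mul_comm, ← Matrix.mul_assoc, Matrix.nonsing_inv_mul _ hu,
      Matrix.one_mul]
  have h4 : D.trace = ∑ i, denom g z ^ (w i) := by
    rw [hD, Matrix.trace_diagonal]
  have h5 : P.trace = (Fintype.card {x : Cos H // g • x = x} : ℂ) := by
    simp only [Matrix.trace, Matrix.diag_apply, hP, Matrix.of_apply]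
    rw [Finset.sum_ite, Finset.sum_const_zero, add_zero, Finset.sum_const, nsmul_eq_mul, mul_one,
      Fintype.card_subtype]
    congr 2
    ext x
    simp [eq_comm]
  rw [← h4, h3, h5]

/-- **(E)** the trace identity at a fixed point, negative exponents. -/
theorem sum_denom_zpow_neg_eq_card_fixed (hB : ∀ i, B i ∈ MFs H (w i)) (g : SL(2, ℤ)) (z : ℍ)
    (hdet : (Mat H w B z).det ≠ 0) (hz : g • z = z) :
    ∑ i, denom g z ^ (-w i) = (Fintype.card {x : Cos H // g • x = x} : ℂ) := by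
  set A := Mat H w B z with hA
  set D : Matrix (Cos H) (Cos H) ℂ := Matrix.diagonal fun i => denom g z ^ (-w i) with hD
  set P : Matrix (Cos H) (Cos H) ℂ := Matrix.of fun y x => if y = g⁻¹ • x then 1 else 0 with hP
  have h1 : A * P = D * A := by
    ext i x
    rw [Matrix.mul_apply, hD, Matrix.diagonal_mul]
    simp only [hP, Matrix.of_apply, mul_ite, mul_one, mul_zero, Finset.sum_ite_eq',
      Finset.mem_univ, if_true]
    have := Mat_smul hB g z i x
    rw [hz] at this
    rw [hA, this, ← mul_assoc, ← zpow_add₀ (denom_ne_zero g z)]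
    simp
  have hu : IsUnit A.det := isUnit_iff_ne_zero.mpr hdet
  have h2 : D = A * P * A⁻¹ := by
    rw [h1, Matrix.mul_assoc, Matrix.mul_nonsing_inv _ hu, Matrix.mul_one]
  have h3 : D.trace = P.trace := by
    rw [h2, Matrix.trace_mul_comm, ← Matrix.mul_assoc, Matrix.nonsing_inv_mul _ hu,
      Matrix.one_mul]
  have h4 : D.trace = ∑ i, denom g z ^ (-w i) := by
    rw [hD, Matrix.trace_diagonal]
  have h5 : P.trace = (Fintype.card {x : Cos H // g • x = x} : ℂ) := by
    simp only [Matrix.trace, Matrix.diag_apply, hP, Matrix.of_apply]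
    rw [Finset.sum_ite, Finset.sum_const_zero, add_zero, Finset.sum_const, nsmul_eq_mul, mul_one,
      Fintype.card_subtype]
    congr 2
    ext x
    simp [eq_inv_smul_iff]
  rw [← h4, h3, h5]

end mat

section levelOne

/-- The linear equivalence between Mathlib's level one forms and `MFs ⊤`. -/
noncomputable def equivTop (m : ℤ) : ModularForm 𝒮ℒ m ≃ₗ[ℂ] MFs ⊤ m :=
  LinearEquiv.ofBijective
    { toFun := fun F => ⟨⇑F, mf_coe_mem_MFs_top F⟩
      map_add' := fun _ _ => rfl
      map_smul' := fun _ _ => rfl }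
    ⟨fun F G h => DFunLike.coe_injective (congrArg Subtype.val h), fun f => by
      obtain ⟨F, hF⟩ := exists_modularForm_of_mem_MFs_top f.2
      exact ⟨F, Subtype.ext hF⟩⟩

instance (m : ℤ) : FiniteDimensional ℂ (MFs ⊤ m) := (equivTop m).finiteDimensional

lemma finrank_MFs_top_of_le_one {m : ℤ} (hm : m ≤ 1) :
    Module.finrank ℂ (MFs ⊤ m) = if m = 0 then 1 else 0 := by
  rw [← (equivTop m).finrank_eq]
  rcases lt_trichotomy m 0 with h | rfl | h
  · rw [if_neg h.ne]
    exact Module.finrank_eq_of_rank_eq (by simpa using levelOne_neg_weight_rank_zero h)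
  · rw [if_pos rfl]
    exact Module.finrank_eq_of_rank_eq (by simpa using levelOne_weight_zero_rank_one)
  · obtain rfl : m = 1 := by omega
    rw [if_neg one_ne_zero]
    exact Module.finrank_eq_of_rank_eq
      (by simpa using levelOne_odd_weight_rank_zero (k := 1) odd_one)

lemma exists_eq_discriminant_mul {m : ℤ} {r : ℍ → ℂ} (hr : r ∈ MFs ⊤ m)
    (h0 : Tendsto r atImInfty (𝓝 0)) : ∃ G ∈ MFs ⊤ (m - 12), r = discriminant * G := by
  obtain ⟨F, rfl⟩ := exists_modularForm_of_mem_MFs_top hr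
  have hc : (qExpansion 1 F).coeff 0 = 0 := tendsto_nhds_unique (tendsto_levelOne F) h0
  refine ⟨⇑(CuspForm.discriminantEquiv (toCuspForm F hc)), mf_coe_mem_MFs_top _, ?_⟩
  exact (discriminant_mul_discriminantEquiv (toCuspForm F hc)).symm

lemma discriminant_smul (g : SL(2, ℤ)) (z : ℍ) :
    discriminant (g • z) = discriminant z * denom g z ^ (12 : ℤ) := by
  have h := congrFun (CuspForm.discriminant.slash_action_eq' _ ⟨g, rfl⟩) z
  have h2 : (⇑CuspForm.discriminant ∣[(12 : ℤ)] g) z = discriminant z := h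
  rw [SL_slash_apply] at h2
  have hd := denom_ne_zero g z
  rw [← h2, mul_assoc, ← zpow_add₀ hd]
  simp

end levelOne

section dual

variable [Fintype (Cos H)] [DecidableEq (Cos H)] {w : Cos H → ℤ} {B : Cos H → ℍ → ℂ}

/-- The functions `Δ · (Mat⁻¹)_{x,i}`. -/
noncomputable def dualF (w : Cos H → ℤ) (B : Cos H → ℍ → ℂ) (x i : Cos H) : ℍ → ℂ :=
  fun z => discriminant z * (Mat H w B z)⁻¹ x i

lemma dualF_slash (hB : ∀ i, B i ∈ MFs H (w i)) (hdet : ∀ z, (Mat H w B z).det ≠ 0)
    (x i : Cos H) (g : SL(2, ℤ)) :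
    dualF w B x i ∣[12 - w i] g = dualF w B (g⁻¹ • x) i := by
  funext z
  rw [SL_slash_apply]
  unfold dualF
  rw [discriminant_smul, Mat_inv_smul hB hdet]
  have hd := denom_ne_zero g z
  have : denom g z ^ (12 : ℤ) * denom g z ^ (-w i) * denom g z ^ (-(12 - w i)) = 1 := by
    rw [← zpow_add₀ hd, ← zpow_add₀ hd]
    have : (12 : ℤ) + -w i + -(12 - w i) = 0 := by ring
    rw [this, zpow_zero]
  linear_combination (discriminant z * (Mat H w B z)⁻¹ (g⁻¹ • x) i) * this

lemma dualF_mdiff (hB : ∀ i, B i ∈ MFs H (w i)) (hdet : ∀ z, (Mat H w B z).det ≠ 0)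
    (x i : Cos H) : MDiff (dualF w B x i) :=
  CuspForm.discriminant.holo'.mul (mdiff_inv _ (Mat_mdiff hB) hdet x i)

/-- The dual cusp forms. -/
lemma dualF_mem_CFs (hB : ∀ i, B i ∈ MFs H (w i)) (hdet : ∀ z, (Mat H w B z).det ≠ 0)
    (hQ : ∀ x i, Tendsto (dualF w B x i) atImInfty (𝓝 0)) (i : Cos H) :
    dualF w B (QuotientGroup.mk 1) i ∈ CFs H (12 - w i) := by
  refine ⟨dualF_mdiff hB hdet _ i, fun γ hγ => ?_, fun g => ?_⟩
  · rw [dualF_slash hB hdet]
    congr 1
    have : γ⁻¹ • (QuotientGroup.mk 1 : Cos H) = QuotientGroup.mk (γ⁻¹ * 1) := rfl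
    rw [this, QuotientGroup.eq]
    simpa using hγ
  · rw [dualF_slash hB hdet]
    exact hQ _ i

omit [Fintype (Cos H)] [DecidableEq (Cos H)] in
lemma MFs_top_mul_CFs {a b : ℤ} {r f : ℍ → ℂ} (hr : r ∈ MFs ⊤ a) (hf : f ∈ CFs H b) :
    r * f ∈ CFs H (a + b) := by
  refine ⟨hr.1.mul hf.1, fun γ hγ => ?_, fun g => ?_⟩
  · rw [mul_slash_SL2, hr.2.1 γ trivial, hf.2.1 γ hγ]
  · rw [mul_slash_SL2]
    exact BoundedAtFilter.mul_zeroAtFilter (hr.2.2 g) (hf.2.2 g)

omit [DecidableEq (Cos H)] in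
/-- The trace pairing of a cusp form and a modular form is a level one cusp form. -/
lemma trace_mul_mem {k a : ℤ} {s b : ℍ → ℂ} (hs : s ∈ CFs H k) (hb : b ∈ MFs H a) :
    (∑ y, vec H k s y * vec H a b y) ∈ MFs ⊤ (k + a) ∧
      Tendsto (∑ y, vec H k s y * vec H a b y) atImInfty (𝓝 0) := by
  have hinv : ∀ g : SL(2, ℤ), (∑ y, vec H k s y * vec H a b y) ∣[k + a] g =
      ∑ y, vec H k s y * vec H a b y := by
    intro g
    rw [SlashAction.sum_slash]
    simp_rw [mul_slash_SL2, vec_slash hs.2.1, vec_slash hb.2.1]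
    exact Equiv.sum_comp (MulAction.toPerm g⁻¹) fun y => vec H k s y * vec H a b y
  have hlim : Tendsto (∑ y, vec H k s y * vec H a b y) atImInfty (𝓝 0) := by
    have h1 : ∀ y ∈ (Finset.univ : Finset (Cos H)),
        Tendsto (vec H k s y * vec H a b y) atImInfty (𝓝 0) := fun y _ =>
      ZeroAtFilter.mul_boundedAtFilter (hs.2.2 _) (hb.2.2 _)
    have h2 := tendsto_finsetSum _ h1
    simp only [Finset.sum_const_zero] at h2
    convert h2 using 1
    funext z
    simp
  refine ⟨⟨?_, fun g _ => hinv g, fun g => ?_⟩, hlim⟩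
  · apply MDifferentiable.sum
    intro y _
    exact (vec_mdiff hs.1 y).mul (vec_mdiff hb.1 y)
  · rw [hinv g]
    exact ZeroAtFilter.boundedAtFilter hlim

/-- The map `(r i) ↦ ∑ r i * G i`. -/
noncomputable def dualMap (hB : ∀ i, B i ∈ MFs H (w i))
    (hdet : ∀ z, (Mat H w B z).det ≠ 0)
    (hQ : ∀ x i, Tendsto (dualF w B x i) atImInfty (𝓝 0)) (k : ℤ) :
    (∀ i, MFs ⊤ (k + w i - 12)) →ₗ[ℂ] CFs H k where
  toFun r := ⟨∑ i, (r i : ℍ → ℂ) * dualF w B (QuotientGroup.mk 1) i, by
    refine Submodule.sum_mem _ fun i _ => ?_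
    have := MFs_top_mul_CFs (r i).2 (dualF_mem_CFs hB hdet hQ i)
    have e : k + w i - 12 + (12 - w i) = k := by ring
    rwa [e] at this⟩
  map_add' r r' := by
    apply Subtype.ext
    simp [add_mul, Finset.sum_add_distrib]
  map_smul' c r := by
    apply Subtype.ext
    simp [Finset.smul_sum]

lemma dualMap_injective (hB : ∀ i, B i ∈ MFs H (w i))
    (hdet : ∀ z, (Mat H w B z).det ≠ 0)
    (hQ : ∀ x i, Tendsto (dualF w B x i) atImInfty (𝓝 0)) (k : ℤ) :
    Function.Injective (dualMap hB hdet hQ k) := by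
  rw [injective_iff_map_eq_zero]
  intro r hr
  have h0 : ∑ i, (r i : ℍ → ℂ) * dualF w B (QuotientGroup.mk 1) i = 0 :=
    congrArg Subtype.val hr
  -- all conjugates vanish
  have h1 : ∀ x : Cos H, ∑ i, (r i : ℍ → ℂ) * dualF w B x i = 0 := by
    intro x
    induction x using QuotientGroup.induction_on with
    | H g =>
      have h2 := congrArg (fun f => f ∣[k] g⁻¹) h0
      simp only [SlashAction.zero_slash, SlashAction.sum_slash] at h2
      rw [← h2]
      refine Finset.sum_congr rfl fun i _ => ?_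
      have e : k + w i - 12 + (12 - w i) = k := by ring
      have h3 := mul_slash_SL2 (k + w i - 12) (12 - w i) g⁻¹ (r i : ℍ → ℂ)
        (dualF w B (QuotientGroup.mk 1) i)
      rw [e, (r i).2.2.1 _ trivial, dualF_slash hB hdet] at h3
      rw [h3]
      congr 2
      simp only [inv_inv]
      have : g • (QuotientGroup.mk 1 : Cos H) = QuotientGroup.mk (g * 1) := rfl
      rw [this, mul_one]
  funext i
  apply Subtype.ext
  funext z
  -- `(Mat z)⁻¹` applied to the vector `r i z` vanishes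
  have h3 : (Mat H w B z)⁻¹.mulVec (fun i => (r i : ℍ → ℂ) z) = 0 := by
    funext x
    have h4 := congrFun (h1 x) z
    simp only [Finset.sum_apply, Pi.mul_apply, dualF, Pi.zero_apply] at h4
    have h5 : discriminant z * ∑ i, (Mat H w B z)⁻¹ x i * (r i : ℍ → ℂ) z = 0 := by
      rw [← h4, Finset.mul_sum]
      refine Finset.sum_congr rfl fun i _ => ?_
      ring
    simpa [Matrix.mulVec, dotProduct] using
      (mul_eq_zero.mp h5).resolve_left (discriminant_ne_zero z)
  have hu : IsUnit (Mat H w B z).det := isUnit_iff_ne_zero.mpr (hdet z)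
  have h6 := congrArg (Mat H w B z).mulVec h3
  rw [Matrix.mulVec_mulVec, Matrix.mul_nonsing_inv _ hu, Matrix.one_mulVec,
    Matrix.mulVec_zero] at h6
  exact congrFun h6 i

lemma dualMap_surjective (hB : ∀ i, B i ∈ MFs H (w i))
    (hdet : ∀ z, (Mat H w B z).det ≠ 0)
    (hQ : ∀ x i, Tendsto (dualF w B x i) atImInfty (𝓝 0)) (k : ℤ) :
    Function.Surjective (dualMap hB hdet hQ k) := by
  rintro ⟨s, hs⟩
  have h1 : ∀ i, ∃ G ∈ MFs ⊤ (k + w i - 12),
      ∑ y, vec H k s y * vec H (w i) (B i) y = discriminant * G := fun i =>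
    exists_eq_discriminant_mul (trace_mul_mem hs (hB i)).1 (trace_mul_mem hs (hB i)).2
  choose G hG hGs using h1
  refine ⟨fun i => ⟨G i, hG i⟩, Subtype.ext ?_⟩
  show ∑ i, G i * dualF w B (QuotientGroup.mk 1) i = s
  funext z
  have hu : IsUnit (Mat H w B z).det := isUnit_iff_ne_zero.mpr (hdet z)
  simp only [Finset.sum_apply, Pi.mul_apply, dualF]
  have h2 : ∀ i, G i z * (discriminant z * (Mat H w B z)⁻¹ (QuotientGroup.mk 1) i) =
      ∑ y, vec H k s y z * ((Mat H w B z)⁻¹ (QuotientGroup.mk 1) i * Mat H w B z i y) := by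
    intro i
    have h3 := congrFun (hGs i) z
    simp only [Finset.sum_apply, Pi.mul_apply] at h3
    calc G i z * (discriminant z * (Mat H w B z)⁻¹ (QuotientGroup.mk 1) i)
        = (discriminant z * G i z) * (Mat H w B z)⁻¹ (QuotientGroup.mk 1) i := by ring
      _ = _ := by
        rw [← h3, Finset.sum_mul]
        refine Finset.sum_congr rfl fun y _ => ?_
        simp only [Mat]
        ring
  rw [Finset.sum_congr rfl fun i _ => h2 i, Finset.sum_comm]
  simp_rw [← Finset.mul_sum, ← Matrix.mul_apply, Matrix.nonsing_inv_mul _ hu, Matrix.one_apply]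
  simp only [mul_ite, mul_one, mul_zero, Finset.sum_ite_eq, Finset.mem_univ, if_true]
  rw [vec_one hs.2.1]

/-- **(D)** `CFs H k ≃ ∏ i, MFs ⊤ (k + w i - 12)`. -/
noncomputable def dualEquiv (hB : ∀ i, B i ∈ MFs H (w i))
    (hdet : ∀ z, (Mat H w B z).det ≠ 0)
    (hQ : ∀ x i, Tendsto (dualF w B x i) atImInfty (𝓝 0)) (k : ℤ) :
    (∀ i, MFs ⊤ (k + w i - 12)) ≃ₗ[ℂ] CFs H k :=
  LinearEquiv.ofBijective (dualMap hB hdet hQ k)
    ⟨dualMap_injective hB hdet hQ k, dualMap_surjective hB hdet hQ k⟩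

theorem finrank_CFs (hB : ∀ i, B i ∈ MFs H (w i))
    (hdet : ∀ z, (Mat H w B z).det ≠ 0)
    (hQ : ∀ x i, Tendsto (dualF w B x i) atImInfty (𝓝 0)) (k : ℤ) :
    Module.finrank ℂ (CFs H k) = ∑ i, Module.finrank ℂ (MFs ⊤ (k + w i - 12)) := by
  rw [← (dualEquiv hB hdet hQ k).finrank_eq, Module.finrank_pi_fintype]

end dual

section bridge

variable (H) [H.FiniteIndex]

/-- Mathlib's cusp forms versus `CFs`. -/
noncomputable def equivCFs (k : ℤ) : CuspForm (H : Subgroup (GL (Fin 2) ℝ)) k ≃ₗ[ℂ] CFs H k :=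
  LinearEquiv.ofBijective
    { toFun := fun F => ⟨⇑F, F.holo', fun γ hγ => F.slash_action_eq' _ ⟨γ, hγ, rfl⟩,
        fun g => CuspFormClass.zero_at_infty_slash F g⟩
      map_add' := fun _ _ => rfl
      map_smul' := fun _ _ => rfl }
    ⟨fun F G h => DFunLike.coe_injective (congrArg Subtype.val h), fun f => by
      obtain ⟨f, h1, h2, h3⟩ := f
      refine ⟨{ toFun := f, slash_action_eq' := ?_, holo' := h1, zero_at_cusps' := ?_ }, rfl⟩
      · rintro _ ⟨γ, hγ, rfl⟩
        exact h2 γ hγ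
      · intro c hc
        rw [Subgroup.IsArithmetic.isCusp_iff_isCusp_SL2Z] at hc
        rw [OnePoint.isZeroAt_iff_forall_SL2Z hc]
        exact fun γ _ => h3 γ⟩

omit [H.FiniteIndex] in
lemma CFs_le_MFs (k : ℤ) : CFs H k ≤ MFs H k := fun _ hf =>
  ⟨hf.1, hf.2.1, fun g => ZeroAtFilter.boundedAtFilter (hf.2.2 g)⟩

lemma CFs_eq_bot_of_nonpos {k : ℤ} (hk : k ≤ 0) : CFs H k = ⊥ := by
  rw [eq_bot_iff]
  intro f hf
  rcases hk.lt_or_eq with hk | rfl
  · have := CFs_le_MFs H k hf
    rwa [(regData_MFs H).M_neg k hk] at this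
  · obtain ⟨F, rfl⟩ := exists_modularForm_of_mem_MFs (CFs_le_MFs H 0 hf)
    obtain ⟨c, hc⟩ := eq_const_of_weight_zero F
    have h0 : Tendsto (⇑F : ℍ → ℂ) atImInfty (𝓝 0) := by
      have := hf.2.2 1
      rwa [SlashAction.slash_one] at this
    rw [hc] at h0 ⊢
    have : c = 0 := tendsto_nhds_unique tendsto_const_nhds h0
    rw [this]
    rfl

end bridge

section final

variable [H.FiniteIndex] [Fintype (Cos H)] [DecidableEq (Cos H)] {w : Cos H → ℤ}
  {B : Cos H → ℍ → ℂ}

/-- The weights of the basis are at most `11`. -/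
theorem weight_le (hB : ∀ i, B i ∈ MFs H (w i)) (hdet : ∀ z, (Mat H w B z).det ≠ 0)
    (hQ : ∀ x i, Tendsto (dualF w B x i) atImInfty (𝓝 0)) (i : Cos H) : w i ≤ 11 := by
  by_contra hcon
  push Not at hcon
  have h1 := dualF_mem_CFs hB hdet hQ i
  rw [CFs_eq_bot_of_nonpos H (by omega)] at h1
  have h2 : dualF w B (QuotientGroup.mk 1) i = 0 := h1
  have h3 : ∀ x : Cos H, dualF w B x i = 0 := by
    intro x
    induction x using QuotientGroup.induction_on with
    | H g =>
      have h4 := dualF_slash hB hdet (QuotientGroup.mk 1) i g⁻¹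
      rw [h2, SlashAction.zero_slash, inv_inv] at h4
      have : g • (QuotientGroup.mk 1 : Cos H) = QuotientGroup.mk (g * 1) := rfl
      rw [this, mul_one] at h4
      exact h4.symm
  have hu : IsUnit (Mat H w B I).det := isUnit_iff_ne_zero.mpr (hdet I)
  have h5 := congrFun (congrFun (Matrix.mul_nonsing_inv _ hu) i) i
  rw [Matrix.mul_apply, Matrix.one_apply_eq] at h5
  have h6 : ∀ x, (Mat H w B I)⁻¹ x i = 0 := by
    intro x
    have := congrFun (h3 x) I
    simp only [dualF, Pi.zero_apply] at this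
    exact (mul_eq_zero.mp this).resolve_left (discriminant_ne_zero I)
  simp [h6] at h5

/-- **(D)** `dim S₂(H) = #{i | w i = 10}`. -/
theorem finrank_CFs_two (hB : ∀ i, B i ∈ MFs H (w i))
    (hdet : ∀ z, (Mat H w B z).det ≠ 0)
    (hQ : ∀ x i, Tendsto (dualF w B x i) atImInfty (𝓝 0)) :
    Module.finrank ℂ (CFs H 2) = (Finset.univ.filter fun i => w i = 10).card := by
  rw [finrank_CFs hB hdet hQ, Finset.card_filter]
  refine Finset.sum_congr rfl fun i _ => ?_
  rw [finrank_MFs_top_of_le_one (by have := weight_le hB hdet hQ i; omega)]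
  congr 1
  apply propext
  constructor <;> intro h <;> omega

theorem finrank_cuspForm_two (hB : ∀ i, B i ∈ MFs H (w i))
    (hdet : ∀ z, (Mat H w B z).det ≠ 0)
    (hQ : ∀ x i, Tendsto (dualF w B x i) atImInfty (𝓝 0)) :
    Module.finrank ℂ (CuspForm (H : Subgroup (GL (Fin 2) ℝ)) 2) =
      (Finset.univ.filter fun i => w i = 10).card := by
  rw [(equivCFs H 2).finrank_eq, finrank_CFs_two hB hdet hQ]

end final

end Fermat.Agent.S20.Dual
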