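import Fermat.Agent.S20.FreeFam

/-!
# S20, piece B: `⨁ MFs H k` is free over `⨁ MFs ⊤ k = ℂ[E₄, E₆]`

The work is done in `GradedFree.lean` (graded Nakayama), `FreeCore.lean` (regular sequence) and
`FreeFam.lean` (translation to the conventions of `Defs.lean`).
-/

set_option autoImplicit false

namespace Fermat.Agent.S20

open UpperHalfPlane ModularForm Filter Topology EisensteinSeries
open scoped MatrixGroups Manifold ModularForm

variable {H : Subgroup SL(2, ℤ)} {k : ℤ}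

/-- (B2) `(E₄, E₆)` is a regular sequence. -/
theorem regular {f g : ℍ → ℂ} (hf : f ∈ MFs H k) (hg : g ∈ MFs H (k + 2))
    (hfg : (⇑E₆ : ℍ → ℂ) * f = ⇑E₄ * g) : ∃ h ∈ MFs H (k - 4), f = ⇑E₄ * h := by
  classical
  obtain ⟨hf2, hf1, hf3⟩ := hf
  obtain ⟨hg2, hg1, hg3⟩ := hg
  set h : ℍ → ℂ := fun z => if E₄ z ≠ 0 then f z / E₄ z else g z / E₆ z with hh
  have h4 : f = ⇑E₄ * h := by
    funext z
    by_cases hz : E₄ z ≠ 0
    · simp only [hh, Pi.mul_apply, if_pos hz]
      field_simp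
    · have hz' : E₄ z = 0 := not_not.mp hz
      have hz6 : E₆ z ≠ 0 := (E₄_or_E₆_ne_zero z).resolve_left hz
      have := congrFun hfg z
      simp only [Pi.mul_apply, hz', zero_mul] at this
      simp only [Pi.mul_apply, hz', zero_mul]
      exact (mul_eq_zero.mp this).resolve_left hz6
  have h6 : g = ⇑E₆ * h := by
    funext z
    by_cases hz : E₄ z ≠ 0
    · have := congrFun hfg z
      simp only [Pi.mul_apply] at this
      simp only [hh, Pi.mul_apply, if_pos hz]
      field_simp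
      linear_combination -this
    · have hz6 : E₆ z ≠ 0 := (E₄_or_E₆_ne_zero z).resolve_left hz
      simp only [hh, Pi.mul_apply, if_neg hz]
      field_simp
  have hslash : ∀ γ : SL(2, ℤ), ⇑E₄ * (h ∣[k - 4] γ) = f ∣[k] γ ∧
      ⇑E₆ * (h ∣[k - 4] γ) = g ∣[k + 2] γ := by
    intro γ
    have e4 : (⇑E₄ : ℍ → ℂ) ∣[(4 : ℤ)] γ = ⇑E₄ := E₄.slash_action_eq' _ ⟨γ, rfl⟩
    have e6 : (⇑E₆ : ℍ → ℂ) ∣[(6 : ℤ)] γ = ⇑E₆ := E₆.slash_action_eq' _ ⟨γ, rfl⟩
    constructor
    · have := mul_slash_SL2 4 (k - 4) γ ⇑E₄ h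
      rw [e4, ← h4] at this
      rw [← this]; congr 1; ring
    · have := mul_slash_SL2 6 (k - 4) γ ⇑E₆ h
      rw [e6, ← h6] at this
      rw [← this]; congr 1; ring
  refine ⟨h, ⟨?_, fun γ hγ => ?_, fun γ => ?_⟩, h4⟩
  · intro z
    rcases E₄_or_E₆_ne_zero z with hz | hz
    · have hev : ∀ᶠ u in 𝓝 z, E₄ u ≠ 0 :=
        (ModularFormClass.continuous E₄).continuousAt.eventually_ne hz
      have : h =ᶠ[𝓝 z] fun u => f u / E₄ u := by
        filter_upwards [hev] with u hu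
        simp only [hh, if_pos hu]
      exact ((hf2 z).div (E₄.holo' z) hz).congr_of_eventuallyEq this
    · have hev : ∀ᶠ u in 𝓝 z, E₆ u ≠ 0 :=
        (ModularFormClass.continuous E₆).continuousAt.eventually_ne hz
      have : h =ᶠ[𝓝 z] fun u => g u / E₆ u := by
        filter_upwards [hev] with u hu
        rw [h6]
        simp only [Pi.mul_apply]
        field_simp
      exact ((hg2 z).div (E₆.holo' z) hz).congr_of_eventuallyEq this
  · apply eq_of_E₄_mul_eq_of_E₆_mul_eq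
    · rw [(hslash γ).1, hf1 γ hγ, ← h4]
    · rw [(hslash γ).2, hg1 γ hγ, ← h6]
  · -- boundedness at `i∞`
    have hb := hf3 γ
    rw [← (hslash γ).1] at hb
    have hE : Tendsto (⇑E₄ : ℍ → ℂ) atImInfty (𝓝 1) := Fermat.Agent.S23.sep_E₄_tendsto
    have hinv : Tendsto (fun z => (E₄ z)⁻¹) atImInfty (𝓝 1) := by
      simpa using hE.inv₀ one_ne_zero
    have hbinv : IsBoundedAtImInfty (fun z => (E₄ z)⁻¹) := hinv.isBigO_one ℝ
    have hne : ∀ᶠ z in atImInfty, E₄ z ≠ 0 := hE.eventually_ne one_ne_zero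
    have hprod : IsBoundedAtImInfty ((fun z => (E₄ z)⁻¹) * (⇑E₄ * (h ∣[k - 4] γ))) :=
      hbinv.mul hb
    refine Asymptotics.IsBigO.congr' hprod ?_ EventuallyEq.rfl
    filter_upwards [hne] with z hz
    simp only [Pi.mul_apply]
    field_simp

/-- (B3) graded Nakayama: a homogeneous basis exists (index type possibly infinite at this
stage). -/
theorem exists_fam (H : Subgroup SL(2, ℤ)) [H.FiniteIndex] :
    ∃ (ι : Type) (w : ι → ℤ) (B : ι → ℍ → ℂ), IsFam H w B := by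
  obtain ⟨ι, w, B, h, -⟩ := exists_isFam H
  exact ⟨ι, w, B, h⟩

end Fermat.Agent.S20
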