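import Mathlib

/-!
# S20, piece (B3): graded Nakayama / regular sequences give freeness

Abstract algebra.  `A` is a commutative algebra over a field `K` (in the application the algebra
of all functions `ℍ → ℂ`), `M w`, `R w` (`w : ℤ`) are `K`-subspaces of `A` (modular forms of
weight `w` for `Γ`, resp. for `SL₂(ℤ)`), `x, y : A` (`E₄`, `E₆`).  If `x, y` is a regular
sequence on `M` then any family `F i ∈ M (k i)` whose classes form a basis of
`M w / (x M (w-4) + y M (w-6))` for every `w` is a free homogeneous basis of `M` over `R`.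
-/

set_option autoImplicit false

namespace Fermat.Agent.S20

open Submodule

universe u v

variable {K : Type u} {A : Type v} [Field K] [CommRing A] [Algebra K A]

/-- The decomposable part `x M (w-4) + y M (w-6)` in weight `w`. -/
def decomp (M : ℤ → Submodule K A) (x y : A) (w : ℤ) : Submodule K A :=
  (M (w - 4)).map (LinearMap.mulLeft K x) ⊔ (M (w - 6)).map (LinearMap.mulLeft K y)

lemma mem_decomp {M : ℤ → Submodule K A} {x y : A} {w : ℤ} {f : A} :
    f ∈ decomp M x y w ↔ ∃ g ∈ M (w - 4), ∃ h ∈ M (w - 6), f = x * g + y * h := by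
  unfold decomp
  rw [Submodule.mem_sup]
  constructor
  · rintro ⟨_, ⟨g, hg, rfl⟩, _, ⟨h, hh, rfl⟩, rfl⟩
    exact ⟨g, hg, h, hh, rfl⟩
  · rintro ⟨g, hg, h, hh, rfl⟩
    exact ⟨_, ⟨g, hg, rfl⟩, _, ⟨h, hh, rfl⟩, rfl⟩

/-- The hypotheses on the graded pieces. -/
structure RegData (M R : ℤ → Submodule K A) (x y : A) : Prop where
  M_neg : ∀ w : ℤ, w < 0 → M w = ⊥
  R_neg : ∀ w : ℤ, w < 0 → R w = ⊥
  one_mem : (1 : A) ∈ R 0
  x_mem : x ∈ R 4
  y_mem : y ∈ R 6
  R_mul_R : ∀ (a b : ℤ) (r s : A), r ∈ R a → s ∈ R b → r * s ∈ R (a + b)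
  R_mul_M : ∀ (a b : ℤ) (r f : A), r ∈ R a → f ∈ M b → r * f ∈ M (a + b)
  /-- `x` is a nonzerodivisor on `M`. -/
  reg_x : ∀ (w : ℤ) (f : A), f ∈ M w → x * f = 0 → f = 0
  /-- `y` is a nonzerodivisor on `M / x M`. -/
  reg_y : ∀ (w : ℤ) (f g : A), f ∈ M w → g ∈ M (w + 2) → y * f = x * g →
    ∃ h ∈ M (w - 4), f = x * h
  /-- `R` is generated by `x` and `y`. -/
  R_decomp : ∀ (w : ℤ) (r : A), r ∈ R w → ∃ (α : K), ∃ r' ∈ R (w - 6), ∃ b ∈ R (w - 4),
    r = α • (1 : A) + y * r' + x * b ∧ (w ≠ 0 → α = 0)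

/-- A family of homogeneous elements whose classes form a basis of `M / (x M + y M)`. -/
structure IsMinGen (M : ℤ → Submodule K A) (x y : A) {ι : Type*} (k : ι → ℤ) (F : ι → A) :
    Prop where
  mem : ∀ i, F i ∈ M (k i)
  span : ∀ w : ℤ, M w ≤ Submodule.span K (F '' {i | k i = w}) ⊔ decomp M x y w
  indep : ∀ w : ℤ, LinearIndependent K
    (fun i : {i : ι // k i = w} => (decomp M x y w).mkQ (F i))

section exist

variable (M : ℤ → Submodule K A) (x y : A)

/-- Minimal homogeneous generators exist. -/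
theorem exists_isMinGen :
    ∃ (ι : Type v) (k : ι → ℤ) (F : ι → A), IsMinGen M x y k F := by
  classical
  -- for each `w`, a basis of the image of `M w` in the quotient
  let Q : ∀ w : ℤ, Submodule K (A ⧸ decomp M x y w) := fun w => (M w).map (decomp M x y w).mkQ
  let I : ℤ → Type _ := fun w => Module.Basis.ofVectorSpaceIndex K (Q w)
  let B : ∀ w, Module.Basis (I w) K (Q w) := fun w => Module.Basis.ofVectorSpace K (Q w)
  have hlift : ∀ w (b : I w), ∃ f ∈ M w, (decomp M x y w).mkQ f = (B w b : A ⧸ decomp M x y w) := by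
    intro w b
    obtain ⟨f, hf, hfb⟩ := (B w b).2
    exact ⟨f, hf, hfb⟩
  choose L hL hLB using hlift
  refine ⟨Σ w, I w, fun i => i.1, fun i => L i.1 i.2, ⟨fun i => hL i.1 i.2, ?_, ?_⟩⟩
  · intro w f hf
    -- the class of `f` is a combination of the basis
    have h1 : (⟨(decomp M x y w).mkQ f, ⟨f, hf, rfl⟩⟩ : Q w) ∈
        Submodule.span K (Set.range (B w)) := by
      rw [(B w).span_eq]; trivial
    have h2 : (decomp M x y w).mkQ f ∈ Submodule.span K
        ((decomp M x y w).mkQ '' ((fun i : Σ w, I w => L i.1 i.2) '' {i | i.1 = w})) := by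
      have h3 := Submodule.mem_map_of_mem (f := (Q w).subtype) h1
      rw [Submodule.map_span] at h3
      refine Submodule.span_mono ?_ h3
      rintro _ ⟨_, ⟨b, rfl⟩, rfl⟩
      exact ⟨L w b, ⟨⟨w, b⟩, rfl, rfl⟩, hLB w b⟩
    rw [← Submodule.map_span] at h2
    obtain ⟨g, hg, hgf⟩ := h2
    have h4 : f - g ∈ decomp M x y w := by
      rw [← Submodule.Quotient.mk_eq_zero, Submodule.Quotient.mk_sub, sub_eq_zero]
      exact hgf.symm
    have : f = g + (f - g) := by ring
    rw [this]
    exact Submodule.add_mem_sup hg h4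
  · intro w
    let e : I w ≃ {i : Σ w, I w // i.1 = w} :=
      { toFun := fun b => ⟨⟨w, b⟩, rfl⟩
        invFun := fun i => i.2 ▸ i.1.2
        left_inv := fun b => rfl
        right_inv := by
          rintro ⟨⟨w', b⟩, h⟩
          dsimp at h
          subst h
          rfl }
    rw [← linearIndependent_equiv e]
    have h5 : LinearIndependent K (fun b : I w => ((B w b : Q w) : A ⧸ decomp M x y w)) :=
      (B w).linearIndependent.map' (Q w).subtype (Submodule.ker_subtype _)
    convert h5 using 1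
    funext b
    exact hLB w b

end exist

section main

variable {M R : ℤ → Submodule K A} {x y : A} {ι : Type*} {k : ι → ℤ} {F : ι → A}

lemma IsMinGen.k_nonneg (D : RegData M R x y) (G : IsMinGen M x y k F) (i : ι) : 0 ≤ k i := by
  by_contra h
  push Not at h
  have h1 : F i = 0 := by
    have := G.mem i
    rw [D.M_neg _ h] at this
    simpa using this
  have h2 := (G.indep (k i)).ne_zero ⟨i, rfl⟩
  apply h2
  simp [h1]

/-- The `R`-span of the family in weight `w`. -/
def spanR (R : ℤ → Submodule K A) (k : ι → ℤ) (F : ι → A) (w : ℤ) : Submodule K A :=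
  ⨆ i, (R (w - k i)).map (LinearMap.mulRight K (F i))

lemma mul_mem_spanR (D : RegData M R x y) {a w : ℤ} {t f : A} (ht : t ∈ R a)
    (hf : f ∈ spanR R k F w) : t * f ∈ spanR R k F (a + w) := by
  unfold spanR at hf ⊢
  induction hf using Submodule.iSup_induction' with
  | mem i g hg =>
    obtain ⟨r, hr, rfl⟩ := hg
    refine Submodule.mem_iSup_of_mem i ⟨t * r, ?_, ?_⟩
    · have : a + (w - k i) = a + w - k i := by ring
      exact this ▸ D.R_mul_R _ _ _ _ ht hr
    · simp [mul_assoc]
  | zero => simp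
  | add g h _ _ hg hh => rw [mul_add]; exact add_mem hg hh

lemma mem_spanR_self (D : RegData M R x y) (i : ι) : F i ∈ spanR R k F (k i) := by
  refine Submodule.mem_iSup_of_mem i ⟨1, ?_, by simp⟩
  rw [sub_self]; exact D.one_mem

theorem IsMinGen.le_spanR (D : RegData M R x y) (G : IsMinGen M x y k F) (w : ℤ) :
    M w ≤ spanR R k F w := by
  suffices H : ∀ n : ℕ, ∀ w : ℤ, w < n → M w ≤ spanR R k F w by
    exact H (w.toNat + 1) w (by have := Int.self_le_toNat w; push_cast; omega)
  intro n
  induction n with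
  | zero =>
    intro w hw
    rw [D.M_neg w (by simpa using hw)]
    exact bot_le
  | succ n ih =>
    intro w hw
    push_cast at hw
    refine (G.span w).trans (sup_le ?_ ?_)
    · rw [Submodule.span_le]
      rintro _ ⟨i, hi, rfl⟩
      have hi' : k i = w := hi
      exact hi' ▸ mem_spanR_self D i
    · intro f hf
      obtain ⟨g, hg, h, hh, rfl⟩ := mem_decomp.mp hf
      have h1 := mul_mem_spanR D D.x_mem (ih (w - 4) (by omega) hg)
      have h2 := mul_mem_spanR D D.y_mem (ih (w - 6) (by omega) hh)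
      have e1 : 4 + (w - 4) = w := by ring
      have e2 : 6 + (w - 6) = w := by ring
      rw [e1] at h1
      rw [e2] at h2
      exact add_mem h1 h2

/-- **Generation.** -/
theorem IsMinGen.exists_expansion (D : RegData M R x y) (G : IsMinGen M x y k F) (w : ℤ)
    (f : A) (hf : f ∈ M w) :
    ∃ (s : Finset ι) (r : ι → A), (∀ i, r i ∈ R (w - k i)) ∧ f = ∑ i ∈ s, r i * F i := by
  classical
  have h := G.le_spanR D w hf
  unfold spanR at h
  obtain ⟨c, hc, hsum⟩ := (Submodule.mem_iSup_iff_exists_finsupp _ _).mp h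
  choose r hr hrc using hc
  refine ⟨c.support, r, hr, ?_⟩
  rw [← hsum, Finsupp.sum]
  refine Finset.sum_congr rfl fun i _ => ?_
  rw [← hrc i]; simp

lemma sum_mem_M (D : RegData M R x y) (G : IsMinGen M x y k F) {w : ℤ} (s : Finset ι)
    (r : ι → A) (hr : ∀ i ∈ s, r i ∈ R (w - k i)) : ∑ i ∈ s, r i * F i ∈ M w := by
  refine Submodule.sum_mem _ fun i hi => ?_
  have : w - k i + k i = w := by ring
  exact this ▸ D.R_mul_M _ _ _ _ (hr i hi) (G.mem i)

theorem IsMinGen.indep_aux (D : RegData M R x y) (G : IsMinGen M x y k F) (n : ℕ) :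
    ∀ w : ℤ, w < n → ∀ (s : Finset ι) (r : ι → A), (∀ i ∈ s, r i ∈ R (w - k i)) →
      (∃ m ∈ M (w - 4), ∑ i ∈ s, r i * F i = x * m) →
      ∀ i ∈ s, ∃ b ∈ R (w - k i - 4), r i = x * b := by
  classical
  induction n with
  | zero =>
    intro w hw s r hr _ i hi
    have h1 := hr i hi
    have h2 := G.k_nonneg D i
    rw [D.R_neg _ (by push_cast at hw; omega)] at h1
    exact ⟨0, zero_mem _, by simpa using h1⟩
  | succ n ih =>
    intro w hw s r hr ⟨m, hm, hsum⟩
    push_cast at hw
    choose! α r' hr' b hb hdec hα using fun i (hi : i ∈ s) => D.R_decomp _ (r i) (hr i hi)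
    have hr'' : ∀ i ∈ s, r' i ∈ R (w - 6 - k i) := fun i hi => by
      have : w - k i - 6 = w - 6 - k i := by ring
      exact this ▸ hr' i hi
    have hb'' : ∀ i ∈ s, b i ∈ R (w - 4 - k i) := fun i hi => by
      have : w - k i - 4 = w - 4 - k i := by ring
      exact this ▸ hb i hi
    set u := ∑ i ∈ s, r' i * F i with hu
    set v := ∑ i ∈ s, b i * F i with hv
    have huM : u ∈ M (w - 6) := sum_mem_M D G s r' hr''
    have hvM : v ∈ M (w - 4) := sum_mem_M D G s b hb''
    have hexp : ∑ i ∈ s, r i * F i = ∑ i ∈ s, α i • F i + y * u + x * v := by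
      rw [hu, hv, Finset.mul_sum, Finset.mul_sum, ← Finset.sum_add_distrib,
        ← Finset.sum_add_distrib]
      refine Finset.sum_congr rfl fun i hi => ?_
      rw [hdec i hi]
      simp only [add_mul, smul_mul_assoc, one_mul]
      ring
    -- the constant part is decomposable
    have h1 : ∑ i ∈ s, α i • F i ∈ decomp M x y w := by
      refine mem_decomp.mpr ⟨m - v, sub_mem hm hvM, -u, neg_mem huM, ?_⟩
      have : ∑ i ∈ s, α i • F i = x * m - y * u - x * v := by
        rw [← hsum, hexp]; ring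
      rw [this]; ring
    have hα0 : ∀ i ∈ s, α i = 0 := by
      have h2 : ∑ i ∈ s.subtype (fun i => k i = w), α i • (decomp M x y w).mkQ (F i) = 0 := by
        rw [Finset.sum_subtype_eq_sum_filter (f := fun i => α i • (decomp M x y w).mkQ (F i)),
          Finset.sum_filter]
        have h3 : (decomp M x y w).mkQ (∑ i ∈ s, α i • F i) = 0 :=
          (Submodule.Quotient.mk_eq_zero _).mpr h1
        rw [map_sum] at h3
        refine Eq.trans ?_ h3
        refine Finset.sum_congr rfl fun i hi => ?_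
        split_ifs with hki
        · rw [map_smul]
        · rw [hα i hi (fun h => hki (by omega)), zero_smul, map_zero]
      intro i hi
      by_cases hki : k i = w
      · exact linearIndependent_iff'.mp (G.indep w) _ (fun j => α j) h2 ⟨i, hki⟩
          (by simpa using hi)
      · exact hα i hi (fun h => hki (by omega))
    have h4 : y * u = x * (m - v) := by
      have : ∑ i ∈ s, α i • F i = 0 :=
        Finset.sum_eq_zero fun i hi => by rw [hα0 i hi, zero_smul]
      rw [this, zero_add] at hexp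
      rw [mul_sub, ← hsum, hexp]; ring
    have e1 : w - 4 = w - 6 + 2 := by ring
    obtain ⟨h, hh, huh⟩ := D.reg_y (w - 6) u (m - v) huM (e1 ▸ sub_mem hm hvM) h4
    have h5 := ih (w - 6) (by omega) s r' hr'' ⟨h, hh, huh⟩
    intro i hi
    obtain ⟨c, hc, hrc⟩ := h5 i hi
    refine ⟨y * c + b i, add_mem ?_ (hb i hi), ?_⟩
    · have : 6 + (w - 6 - k i - 4) = w - k i - 4 := by ring
      exact this ▸ D.R_mul_R _ _ _ _ D.y_mem hc
    · rw [hdec i hi, hα0 i hi, hrc]; simp; ring

/-- **Independence.** -/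
theorem IsMinGen.eq_zero_of_sum_eq_zero (D : RegData M R x y) (G : IsMinGen M x y k F) (w : ℤ)
    (s : Finset ι) (r : ι → A) (hr : ∀ i ∈ s, r i ∈ R (w - k i))
    (hsum : ∑ i ∈ s, r i * F i = 0) : ∀ i ∈ s, r i = 0 := by
  suffices H : ∀ n : ℕ, ∀ w : ℤ, w < n → ∀ (r : ι → A), (∀ i ∈ s, r i ∈ R (w - k i)) →
      ∑ i ∈ s, r i * F i = 0 → ∀ i ∈ s, r i = 0 by
    exact H (w.toNat + 1) w (by have := Int.self_le_toNat w; push_cast; omega) r hr hsum
  intro n
  induction n with
  | zero =>
    intro w hw r hr _ i hi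
    have h1 := hr i hi
    have h2 := G.k_nonneg D i
    rw [D.R_neg _ (by push_cast at hw; omega)] at h1
    simpa using h1
  | succ n ih =>
    intro w hw r hr hsum
    push_cast at hw
    have h1 := G.indep_aux D (n + 1) w (by push_cast; omega) s r hr
      ⟨0, zero_mem _, by rw [hsum, mul_zero]⟩
    choose! b hb hrb using h1
    have hb'' : ∀ i ∈ s, b i ∈ R (w - 4 - k i) := fun i hi => by
      have : w - k i - 4 = w - 4 - k i := by ring
      exact this ▸ hb i hi
    have h2 : x * ∑ i ∈ s, b i * F i = 0 := by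
      rw [← hsum, Finset.mul_sum]
      refine Finset.sum_congr rfl fun i hi => ?_
      rw [hrb i hi]; ring
    have h3 := D.reg_x (w - 4) _ (sum_mem_M D G s b hb'') h2
    have h4 := ih (w - 4) (by omega) b hb'' h3
    intro i hi
    rw [hrb i hi, h4 i hi, mul_zero]

end main

end Fermat.Agent.S20
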