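import Fermat.Agent.S20.LevelOneMFs

set_option autoImplicit false

/-! Level one input for S20: sum of `dim M_k(SL2 Z)` over six consecutive even weights. -/

namespace Fermat.Agent.S20

/-- sum of the dimensions over six consecutive even weights. -/
theorem l1dim_sum_six {m : ℤ} (hm : -8 ≤ m) (he : Even m) :
    (l1dim m : ℤ) + l1dim (m + 2) + l1dim (m + 4) + l1dim (m + 6) + l1dim (m + 8) + l1dim (m + 10)
      = 5 + m / 2 := by
  obtain ⟨c, rfl⟩ := he
  have key : ∀ j : ℤ, (l1dim (2 * j) : ℤ) =
      if j < 0 then 0 else if (2 * j) % 12 = 2 then (2 * j) / 12 else (2 * j) / 12 + 1 := by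
    intro j
    split_ifs with h1 h2
    · rw [l1dim_of_neg (by omega)]; rfl
    · rw [l1dim_of_even (by omega) ⟨j, by ring⟩, if_pos h2]
    · rw [l1dim_of_even (by omega) ⟨j, by ring⟩, if_neg h2]
  have e0 : c + c = 2 * c := by ring
  have e1 : c + c + 2 = 2 * (c + 1) := by ring
  have e2 : c + c + 4 = 2 * (c + 2) := by ring
  have e3 : c + c + 6 = 2 * (c + 3) := by ring
  have e4 : c + c + 8 = 2 * (c + 4) := by ring
  have e5 : c + c + 10 = 2 * (c + 5) := by ring
  rw [e1, e2, e3, e4, e5, e0, key, key, key, key, key, key]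
  split_ifs <;> omega

end Fermat.Agent.S20
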