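import Fermat.Agent.S20.FreeFam
import Fermat.Agent.S20.LevelOneDiv

set_option autoImplicit false

/-! Level one input for S20 (piece L) in the conventions of `Defs.lean`: dimensions of `MFs ⊤ k`. -/

namespace Fermat.Agent.S20

open UpperHalfPlane ModularForm ModularFormClass MatrixGroups EisensteinSeries Filter Topology

noncomputable section

/-- `ModularForm 𝒮ℒ k ≃ MFs ⊤ k`. -/
def l1lin (k : ℤ) : ModularForm 𝒮ℒ k →ₗ[ℂ] MFs ⊤ k where
  toFun F := ⟨⇑F, mf_coe_mem_MFs_top F⟩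
  map_add' _ _ := rfl
  map_smul' _ _ := rfl

/-- `ModularForm 𝒮ℒ k ≃ MFs ⊤ k`. -/
def l1equiv (k : ℤ) : ModularForm 𝒮ℒ k ≃ₗ[ℂ] MFs ⊤ k :=
  LinearEquiv.ofBijective (l1lin k)
    ⟨fun F G h => DFunLike.coe_injective (congrArg Subtype.val h), fun ⟨f, hf⟩ => by
      obtain ⟨F, rfl⟩ := exists_modularForm_of_mem_MFs_top hf
      exact ⟨F, rfl⟩⟩

@[simp] theorem l1equiv_coe (k : ℤ) (F : ModularForm 𝒮ℒ k) : ((l1equiv k F : MFs ⊤ k) : ℍ → ℂ) = F :=
  rfl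

instance l1_finiteDimensional (k : ℤ) : FiniteDimensional ℂ (MFs ⊤ k) :=
  LinearEquiv.finiteDimensional (l1equiv k)

theorem finrank_MFs_top (k : ℤ) : Module.finrank ℂ (MFs ⊤ k) = l1dim k := by
  rw [← (l1equiv k).finrank_eq, l1_finrank]

theorem MFs_top_eq_bot_of_l1dim {k : ℤ} (h : l1dim k = 0) : MFs ⊤ k = ⊥ := by
  rw [← Submodule.finrank_eq_zero (R := ℂ), finrank_MFs_top, h]

theorem MFs_top_eq_bot_of_neg {k : ℤ} (h : k < 0) : MFs ⊤ k = ⊥ :=
  MFs_top_eq_bot_of_l1dim (by simp [l1dim, h])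

theorem MFs_top_eq_bot_of_odd {k : ℤ} (h : Odd k) : MFs ⊤ k = ⊥ :=
  MFs_top_eq_bot_of_l1dim (by simp [l1dim, h])

theorem MFs_top_two : MFs ⊤ 2 = ⊥ :=
  MFs_top_eq_bot_of_l1dim (by simp [l1dim])

theorem l1dim_zero : l1dim 0 = 1 := by simp [l1dim]
theorem l1dim_two : l1dim 2 = 0 := by simp [l1dim]
theorem l1dim_four : l1dim 4 = 1 := by decide
theorem l1dim_six : l1dim 6 = 1 := by decide
theorem l1dim_eight : l1dim 8 = 1 := by decide
theorem l1dim_ten : l1dim 10 = 1 := by decide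
theorem l1dim_of_neg {k : ℤ} (h : k < 0) : l1dim k = 0 := by simp [l1dim, h]
theorem l1dim_of_odd {k : ℤ} (h : Odd k) : l1dim k = 0 := by simp [l1dim, h]

theorem mem_MFs_top_zero {F : ℍ → ℂ} : F ∈ MFs ⊤ 0 ↔ ∃ c : ℂ, F = fun _ => c := by
  constructor
  · intro h
    obtain ⟨G, rfl⟩ := exists_modularForm_of_mem_MFs_top h
    obtain ⟨c, hc⟩ := levelOne_weight_zero_const G
    exact ⟨c, hc⟩
  · rintro ⟨c, rfl⟩
    exact mf_coe_mem_MFs_top (ModularForm.const c)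

/-- closed form of `l1dim` on even weights `≥ 0`. -/
theorem l1dim_of_even {k : ℤ} (h0 : 0 ≤ k) (he : Even k) :
    (l1dim k : ℤ) = if k % 12 = 2 then k / 12 else k / 12 + 1 := by
  unfold l1dim
  have h1 : ¬ (k < 0 ∨ Odd k) := by
    push Not
    exact ⟨h0, Int.not_odd_iff_even.mpr he⟩
  rw [if_neg h1]
  split_ifs <;> push_cast <;> omega

end

end Fermat.Agent.S20
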