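import Fermat.Agent.S20.LevelOnePi

set_option autoImplicit false

/-! Level one input for S20 (piece L): `E₄ ρ = 0`, `E₆ i = 0`, and the decompositions
`F = α E₆ ^ n + E₄ G`, `F = α E₄ ^ n + E₆ G`. -/

namespace Fermat.Agent.S20

open UpperHalfPlane ModularForm ModularFormClass MatrixGroups EisensteinSeries Filter Topology

noncomputable section

/-- value formula for level one forms. -/
theorem l1_apply_smul {k : ℤ} (F : ModularForm 𝒮ℒ k) (γ : SL(2, ℤ)) (z : ℍ) :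
    F (γ • z) = denom γ z ^ k * F z :=
  SlashInvariantForm.slash_action_eqn'' (Γ := 𝒮ℒ) F
    (γ := Matrix.SpecialLinearGroup.mapGL ℝ γ) (MonoidHom.mem_range.mpr ⟨γ, rfl⟩) z

/-- the point `ρ = (-1 + √3 i) / 2`. -/
def l1rho : ℍ := ⟨⟨-1 / 2, √3 / 2⟩, by
  show 0 < √3 / 2
  positivity⟩

theorem l1rho_coe : (l1rho : ℂ) = ⟨-1 / 2, √3 / 2⟩ := rfl

theorem l1rho_sq : (l1rho : ℂ) ^ 2 + l1rho + 1 = 0 := by
  have h3 : √3 * √3 = 3 := Real.mul_self_sqrt (by norm_num)
  rw [l1rho_coe]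
  apply Complex.ext
  · simp [pow_two]
    nlinarith
  · simp [pow_two]
    ring

theorem l1_ST_smul_rho : (ModularGroup.S * ModularGroup.T) • l1rho = l1rho := by
  apply UpperHalfPlane.ext
  rw [UpperHalfPlane.specialLinearGroup_apply]
  have h := l1rho_sq
  have hne : (l1rho : ℂ) + 1 ≠ 0 := by
    intro h0
    have : (l1rho : ℂ) ^ 2 = 0 := by linear_combination h - h0
    exact l1rho.ne_zero (pow_eq_zero_iff (two_ne_zero) |>.mp this)
  simp [ModularGroup.S, ModularGroup.T, Matrix.mul_apply, Fin.sum_univ_two]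
  field_simp
  linear_combination -h

theorem l1_denom_ST_rho : denom (ModularGroup.S * ModularGroup.T : SL(2, ℤ)) l1rho = l1rho + 1 := by
  simp [denom, ModularGroup.S, ModularGroup.T, Matrix.mul_apply, Fin.sum_univ_two]

theorem l1_E₄_rho : E₄ l1rho = 0 := by
  have h := l1_apply_smul E₄ (ModularGroup.S * ModularGroup.T) l1rho
  rw [l1_ST_smul_rho, l1_denom_ST_rho] at h
  have hr := l1rho_sq
  have h4 : ((l1rho : ℂ) + 1) ^ (4 : ℤ) = -(l1rho : ℂ) - 1 := by
    have : ((l1rho : ℂ) + 1) ^ (4 : ℤ) = ((l1rho : ℂ) + 1) ^ 4 := by norm_cast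
    rw [this]
    linear_combination ((l1rho : ℂ) ^ 2 + 3 * l1rho + 2) * hr
  rw [h4] at h
  have hne : (l1rho : ℂ) + 2 ≠ 0 := by
    intro h0
    have := congrArg Complex.im h0
    rw [l1rho_coe] at this
    simp at this
  have : ((l1rho : ℂ) + 2) * E₄ l1rho = 0 := by linear_combination h
  exact (mul_eq_zero.mp this).resolve_left hne

theorem l1_S_smul_I : ModularGroup.S • (UpperHalfPlane.I : ℍ) = UpperHalfPlane.I := by
  apply UpperHalfPlane.ext
  rw [UpperHalfPlane.specialLinearGroup_apply]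
  simp [ModularGroup.S]

theorem l1_denom_S_I : denom (ModularGroup.S : SL(2, ℤ)) UpperHalfPlane.I = Complex.I := by
  simp [denom, ModularGroup.S]

theorem l1_E₆_I : E₆ UpperHalfPlane.I = 0 := by
  have h := l1_apply_smul E₆ ModularGroup.S UpperHalfPlane.I
  rw [l1_S_smul_I, l1_denom_S_I] at h
  have h6 : (Complex.I) ^ (6 : ℤ) = -1 := by
    have : (Complex.I) ^ (6 : ℤ) = Complex.I ^ 6 := by norm_cast
    rw [this]
    have h2 : Complex.I ^ 6 = (Complex.I ^ 2) ^ 3 := by ring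
    rw [h2, Complex.I_sq]; norm_num
  rw [h6] at h
  have : (2 : ℂ) * E₆ UpperHalfPlane.I = 0 := by linear_combination h
  exact (mul_eq_zero.mp this).resolve_left two_ne_zero

/-- (Lc) every level one form is `α E₆ ^ n + E₄ G`, with `6 n = k` unless `α = 0`. -/
theorem exists_E₆_pow_add_E₄_mul (k : ℤ) (F : ModularForm 𝒮ℒ k) :
    ∃ (α : ℂ) (n : ℕ) (G : ModularForm 𝒮ℒ (k - 4)), (α ≠ 0 → (6 : ℤ) * n = k) ∧
      ∀ z, F z = α * E₆ z ^ n + E₄ z * G z := by
  by_cases h6 : (6 : ℤ) ∣ k ∧ 0 ≤ k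
  · obtain ⟨⟨m, hm⟩, hk⟩ := h6
    have hm0 : 0 ≤ m := by omega
    lift m to ℕ using hm0
    have hne : E₆ l1rho ^ m ≠ 0 := pow_ne_zero m (l1_E₆_ne_of_E₄_eq l1_E₄_rho)
    obtain ⟨G, hG⟩ := l1_div_E₄ l1_E₄_rho k
      (F - (F l1rho / E₆ l1rho ^ m) • l1mono 0 m k (by rw [hm]; ring)) (by
        simp
        field_simp
        ring)
    refine ⟨F l1rho / E₆ l1rho ^ m, m, G, fun _ => hm.symm, fun z => ?_⟩
    have := hG z
    simp at this
    linear_combination this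
  · by_cases h6' : (6 : ℤ) ∣ k
    · have hk : k < 0 := by
        by_contra hc
        exact h6 ⟨h6', not_lt.mp hc⟩
      refine ⟨0, 0, 0, fun h => absurd rfl h, fun z => ?_⟩
      have := congrFun (levelOne_neg_weight_eq_zero hk F) z
      simpa using this
    · obtain ⟨G, hG⟩ := exists_E₄_mul k h6' F
      exact ⟨0, 0, G, fun h => absurd rfl h, fun z => by rw [hG z]; ring⟩

/-- every level one form is `α E₄ ^ n + E₆ G`, with `4 n = k` unless `α = 0`. -/
theorem exists_E₄_pow_add_E₆_mul (k : ℤ) (F : ModularForm 𝒮ℒ k) :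
    ∃ (α : ℂ) (n : ℕ) (G : ModularForm 𝒮ℒ (k - 6)), (α ≠ 0 → (4 : ℤ) * n = k) ∧
      ∀ z, F z = α * E₄ z ^ n + E₆ z * G z := by
  by_cases h6 : (4 : ℤ) ∣ k ∧ 0 ≤ k
  · obtain ⟨⟨m, hm⟩, hk⟩ := h6
    have hm0 : 0 ≤ m := by omega
    lift m to ℕ using hm0
    have hne : E₄ UpperHalfPlane.I ^ m ≠ 0 := pow_ne_zero m (l1_E₄_ne_of_E₆_eq l1_E₆_I)
    obtain ⟨G, hG⟩ := l1_div_E₆ l1_E₆_I k
      (F - (F UpperHalfPlane.I / E₄ UpperHalfPlane.I ^ m) • l1mono m 0 k (by rw [hm]; ring)) (by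
        simp
        field_simp
        ring)
    refine ⟨F UpperHalfPlane.I / E₄ UpperHalfPlane.I ^ m, m, G, fun _ => hm.symm, fun z => ?_⟩
    have := hG z
    simp at this
    linear_combination this
  · by_cases h6' : (4 : ℤ) ∣ k
    · have hk : k < 0 := by
        by_contra hc
        exact h6 ⟨h6', not_lt.mp hc⟩
      refine ⟨0, 0, 0, fun h => absurd rfl h, fun z => ?_⟩
      have := congrFun (levelOne_neg_weight_eq_zero hk F) z
      simpa using this
    · obtain ⟨G, hG⟩ := exists_E₆_mul k h6' F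
      exact ⟨0, 0, G, fun h => absurd rfl h, fun z => by rw [hG z]; ring⟩

end

end Fermat.Agent.S20
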